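import Mathlib

/-!
# S14, package N1: partial zeta functions of ideal classes differ by `O(1)`

For a number field `K` and ideal classes `C`, `C'`, the difference
`∑_{I ∈ C} N(I)^(-s) - ∑_{I ∈ C'} N(I)^(-s)` is bounded for `s ∈ (1, 2]`.

Method (no integrals, no boundary counting): a tent-function partition of unity for the
action of the units, and a comparison of the sum over the lattice `𝓞 K` with the sum over a
sublattice (an integral ideal) by averaging over cosets.
-/

namespace Fermat.Agent.S14.ClassZeta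

open NumberField NumberField.InfinitePlace NumberField.Units
  NumberField.Units.dirichletUnitTheorem
open scoped nonZeroDivisors Classical

noncomputable section

/-! ## The tent function -/

/-- The tent function `t ↦ max 0 (1 - |t|)`. -/
def tent (t : ℝ) : ℝ := max 0 (1 - |t|)

lemma tent_nonneg (t : ℝ) : 0 ≤ tent t := le_max_left _ _

lemma tent_le_one (t : ℝ) : tent t ≤ 1 := by
  unfold tent
  exact max_le zero_le_one (by linarith [abs_nonneg t])

lemma tent_eq_zero {t : ℝ} (h : 1 ≤ |t|) : tent t = 0 := by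
  unfold tent
  exact max_eq_left (by linarith)

lemma abs_lt_one_of_tent_ne_zero {t : ℝ} (h : tent t ≠ 0) : |t| < 1 := by
  by_contra h'
  exact h (tent_eq_zero (not_lt.mp h'))

lemma tent_sub_le (a b : ℝ) : |tent a - tent b| ≤ |a - b| := by
  unfold tent
  have h1 : |(1 - |a|) - (1 - |b|)| ≤ |a - b| := by
    have := abs_abs_sub_abs_le_abs_sub a b
    rw [show (1 - |a|) - (1 - |b|) = -(|a| - |b|) by ring, abs_neg]
    exact this
  rw [max_comm 0 (1 - |a|), max_comm 0 (1 - |b|)]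
  exact (abs_max_sub_max_le_abs _ _ _).trans h1

lemma tent_fract_add (t : ℝ) : tent (t + ((-⌊t⌋ - 1 : ℤ) : ℝ)) + tent (t + ((-⌊t⌋ : ℤ) : ℝ)) = 1 := by
  have h0 := Int.fract_nonneg t
  have h1 := Int.fract_lt_one t
  have e1 : t + ((-⌊t⌋ - 1 : ℤ) : ℝ) = Int.fract t - 1 := by
    push_cast; rw [Int.fract]; ring
  have e2 : t + ((-⌊t⌋ : ℤ) : ℝ) = Int.fract t := by
    push_cast; rw [Int.fract]; ring
  rw [e1, e2]
  unfold tent
  rw [abs_of_nonpos (by linarith), abs_of_nonneg h0, max_eq_right (by linarith),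
    max_eq_right (by linarith)]
  ring

lemma tent_add_int_eq_zero (t : ℝ) (k : ℤ) (h1 : k ≠ -⌊t⌋ - 1) (h2 : k ≠ -⌊t⌋) :
    tent (t + (k : ℝ)) = 0 := by
  apply tent_eq_zero
  have h0 := Int.fract_nonneg t
  have h1' := Int.fract_lt_one t
  have e : t + (k : ℝ) = Int.fract t + ((⌊t⌋ + k : ℤ) : ℝ) := by
    push_cast; rw [Int.fract]; ring
  rw [e]
  rcases lt_trichotomy (⌊t⌋ + k) (-1) with h | h | h
  · have : ((⌊t⌋ + k : ℤ) : ℝ) ≤ -2 := by exact_mod_cast (by omega : ⌊t⌋ + k ≤ -2)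
    rw [abs_of_nonpos (by linarith)]; linarith
  · exact absurd (by omega : k = -⌊t⌋ - 1) h1
  · rcases eq_or_lt_of_le (by omega : 0 ≤ ⌊t⌋ + k) with h' | h'
    · exact absurd (by omega : k = -⌊t⌋) h2
    · have : (1 : ℝ) ≤ ((⌊t⌋ + k : ℤ) : ℝ) := by exact_mod_cast (by omega : 1 ≤ ⌊t⌋ + k)
      rw [abs_of_nonneg (by linarith)]; linarith

/-- The integer translates of the tent function form a partition of unity. -/
lemma hasSum_tent (t : ℝ) : HasSum (fun k : ℤ => tent (t + (k : ℝ))) 1 := by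
  have h := hasSum_sum_of_ne_finset_zero (f := fun k : ℤ => tent (t + (k : ℝ)))
    (s := {-⌊t⌋ - 1, -⌊t⌋}) (L := SummationFilter.unconditional ℤ) (by
      intro k hk
      simp only [Finset.mem_insert, Finset.mem_singleton, not_or] at hk
      exact tent_add_int_eq_zero t k hk.1 hk.2)
  rw [Finset.sum_pair (by omega)] at h
  rw [tent_fract_add] at h
  exact h

/-- Lipschitz bound for a product of tent functions. -/
lemma abs_prod_tent_sub_le {ι : Type*} (s : Finset ι) (a b : ι → ℝ) :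
    |∏ i ∈ s, tent (a i) - ∏ i ∈ s, tent (b i)| ≤ ∑ i ∈ s, |a i - b i| := by
  classical
  induction s using Finset.induction_on with
  | empty => simp
  | insert j s hj ih =>
    rw [Finset.prod_insert hj, Finset.prod_insert hj, Finset.sum_insert hj]
    have hP : |∏ i ∈ s, tent (a i)| ≤ 1 := by
      rw [Finset.abs_prod]
      exact Finset.prod_le_one (fun _ _ => abs_nonneg _)
        (fun i _ => by rw [abs_of_nonneg (tent_nonneg _)]; exact tent_le_one _)
    have e : tent (a j) * ∏ i ∈ s, tent (a i) - tent (b j) * ∏ i ∈ s, tent (b i) =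
        (tent (a j) - tent (b j)) * ∏ i ∈ s, tent (a i) +
          tent (b j) * (∏ i ∈ s, tent (a i) - ∏ i ∈ s, tent (b i)) := by ring
    rw [e]
    refine (abs_add_le _ _).trans (add_le_add ?_ ?_)
    · rw [abs_mul]
      calc |tent (a j) - tent (b j)| * |∏ i ∈ s, tent (a i)|
          ≤ |a j - b j| * 1 := mul_le_mul (tent_sub_le _ _) hP (abs_nonneg _) (abs_nonneg _)
        _ = |a j - b j| := mul_one _
    · rw [abs_mul, abs_of_nonneg (tent_nonneg _)]
      calc tent (b j) * |∏ i ∈ s, tent (a i) - ∏ i ∈ s, tent (b i)|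
          ≤ 1 * ∑ i ∈ s, |a i - b i| :=
            mul_le_mul (tent_le_one _) ih (abs_nonneg _) zero_le_one
        _ = ∑ i ∈ s, |a i - b i| := one_mul _

/-- The translates by `ℤ^ι` of a product of tent functions form a partition of unity. -/
lemma hasSum_prod_tent {ι : Type*} [Fintype ι] (c : ι → ℝ) :
    HasSum (fun e : ι → ℤ => ∏ i, tent (c i + (e i : ℝ))) 1 := by
  classical
  have h := hasSum_sum_of_ne_finset_zero (f := fun e : ι → ℤ => ∏ i, tent (c i + (e i : ℝ)))
    (s := Fintype.piFinset fun i => ({-⌊c i⌋ - 1, -⌊c i⌋} : Finset ℤ))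
    (L := SummationFilter.unconditional (ι → ℤ)) (by
      intro e he
      simp only [Fintype.mem_piFinset, Finset.mem_insert, Finset.mem_singleton, not_forall,
        not_or] at he
      obtain ⟨i, hi⟩ := he
      exact Finset.prod_eq_zero (Finset.mem_univ i) (tent_add_int_eq_zero (c i) (e i) hi.1 hi.2))
  rw [← Finset.prod_univ_sum (fun i => ({-⌊c i⌋ - 1, -⌊c i⌋} : Finset ℤ))
    (fun i k => tent (c i + (k : ℝ)))] at h
  have h1 : ∀ i, ∑ k ∈ ({-⌊c i⌋ - 1, -⌊c i⌋} : Finset ℤ), tent (c i + (k : ℝ)) = 1 := by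
    intro i
    rw [Finset.sum_pair (by omega)]
    exact tent_fract_add (c i)
  simpa [h1] using h

/-! ## Coset comparison -/

/-- Coset representatives of a finite-index subgroup. -/
lemma exists_coset_reps {A : Type*} [AddCommGroup A] (H : AddSubgroup A) [Finite (A ⧸ H)] :
    ∃ R : Finset A, R.card = Nat.card (A ⧸ H) ∧ ∀ a : A, ∃! r, r ∈ R ∧ a - r ∈ H := by
  classical
  have : Fintype (A ⧸ H) := Fintype.ofFinite _
  have hinj : Function.Injective (fun q : A ⧸ H => Quotient.out q) := by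
    intro q q' h
    have h' : (Quotient.out q : A) = Quotient.out q' := h
    rw [← QuotientAddGroup.out_eq' q, ← QuotientAddGroup.out_eq' q', h']
  refine ⟨Finset.univ.image (fun q : A ⧸ H => Quotient.out q), ?_, ?_⟩
  · rw [Finset.card_image_of_injective _ hinj, Nat.card_eq_fintype_card, Finset.card_univ]
  · intro a
    refine ⟨Quotient.out (QuotientAddGroup.mk a : A ⧸ H), ⟨?_, ?_⟩, ?_⟩
    · exact Finset.mem_image_of_mem _ (Finset.mem_univ _)
    · rw [← QuotientAddGroup.eq_iff_sub_mem, QuotientAddGroup.out_eq']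
    · rintro r ⟨hr, hr'⟩
      obtain ⟨q, -, rfl⟩ := Finset.mem_image.mp hr
      have : (QuotientAddGroup.mk a : A ⧸ H) = q := by
        rw [← QuotientAddGroup.out_eq' q]
        exact QuotientAddGroup.eq_iff_sub_mem.mpr hr'
      rw [this]

/-- Comparison of the sum over a group with the sum over a finite-index subgroup. -/
lemma tsum_sub_card_mul_tsum_indicator {A : Type*} [AddCommGroup A] (H : AddSubgroup A)
    (R : Finset A) (hR : ∀ a : A, ∃! r, r ∈ R ∧ a - r ∈ H) (G : A → ℝ) (hG : Summable G) :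
    ∑' a, G a - R.card * ∑' a, (H : Set A).indicator G a =
      ∑ r ∈ R, ∑' b, (H : Set A).indicator (fun b => G (b + r) - G b) b := by
  classical
  have hshift : ∀ r : A, Summable fun b => G (b + r) := fun r =>
    (Equiv.summable_iff (Equiv.addRight r)).mpr hG
  have h1 : ∀ a : A, G a = ∑ r ∈ R, (H : Set A).indicator (fun b => G (b + r)) (a - r) := by
    intro a
    obtain ⟨r₀, ⟨hr₀, hr₀'⟩, huniq⟩ := hR a
    rw [Finset.sum_eq_single_of_mem r₀ hr₀]
    · rw [Set.indicator_of_mem (by exact hr₀'), sub_add_cancel]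
    · intro r hr hne
      apply Set.indicator_of_notMem
      intro hmem
      exact hne (huniq r ⟨hr, hmem⟩)
  have h2 : ∑' a, G a = ∑ r ∈ R, ∑' b, (H : Set A).indicator (fun b => G (b + r)) b := by
    calc ∑' a, G a = ∑' a, ∑ r ∈ R, (H : Set A).indicator (fun b => G (b + r)) (a - r) :=
          tsum_congr h1
      _ = ∑ r ∈ R, ∑' a, (H : Set A).indicator (fun b => G (b + r)) (a - r) := by
          apply Summable.tsum_finsetSum
          intro r _
          exact (Equiv.summable_iff (Equiv.subRight r)).mpr ((hshift r).indicator _)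
      _ = ∑ r ∈ R, ∑' b, (H : Set A).indicator (fun b => G (b + r)) b := by
          refine Finset.sum_congr rfl fun r _ => ?_
          exact (Equiv.subRight r).tsum_eq ((H : Set A).indicator (fun b => G (b + r)))
  rw [h2, ← nsmul_eq_mul, ← Finset.sum_const, ← Finset.sum_sub_distrib]
  refine Finset.sum_congr rfl fun r _ => ?_
  rw [← Summable.tsum_sub ((hshift r).indicator _) (hG.indicator _)]
  refine tsum_congr fun b => ?_
  rw [Set.indicator_sub]

/-- Quantitative form of the coset comparison. -/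
lemma abs_tsum_sub_card_mul_tsum_indicator_le {A : Type*} [AddCommGroup A] (H : AddSubgroup A)
    (R : Finset A) (hR : ∀ a : A, ∃! r, r ∈ R ∧ a - r ∈ H) (G : A → ℝ) (hG : Summable G)
    (D : A → A → ℝ) (hD : ∀ r b, |G (b + r) - G b| ≤ D r b) (hDs : ∀ r, Summable (D r)) :
    |∑' a, G a - R.card * ∑' a, (H : Set A).indicator G a| ≤ ∑ r ∈ R, ∑' b, D r b := by
  rw [tsum_sub_card_mul_tsum_indicator H R hR G hG]
  refine (Finset.abs_sum_le_sum_abs _ _).trans (Finset.sum_le_sum fun r _ => ?_)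
  rw [← Real.norm_eq_abs]
  refine tsum_of_norm_bounded (hDs r).hasSum fun b => ?_
  rw [Real.norm_eq_abs]
  by_cases hb : b ∈ (H : Set A)
  · rw [Set.indicator_of_mem hb]; exact hD r b
  · rw [Set.indicator_of_notMem hb, abs_zero]
    exact (abs_nonneg _).trans (hD r b)

/-! ## Unit coordinates and the weight function -/

section NF

variable (K : Type*) [Field K] [NumberField K]

/-- The real basis of `logSpace K` given by a fundamental system of units. -/
def logBasis : Module.Basis (Fin (rank K)) ℝ (logSpace K) :=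
  basisOfIsMaxRank (isMaxRank_fundSystem K)

lemma logBasis_apply (i : Fin (rank K)) :
    logBasis K i = logEmbedding K (Additive.ofMul (fundSystem K i)) := by
  rw [logBasis, basisOfIsMaxRank_apply]

/-- The absolute value of the norm, as a real number. -/
def absN (x : K) : ℝ := |((Algebra.norm ℚ x : ℚ) : ℝ)|

lemma absN_eq_prod (x : K) : absN K x = ∏ w : InfinitePlace K, w x ^ mult w := by
  rw [prod_eq_abs_norm, absN]
  push_cast
  rfl

lemma absN_pos {x : K} (hx : x ≠ 0) : 0 < absN K x := by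
  rw [absN_eq_prod]
  exact Finset.prod_pos fun w _ => pow_pos (pos_iff.mpr hx) _

lemma absN_unit_mul (u : (𝓞 K)ˣ) (x : K) : absN K (((u : 𝓞 K) : K) * x) = absN K x := by
  have h := Units.norm K u
  have h' : |((Algebra.norm ℚ (((u : 𝓞 K) : K)) : ℚ) : ℝ)| = 1 := by
    rw [← Rat.cast_abs, h, Rat.cast_one]
  rw [absN, map_mul, Rat.cast_mul, abs_mul, h', one_mul, absN]

/-- The normalised logarithmic vector of an element of `K`. -/
def logVec (x : K) : logSpace K := fun w =>
  (mult w.1 : ℝ) * (Real.log (w.1 x) - Real.log (absN K x) / (Module.finrank ℚ K : ℝ))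

lemma logVec_unit_mul (u : (𝓞 K)ˣ) {x : K} (hx : x ≠ 0) :
    logVec K (((u : 𝓞 K) : K) * x) = logEmbedding K (Additive.ofMul u) + logVec K x := by
  ext w
  have hu : (w.1 ((u : 𝓞 K) : K)) ≠ 0 := (pos_iff.mpr (by
    simp)).ne'
  have hx' : w.1 x ≠ 0 := (pos_iff.mpr hx).ne'
  rw [Pi.add_apply, logEmbedding_component, logVec, logVec, absN_unit_mul, map_mul,
    Real.log_mul hu hx']
  ring

/-- Coordinates of `logVec` in the basis of fundamental units. -/
def coordU (x : K) (i : Fin (rank K)) : ℝ := (logBasis K).repr (logVec K x) i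

lemma logEmbedding_torsion_mul_prod (ζ : torsion K) (e : Fin (rank K) → ℤ) :
    logEmbedding K (Additive.ofMul ((ζ : (𝓞 K)ˣ) * ∏ i, fundSystem K i ^ e i)) =
      ∑ i, (e i : ℝ) • logBasis K i := by
  rw [ofMul_mul, map_add, logEmbedding_eq_zero_iff.mpr ζ.2, zero_add, ofMul_prod, map_sum]
  refine Finset.sum_congr rfl fun i _ => ?_
  rw [ofMul_zpow, map_zsmul, logBasis_apply, Int.cast_smul_eq_zsmul]

lemma coordU_unit_mul (ζ : torsion K) (e : Fin (rank K) → ℤ) {x : K} (hx : x ≠ 0)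
    (i : Fin (rank K)) :
    coordU K ((((((ζ : (𝓞 K)ˣ) * ∏ i, fundSystem K i ^ e i : (𝓞 K)ˣ) : 𝓞 K) : K)) * x) i =
      coordU K x i + (e i : ℝ) := by
  rw [coordU, logVec_unit_mul K _ hx, map_add, logEmbedding_torsion_mul_prod,
    Finsupp.add_apply, Module.Basis.repr_sum_self, coordU, add_comm]

/-- The weight function: a partition of unity for the action of the units. -/
def weight (x : K) : ℝ := (∏ i, tent (coordU K x i)) / (torsionOrder K : ℝ)

lemma weight_nonneg (x : K) : 0 ≤ weight K x :=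
  div_nonneg (Finset.prod_nonneg fun _ _ => tent_nonneg _) (Nat.cast_nonneg _)

lemma weight_le_one (x : K) : weight K x ≤ 1 := by
  have h1 : (1 : ℝ) ≤ torsionOrder K := by exact_mod_cast torsionOrder_pos K
  have h2 : ∏ i, tent (coordU K x i) ≤ 1 :=
    Finset.prod_le_one (fun _ _ => tent_nonneg _) (fun _ _ => tent_le_one _)
  rw [weight, div_le_one (by linarith)]
  linarith

lemma abs_coordU_lt_one_of_weight_ne_zero {x : K} (h : weight K x ≠ 0) (i : Fin (rank K)) :
    |coordU K x i| < 1 := by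
  apply abs_lt_one_of_tent_ne_zero
  intro h0
  exact h (by rw [weight, Finset.prod_eq_zero (Finset.mem_univ i) h0, zero_div])

/-- The parametrisation of the units by roots of unity and exponents. -/
def unitsEquiv : torsion K × (Fin (rank K) → ℤ) ≃ (𝓞 K)ˣ :=
  Equiv.ofBijective (fun p => (p.1 : (𝓞 K)ˣ) * ∏ i, fundSystem K i ^ p.2 i) (by
    constructor
    · intro p q h
      obtain ⟨r, -, hr⟩ := exist_unique_eq_mul_prod K
        ((p.1 : (𝓞 K)ˣ) * ∏ i, fundSystem K i ^ p.2 i)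
      rw [hr p rfl, hr q h]
    · intro x
      obtain ⟨r, hr, -⟩ := exist_unique_eq_mul_prod K x
      exact ⟨r, hr.symm⟩)

lemma unitsEquiv_apply (p : torsion K × (Fin (rank K) → ℤ)) :
    unitsEquiv K p = (p.1 : (𝓞 K)ˣ) * ∏ i, fundSystem K i ^ p.2 i := rfl

/-- The weights of the unit multiples of a nonzero element sum to `1`. -/
lemma hasSum_weight_units {x : K} (hx : x ≠ 0) :
    HasSum (fun u : (𝓞 K)ˣ => weight K (((u : 𝓞 K) : K) * x)) 1 := by
  classical
  rw [← Equiv.hasSum_iff (unitsEquiv K)]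
  have hw : (0 : ℝ) < torsionOrder K := by exact_mod_cast torsionOrder_pos K
  have : Fintype (torsion K) := Fintype.ofFinite _
  have hcard : (Fintype.card (torsion K) : ℝ) = torsionOrder K := by
    rw [torsionOrder, Nat.card_eq_fintype_card]
  set g : (Fin (rank K) → ℤ) → ℝ := fun e =>
    (∏ i, tent (coordU K x i + (e i : ℝ))) / (torsionOrder K : ℝ) with hg
  have hgsum : HasSum g (1 / (torsionOrder K : ℝ)) :=
    (hasSum_prod_tent (fun i => coordU K x i)).div_const _
  have hfg : ((fun u : (𝓞 K)ˣ => weight K (((u : 𝓞 K) : K) * x)) ∘ (unitsEquiv K)) =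
      fun p : torsion K × (Fin (rank K) → ℤ) => g p.2 := by
    funext p
    simp only [Function.comp_apply, unitsEquiv_apply, hg, weight]
    congr 1
    refine Finset.prod_congr rfl fun i _ => ?_
    rw [coordU_unit_mul K p.1 p.2 hx i]
  rw [hfg]
  have hnn : (0 : torsion K × (Fin (rank K) → ℤ) → ℝ) ≤ fun p => g p.2 := fun p =>
    div_nonneg (Finset.prod_nonneg fun _ _ => tent_nonneg _) hw.le
  have hsum : Summable fun p : torsion K × (Fin (rank K) → ℤ) => g p.2 :=
    (summable_prod_of_nonneg hnn).mpr ⟨fun _ => hgsum.summable, Summable.of_finite⟩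
  have htsum : ∑' p : torsion K × (Fin (rank K) → ℤ), g p.2 = 1 := by
    rw [hsum.tsum_prod' (fun _ => hgsum.summable), tsum_fintype]
    simp only [hgsum.tsum_eq, Finset.sum_const, Finset.card_univ, nsmul_eq_mul, hcard]
    field_simp
  rw [← htsum]
  exact hsum.hasSum

end NF

/-! ## The size of an element and the cone estimate -/

section Size

variable (K : Type*) [Field K] [NumberField K]

/-- The size of an element: the largest of its archimedean absolute values. -/
def size (x : K) : ℝ := ‖mixedEmbedding K x‖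

lemma size_nonneg (x : K) : 0 ≤ size K x := norm_nonneg _

lemma place_le_size (w : InfinitePlace K) (x : K) : w x ≤ size K x := by
  rw [size, mixedEmbedding.norm_eq_sup'_normAtPlace, ← mixedEmbedding.normAtPlace_apply w x]
  exact Finset.le_sup' (fun w => mixedEmbedding.normAtPlace w (mixedEmbedding K x))
    (Finset.mem_univ w)

lemma exists_place_eq_size (x : K) : ∃ w : InfinitePlace K, w x = size K x := by
  obtain ⟨w, -, hw⟩ := Finset.exists_mem_eq_sup' (Finset.univ_nonempty (α := InfinitePlace K))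
    (fun w => mixedEmbedding.normAtPlace w (mixedEmbedding K x))
  refine ⟨w, ?_⟩
  rw [size, mixedEmbedding.norm_eq_sup'_normAtPlace, hw, mixedEmbedding.normAtPlace_apply]

lemma size_add_le (x y : K) : size K (x + y) ≤ size K x + size K y := by
  rw [size, map_add]
  exact norm_add_le _ _

lemma size_neg (x : K) : size K (-x) = size K x := by
  rw [size, map_neg, norm_neg, size]

lemma size_zero : size K 0 = 0 := by
  rw [size, map_zero, norm_zero]

lemma finrank_pos_real : (0 : ℝ) < (Module.finrank ℚ K : ℝ) := by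
  exact_mod_cast Module.finrank_pos (R := ℚ) (M := K)

lemma sum_mult_cast : ∑ w : InfinitePlace K, (mult w : ℝ) = (Module.finrank ℚ K : ℝ) := by
  rw [← Nat.cast_sum, sum_mult_eq]

omit [NumberField K] in
lemma one_le_mult_cast (w : InfinitePlace K) : (1 : ℝ) ≤ (mult w : ℝ) := by
  exact_mod_cast mult_pos

lemma sum_mult_mul_log_place {x : K} (hx : x ≠ 0) :
    ∑ w : InfinitePlace K, (mult w : ℝ) * Real.log (w x) = Real.log (absN K x) := by
  rw [absN_eq_prod, Real.log_prod (fun w _ => pow_ne_zero _ (pos_iff.mpr hx).ne')]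
  refine Finset.sum_congr rfl fun w _ => ?_
  rw [Real.log_pow]

/-- The constant `ρ`: a bound for `‖logVec x‖` on the support of the weight. -/
def rhoC : ℝ := ∑ i, ‖logBasis K i‖

lemma rhoC_nonneg : 0 ≤ rhoC K := Finset.sum_nonneg fun _ _ => norm_nonneg _

lemma norm_logVec_le {x : K} (h : weight K x ≠ 0) : ‖logVec K x‖ ≤ rhoC K := by
  rw [← (logBasis K).sum_repr (logVec K x)]
  refine (norm_sum_le _ _).trans (Finset.sum_le_sum fun i _ => ?_)
  rw [norm_smul, Real.norm_eq_abs]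
  have h1 : |(logBasis K).repr (logVec K x) i| ≤ 1 :=
    (abs_coordU_lt_one_of_weight_ne_zero K h i).le
  calc |(logBasis K).repr (logVec K x) i| * ‖logBasis K i‖ ≤ 1 * ‖logBasis K i‖ :=
        mul_le_mul_of_nonneg_right h1 (norm_nonneg _)
    _ = ‖logBasis K i‖ := one_mul _

/-- On the support of the weight, all `log (w x)` are close to their weighted mean. -/
lemma abs_log_place_sub_le {x : K} (hx : x ≠ 0) (h : weight K x ≠ 0) (w : InfinitePlace K) :
    |Real.log (w x) - Real.log (absN K x) / (Module.finrank ℚ K : ℝ)| ≤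
      (Module.finrank ℚ K : ℝ) * rhoC K := by
  classical
  set n : ℝ := (Module.finrank ℚ K : ℝ) with hn
  have hn0 : 0 < n := finrank_pos_real K
  set d : InfinitePlace K → ℝ := fun w => Real.log (w x) - Real.log (absN K x) / n with hd
  have hρ := rhoC_nonneg K
  have hsum : ∑ w : InfinitePlace K, (mult w : ℝ) * d w = 0 := by
    simp only [hd, mul_sub, Finset.sum_sub_distrib, ← Finset.sum_mul]
    rw [sum_mult_mul_log_place K hx, sum_mult_cast]
    field_simp
    ring
  have hne : ∀ v : InfinitePlace K, v ≠ w₀ → |(mult v : ℝ) * d v| ≤ rhoC K := by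
    intro v hv
    have := norm_le_pi_norm (logVec K x) ⟨v, hv⟩
    rw [Real.norm_eq_abs] at this
    exact this.trans (norm_logVec_le K h)
  have hall : ∀ v : InfinitePlace K, |(mult v : ℝ) * d v| ≤ n * rhoC K := by
    intro v
    by_cases hv : v = w₀
    · have h0 : (mult v : ℝ) * d v = -∑ u ∈ Finset.univ.erase v, (mult u : ℝ) * d u := by
        rw [← Finset.add_sum_erase _ _ (Finset.mem_univ v)] at hsum
        linarith
      rw [h0, abs_neg]
      refine (Finset.abs_sum_le_sum_abs _ _).trans ?_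
      calc ∑ u ∈ Finset.univ.erase v, |(mult u : ℝ) * d u|
          ≤ ∑ u ∈ Finset.univ.erase v, (mult u : ℝ) * rhoC K := by
            refine Finset.sum_le_sum fun u hu => ?_
            have huv : u ≠ w₀ := hv ▸ (Finset.ne_of_mem_erase hu)
            refine (hne u huv).trans ?_
            have := one_le_mult_cast K u
            nlinarith
        _ ≤ ∑ u : InfinitePlace K, (mult u : ℝ) * rhoC K :=
            Finset.sum_le_sum_of_subset_of_nonneg (Finset.erase_subset _ _)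
              (fun u _ _ => mul_nonneg (Nat.cast_nonneg _) hρ)
        _ = n * rhoC K := by rw [← Finset.sum_mul, sum_mult_cast]
    · refine (hne v hv).trans ?_
      have : (1 : ℝ) ≤ n := by
        rw [hn]; exact_mod_cast Module.finrank_pos (R := ℚ) (M := K)
      nlinarith
  have h1 := one_le_mult_cast K w
  have h2 := hall w
  rw [abs_mul, abs_of_nonneg (by linarith : (0 : ℝ) ≤ (mult w : ℝ))] at h2
  have h3 : |d w| ≤ (mult w : ℝ) * |d w| := by nlinarith [abs_nonneg (d w)]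
  exact h3.trans h2

/-- The cone constant `c₁ = exp (-2 n ρ)`. -/
def coneC : ℝ := Real.exp (-(2 * ((Module.finrank ℚ K : ℝ) * rhoC K)))

lemma coneC_pos : 0 < coneC K := Real.exp_pos _

lemma coneC_le_one : coneC K ≤ 1 := by
  rw [coneC, ← Real.exp_zero, Real.exp_le_exp]
  have := mul_nonneg (finrank_pos_real K).le (rhoC_nonneg K)
  linarith

/-- On the support of the weight, every archimedean absolute value is comparable to the size. -/
lemma coneC_mul_size_le {x : K} (hx : x ≠ 0) (h : weight K x ≠ 0) (w : InfinitePlace K) :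
    coneC K * size K x ≤ w x := by
  obtain ⟨w', hw'⟩ := exists_place_eq_size K x
  have h1 := abs_le.mp (abs_log_place_sub_le K hx h w)
  have h2 := abs_le.mp (abs_log_place_sub_le K hx h w')
  have hpos : 0 < w x := pos_iff.mpr hx
  have hpos' : 0 < w' x := pos_iff.mpr hx
  have key : Real.log (coneC K * w' x) ≤ Real.log (w x) := by
    rw [Real.log_mul (coneC_pos K).ne' hpos'.ne', coneC, Real.log_exp]
    linarith [h1.1, h2.2]
  rw [← hw']
  exact (Real.log_le_log_iff (mul_pos (coneC_pos K) hpos') hpos).mp key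

lemma size_pos {x : K} (hx : x ≠ 0) : 0 < size K x := by
  obtain ⟨w, hw⟩ := exists_place_eq_size K x
  rw [← hw]
  exact pos_iff.mpr hx

end Size

/-! ## The two-point estimate -/

section TwoPoint

lemma abs_log_sub_log_le {p q μ : ℝ} (hμ : 0 < μ) (hp : μ ≤ p) (hq : μ ≤ q) :
    |Real.log p - Real.log q| ≤ |p - q| / μ := by
  wlog hpq : q ≤ p generalizing p q
  · rw [abs_sub_comm, abs_sub_comm p q]
    exact this hq hp (le_of_not_ge hpq)
  have hq0 : 0 < q := hμ.trans_le hq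
  have hp0 : 0 < p := hμ.trans_le hp
  rw [abs_of_nonneg (sub_nonneg.mpr (Real.log_le_log hq0 hpq)), abs_of_nonneg (sub_nonneg.mpr hpq),
    ← Real.log_div hp0.ne' hq0.ne']
  calc Real.log (p / q) ≤ p / q - 1 := Real.log_le_sub_one_of_pos (div_pos hp0 hq0)
    _ = (p - q) / q := by field_simp
    _ ≤ (p - q) / μ := div_le_div_of_nonneg_left (sub_nonneg.mpr hpq) hμ hq

lemma abs_exp_sub_exp_le (a b : ℝ) :
    |Real.exp a - Real.exp b| ≤ |a - b| * max (Real.exp a) (Real.exp b) := by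
  wlog hab : b ≤ a generalizing a b
  · rw [abs_sub_comm, abs_sub_comm a b, max_comm]
    exact this b a (le_of_not_ge hab)
  rw [abs_of_nonneg (sub_nonneg.mpr (Real.exp_le_exp.mpr hab)), abs_of_nonneg (sub_nonneg.mpr hab),
    max_eq_left (Real.exp_le_exp.mpr hab)]
  have h := Real.add_one_le_exp (b - a)
  have e : Real.exp b = Real.exp a * Real.exp (b - a) := by
    rw [← Real.exp_add]; ring_nf
  rw [e]
  nlinarith [Real.exp_pos a]

variable (K : Type*) [Field K] [NumberField K]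

/-- A bound for the coordinate functionals of `logBasis`. -/
def coordC : ℝ := ‖((logBasis K).equivFunL : logSpace K →L[ℝ] (Fin (rank K) → ℝ))‖

lemma coordC_nonneg : 0 ≤ coordC K := norm_nonneg _

lemma abs_repr_le (v : logSpace K) (i : Fin (rank K)) :
    |(logBasis K).repr v i| ≤ coordC K * ‖v‖ := by
  have h1 := ((logBasis K).equivFunL : logSpace K →L[ℝ] (Fin (rank K) → ℝ)).le_opNorm v
  have h2 := norm_le_pi_norm ((logBasis K).equivFunL v) i
  rw [Module.Basis.equivFunL_apply, Real.norm_eq_abs] at h2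
  exact h2.trans h1

omit [NumberField K] in
lemma coe_ne_zero {a : 𝓞 K} (ha : a ≠ 0) : (a : K) ≠ 0 :=
  RingOfIntegers.coe_ne_zero_iff.mpr ha

omit [NumberField K] in
lemma mult_cast_le_two (w : InfinitePlace K) : (mult w : ℝ) ≤ 2 := by
  have : mult w ≤ 2 := by
    rw [mult]; split_ifs <;> norm_num
  exact_mod_cast this

lemma pow_finrank_le_absN {x : K} {μ : ℝ} (hμ0 : 0 ≤ μ) (h : ∀ w : InfinitePlace K, μ ≤ w x) :
    μ ^ Module.finrank ℚ K ≤ absN K x := by
  rw [absN_eq_prod, ← sum_mult_eq (K := K), ← Finset.prod_pow_eq_pow_sum]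
  exact Finset.prod_le_prod (fun w _ => by positivity)
    (fun w _ => pow_le_pow_left₀ hμ0 (h w) _)

lemma rpow_neg_le_inv {a b s : ℝ} (hb : 1 ≤ b) (hab : b ≤ a) (hs : 1 ≤ s) :
    a ^ (-s) ≤ b⁻¹ := by
  calc a ^ (-s) ≤ b ^ (-s) := Real.rpow_le_rpow_of_nonpos (by linarith) hab (by linarith)
    _ ≤ b ^ (-1 : ℝ) := Real.rpow_le_rpow_of_exponent_le hb (by linarith)
    _ = b⁻¹ := Real.rpow_neg_one _

/-- The two-point estimate near a point of the support of the weight. -/
lemma two_point_aux {x y : K} (hx : x ≠ 0) (hwx : weight K x ≠ 0) {μ : ℝ} (hμ1 : 1 ≤ μ)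
    (hμ : 2 * μ = coneC K * size K x) (hδ : size K (y - x) ≤ μ) {s : ℝ} (hs1 : 1 ≤ s)
    (hs2 : s ≤ 2) :
    y ≠ 0 ∧ |weight K y * absN K y ^ (-s) - weight K x * absN K x ^ (-s)| ≤
      (4 * (rank K : ℝ) * coordC K + 2 * (Module.finrank ℚ K : ℝ)) * size K (y - x) *
        (μ ^ (Module.finrank ℚ K + 1))⁻¹ := by
  set n := Module.finrank ℚ K with hn
  set δ := size K (y - x) with hδdef
  have hn0 : (0 : ℝ) < (n : ℝ) := finrank_pos_real K
  have hμ0 : 0 < μ := by linarith
  have hδ0 : 0 ≤ δ := size_nonneg K _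
  have hwxge : ∀ w : InfinitePlace K, 2 * μ ≤ w x := fun w => by
    rw [hμ]; exact coneC_mul_size_le K hx hwx w
  have hdiff : ∀ w : InfinitePlace K, |w y - w x| ≤ δ := fun w =>
    (AbsoluteValue.abs_abv_sub_le_abv_sub w.1 y x).trans (place_le_size K w (y - x))
  have hwy : ∀ w : InfinitePlace K, μ ≤ w y := fun w => by
    have := abs_le.mp (hdiff w)
    linarith [hwxge w, this.1]
  have hwx' : ∀ w : InfinitePlace K, μ ≤ w x := fun w => by linarith [hwxge w]
  have hy : y ≠ 0 := by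
    intro h
    have := hwy (Classical.arbitrary _)
    rw [h, map_zero] at this
    linarith
  refine ⟨hy, ?_⟩
  have hlog : ∀ w : InfinitePlace K, |Real.log (w y) - Real.log (w x)| ≤ δ / μ := fun w =>
    (abs_log_sub_log_le hμ0 (hwy w) (hwx' w)).trans (div_le_div_of_nonneg_right (hdiff w) hμ0.le)
  have hδμ : 0 ≤ δ / μ := div_nonneg hδ0 hμ0.le
  have hlogN : |Real.log (absN K y) - Real.log (absN K x)| ≤ (n : ℝ) * (δ / μ) := by
    rw [← sum_mult_mul_log_place K hy, ← sum_mult_mul_log_place K hx, ← Finset.sum_sub_distrib]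
    refine (Finset.abs_sum_le_sum_abs _ _).trans ?_
    calc ∑ w : InfinitePlace K, |(mult w : ℝ) * Real.log (w y) - (mult w : ℝ) * Real.log (w x)|
        ≤ ∑ w : InfinitePlace K, (mult w : ℝ) * (δ / μ) := by
          refine Finset.sum_le_sum fun w _ => ?_
          rw [← mul_sub, abs_mul, abs_of_nonneg (Nat.cast_nonneg _)]
          exact mul_le_mul_of_nonneg_left (hlog w) (Nat.cast_nonneg _)
      _ = (n : ℝ) * (δ / μ) := by rw [← Finset.sum_mul, sum_mult_cast]
  have hvec : ‖logVec K y - logVec K x‖ ≤ 4 * (δ / μ) := by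
    rw [pi_norm_le_iff_of_nonneg (by positivity)]
    intro w
    rw [Pi.sub_apply, Real.norm_eq_abs, logVec, logVec, ← mul_sub, abs_mul,
      abs_of_nonneg (Nat.cast_nonneg _)]
    have hm := mult_cast_le_two K w.1
    have h2 : |(Real.log (w.1 y) - Real.log (absN K y) / (n : ℝ)) -
        (Real.log (w.1 x) - Real.log (absN K x) / (n : ℝ))| ≤ 2 * (δ / μ) := by
      have e : (Real.log (w.1 y) - Real.log (absN K y) / (n : ℝ)) -
          (Real.log (w.1 x) - Real.log (absN K x) / (n : ℝ)) =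
          (Real.log (w.1 y) - Real.log (w.1 x)) -
            (Real.log (absN K y) - Real.log (absN K x)) / (n : ℝ) := by ring
      rw [e]
      refine (abs_sub _ _).trans ?_
      have h3 : |(Real.log (absN K y) - Real.log (absN K x)) / (n : ℝ)| ≤ δ / μ := by
        rw [abs_div, abs_of_pos hn0, div_le_iff₀ hn0]
        linarith [hlogN]
      linarith [hlog w.1]
    calc (mult w.1 : ℝ) * |(Real.log (w.1 y) - Real.log (absN K y) / (n : ℝ)) -
          (Real.log (w.1 x) - Real.log (absN K x) / (n : ℝ))|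
        ≤ 2 * (2 * (δ / μ)) := mul_le_mul hm h2 (abs_nonneg _) (by norm_num)
      _ = 4 * (δ / μ) := by ring
  have hcoord : ∀ i, |coordU K y i - coordU K x i| ≤ coordC K * (4 * (δ / μ)) := by
    intro i
    rw [coordU, coordU, ← Finsupp.sub_apply, ← map_sub]
    exact (abs_repr_le K _ i).trans (mul_le_mul_of_nonneg_left hvec (coordC_nonneg K))
  have htors : (1 : ℝ) ≤ torsionOrder K := by exact_mod_cast torsionOrder_pos K
  have hW : |weight K y - weight K x| ≤ (rank K : ℝ) * (coordC K * (4 * (δ / μ))) := by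
    rw [weight, weight, ← sub_div, abs_div, abs_of_pos (by linarith : (0 : ℝ) < torsionOrder K)]
    have h1 := abs_prod_tent_sub_le Finset.univ (coordU K y) (coordU K x)
    have h2 : ∑ i, |coordU K y i - coordU K x i| ≤ (rank K : ℝ) * (coordC K * (4 * (δ / μ))) := by
      calc ∑ i, |coordU K y i - coordU K x i| ≤ ∑ _i : Fin (rank K), coordC K * (4 * (δ / μ)) :=
            Finset.sum_le_sum fun i _ => hcoord i
        _ = (rank K : ℝ) * (coordC K * (4 * (δ / μ))) := by
            rw [Finset.sum_const, Finset.card_univ, Fintype.card_fin, nsmul_eq_mul]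
    exact (div_le_self (abs_nonneg _) htors).trans (h1.trans h2)
  have hNx : μ ^ n ≤ absN K x := pow_finrank_le_absN K hμ0.le hwx'
  have hNy : μ ^ n ≤ absN K y := pow_finrank_le_absN K hμ0.le hwy
  have hμn : 1 ≤ μ ^ n := one_le_pow₀ hμ1
  have hAx : absN K x ^ (-s) ≤ (μ ^ n)⁻¹ := rpow_neg_le_inv hμn hNx hs1
  have hAy : absN K y ^ (-s) ≤ (μ ^ n)⁻¹ := rpow_neg_le_inv hμn hNy hs1
  have hAy0 : 0 ≤ absN K y ^ (-s) := Real.rpow_nonneg (absN_pos K hy).le _
  have hA : |absN K y ^ (-s) - absN K x ^ (-s)| ≤ 2 * ((n : ℝ) * (δ / μ)) * (μ ^ n)⁻¹ := by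
    have hmax : max (absN K y ^ (-s)) (absN K x ^ (-s)) ≤ (μ ^ n)⁻¹ := max_le hAy hAx
    rw [Real.rpow_def_of_pos (absN_pos K hy), Real.rpow_def_of_pos (absN_pos K hx)] at hmax ⊢
    refine (abs_exp_sub_exp_le _ _).trans ?_
    have h4 : |Real.log (absN K y) * -s - Real.log (absN K x) * -s| ≤ 2 * ((n : ℝ) * (δ / μ)) := by
      rw [← sub_mul, abs_mul, abs_neg, abs_of_nonneg (by linarith : (0 : ℝ) ≤ s), mul_comm]
      exact mul_le_mul hs2 hlogN (abs_nonneg _) (by norm_num)
    exact mul_le_mul h4 hmax (le_max_of_le_left (Real.exp_pos _).le) (by positivity)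
  have hWx0 := weight_nonneg K x
  have hWx1 := weight_le_one K x
  have hinv0 : 0 ≤ (μ ^ n)⁻¹ := by positivity
  have e : weight K y * absN K y ^ (-s) - weight K x * absN K x ^ (-s) =
      (weight K y - weight K x) * absN K y ^ (-s) +
        weight K x * (absN K y ^ (-s) - absN K x ^ (-s)) := by ring
  rw [e]
  refine (abs_add_le _ _).trans ?_
  rw [abs_mul, abs_mul, abs_of_nonneg hAy0, abs_of_nonneg hWx0]
  have t1 : |weight K y - weight K x| * absN K y ^ (-s) ≤
      (rank K : ℝ) * (coordC K * (4 * (δ / μ))) * (μ ^ n)⁻¹ :=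
    mul_le_mul hW hAy hAy0 (by have := coordC_nonneg K; positivity)
  have t2 : weight K x * |absN K y ^ (-s) - absN K x ^ (-s)| ≤
      1 * (2 * ((n : ℝ) * (δ / μ)) * (μ ^ n)⁻¹) :=
    mul_le_mul hWx1 hA (abs_nonneg _) zero_le_one
  have e2 : (4 * (rank K : ℝ) * coordC K + 2 * (n : ℝ)) * δ * (μ ^ (n + 1))⁻¹ =
      (rank K : ℝ) * (coordC K * (4 * (δ / μ))) * (μ ^ n)⁻¹ +
        1 * (2 * ((n : ℝ) * (δ / μ)) * (μ ^ n)⁻¹) := by
    rw [pow_succ]
    field_simp
  rw [e2]
  exact add_le_add t1 t2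

end TwoPoint

/-! ## The summand `G` and its lattice sums -/

section GFun

variable (K : Type*) [Field K] [NumberField K]

/-- The summand: weight times `|N a|^(-s)`, extended by zero. -/
def G (s : ℝ) (a : 𝓞 K) : ℝ :=
  if a = 0 then 0 else weight K (a : K) * absN K (a : K) ^ (-s)

lemma one_le_absN {a : 𝓞 K} (ha : a ≠ 0) : 1 ≤ absN K (a : K) := by
  have h : Algebra.norm ℤ a ≠ 0 := Algebra.norm_ne_zero_iff.mpr ha
  have h1 : (1 : ℤ) ≤ |Algebra.norm ℤ a| := Int.one_le_abs h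
  rw [absN, ← Algebra.coe_norm_int, Rat.cast_intCast, ← Int.cast_abs]
  exact_mod_cast h1

lemma G_nonneg (s : ℝ) (a : 𝓞 K) : 0 ≤ G K s a := by
  unfold G
  split_ifs with h
  · exact le_rfl
  · exact mul_nonneg (weight_nonneg K _) (Real.rpow_nonneg (absN_pos K (coe_ne_zero K h)).le _)

lemma G_le_one {s : ℝ} (hs : 0 ≤ s) (a : 𝓞 K) : G K s a ≤ 1 := by
  unfold G
  split_ifs with h
  · exact zero_le_one
  · have h1 := Real.rpow_le_one_of_one_le_of_nonpos (one_le_absN K h) (by linarith : -s ≤ 0)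
    have h2 := Real.rpow_nonneg (absN_pos K (coe_ne_zero K h)).le (-s)
    calc weight K (a : K) * absN K (a : K) ^ (-s) ≤ 1 * 1 :=
          mul_le_mul (weight_le_one K _) h1 h2 zero_le_one
      _ = 1 := one_mul 1

/-- The constant in the global two-point estimate. -/
def twoPtC : ℝ :=
  (4 * (rank K : ℝ) * coordC K + 2 * (Module.finrank ℚ K : ℝ)) *
    (4 / coneC K) ^ (Module.finrank ℚ K + 1)

lemma twoPtC_nonneg : 0 ≤ twoPtC K := by
  have := coordC_nonneg K
  have := coneC_pos K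
  unfold twoPtC
  positivity

lemma inv_pow_le_of_le {c X μ : ℝ} (hc : 0 < c) (hX : 0 < X) (h : c * X / 4 ≤ μ) (m : ℕ) :
    (μ ^ m)⁻¹ ≤ (4 / c) ^ m * (X ^ m)⁻¹ := by
  have h0 : 0 < c * X / 4 := by positivity
  have e : (4 / c) ^ m * (X ^ m)⁻¹ = ((c * X / 4) ^ m)⁻¹ := by
    rw [div_pow, div_pow, mul_pow]
    field_simp
  rw [e]
  exact inv_anti₀ (pow_pos h0 m) (pow_le_pow_left₀ h0.le h m)

/-- The global two-point estimate for large points. -/
lemma two_point (r b : 𝓞 K) {s : ℝ} (hs1 : 1 ≤ s) (hs2 : s ≤ 2)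
    (hb : 4 / coneC K * (1 + size K (r : K)) ≤ size K (b : K)) :
    |G K s (b + r) - G K s b| ≤
      twoPtC K * size K (r : K) * ((size K (b : K)) ^ (Module.finrank ℚ K + 1))⁻¹ := by
  set c := coneC K with hc
  set X := size K (b : K) with hX
  set ρ₀ := size K (r : K) with hρ₀
  set n := Module.finrank ℚ K with hn
  have hc0 : 0 < c := coneC_pos K
  have hc1 : c ≤ 1 := coneC_le_one K
  have hρ0 : 0 ≤ ρ₀ := size_nonneg K _
  have hcX : 4 * (1 + ρ₀) ≤ c * X := by
    have := mul_le_mul_of_nonneg_left hb hc0.le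
    rwa [← mul_assoc, mul_div_cancel₀ _ hc0.ne'] at this
  have hX0 : 0 < X := by nlinarith
  have hXge : 4 * (1 + ρ₀) ≤ X := by nlinarith
  have hb0 : b ≠ 0 := by
    rintro rfl
    have h00 : ((0 : 𝓞 K) : K) = 0 := by simp
    rw [hX, h00, size_zero] at hX0
    exact lt_irrefl _ hX0
  have hbr0 : b + r ≠ 0 := by
    intro h
    have : (b : K) = -(r : K) := by
      have := congrArg (fun t : 𝓞 K => (t : K)) (eq_neg_of_add_eq_zero_left h)
      simpa using this
    rw [hX, this, size_neg] at hXge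
    linarith
  have hM : 0 ≤ 4 * (rank K : ℝ) * coordC K + 2 * (n : ℝ) := by
    have := coordC_nonneg K
    positivity
  have hfin : ∀ μ : ℝ, c * X / 4 ≤ μ →
      (4 * (rank K : ℝ) * coordC K + 2 * (n : ℝ)) * ρ₀ * (μ ^ (n + 1))⁻¹ ≤
        twoPtC K * ρ₀ * (X ^ (n + 1))⁻¹ := by
    intro μ hμ
    have := inv_pow_le_of_le hc0 hX0 hμ (n + 1)
    unfold twoPtC
    calc (4 * (rank K : ℝ) * coordC K + 2 * (n : ℝ)) * ρ₀ * (μ ^ (n + 1))⁻¹
        ≤ (4 * (rank K : ℝ) * coordC K + 2 * (n : ℝ)) * ρ₀ * ((4 / c) ^ (n + 1) * (X ^ (n + 1))⁻¹) :=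
          mul_le_mul_of_nonneg_left this (mul_nonneg hM hρ0)
      _ = (4 * (rank K : ℝ) * coordC K + 2 * (n : ℝ)) * (4 / c) ^ (n + 1) * ρ₀ * (X ^ (n + 1))⁻¹ := by
          ring
  have hGb : G K s b = weight K (b : K) * absN K (b : K) ^ (-s) := if_neg hb0
  have hGbr : G K s (b + r) = weight K ((b + r : 𝓞 K) : K) * absN K ((b + r : 𝓞 K) : K) ^ (-s) :=
    if_neg hbr0
  by_cases hw : weight K (b : K) = 0
  · by_cases hw' : weight K ((b + r : 𝓞 K) : K) = 0
    · rw [hGb, hGbr, hw, hw']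
      simp only [zero_mul, sub_zero, abs_zero]
      exact mul_nonneg (mul_nonneg (twoPtC_nonneg K) hρ0) (by positivity)
    · -- use the estimate around `b + r`
      set X' := size K ((b + r : 𝓞 K) : K) with hX'
      have hX'ge : X - ρ₀ ≤ X' := by
        have := size_add_le K ((b + r : 𝓞 K) : K) (-(r : K))
        rw [size_neg] at this
        have e : ((b + r : 𝓞 K) : K) + -(r : K) = (b : K) := by push_cast; ring
        rw [e] at this
        linarith
      have hδ : size K ((b : K) - ((b + r : 𝓞 K) : K)) = ρ₀ := by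
        have e : (b : K) - ((b + r : 𝓞 K) : K) = -(r : K) := by push_cast; ring
        rw [e, size_neg]
      have hμ1 : 1 ≤ c * X' / 2 := by nlinarith
      have hδ' : size K ((b : K) - ((b + r : 𝓞 K) : K)) ≤ c * X' / 2 := by
        rw [hδ]; nlinarith
      have := (two_point_aux K (coe_ne_zero K hbr0) hw' hμ1 (by ring) hδ' hs1 hs2).2
      rw [hδ] at this
      rw [hGb, hGbr, abs_sub_comm]
      refine this.trans (hfin _ ?_)
      nlinarith
  · have hδ : size K (((b + r : 𝓞 K) : K) - (b : K)) = ρ₀ := by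
      have e : ((b + r : 𝓞 K) : K) - (b : K) = (r : K) := by push_cast; ring
      rw [e]
    have hμ1 : 1 ≤ c * X / 2 := by nlinarith
    have hδ' : size K (((b + r : 𝓞 K) : K) - (b : K)) ≤ c * X / 2 := by
      rw [hδ]; nlinarith
    have := (two_point_aux K (coe_ne_zero K hb0) hw hμ1 (by ring) hδ' hs1 hs2).2
    rw [hδ] at this
    rw [hGb, hGbr]
    refine this.trans (hfin _ ?_)
    nlinarith

/-- The dominating function for the two-point differences. -/
def Dfun (r b : 𝓞 K) : ℝ :=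
  twoPtC K * size K (r : K) * ((size K (b : K)) ^ (Module.finrank ℚ K + 1))⁻¹ +
    (if size K (b : K) < 4 / coneC K * (1 + size K (r : K)) then 1 else 0)

lemma abs_G_sub_le_Dfun (r b : 𝓞 K) {s : ℝ} (hs1 : 1 ≤ s) (hs2 : s ≤ 2) :
    |G K s (b + r) - G K s b| ≤ Dfun K r b := by
  unfold Dfun
  have h0 : 0 ≤ twoPtC K * size K (r : K) *
      ((size K (b : K)) ^ (Module.finrank ℚ K + 1))⁻¹ :=
    mul_nonneg (mul_nonneg (twoPtC_nonneg K) (size_nonneg K _))
      (inv_nonneg.mpr (pow_nonneg (size_nonneg K _) _))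
  split_ifs with h
  · have h1 := G_nonneg K s (b + r)
    have h2 := G_nonneg K s b
    have h3 := G_le_one K (by linarith : (0 : ℝ) ≤ s) (b + r)
    have h4 := G_le_one K (by linarith : (0 : ℝ) ≤ s) b
    have : |G K s (b + r) - G K s b| ≤ 1 := abs_le.mpr ⟨by linarith, by linarith⟩
    linarith
  · rw [add_zero]
    exact two_point K r b hs1 hs2 (not_lt.mp h)

/-- The embedding of `𝓞 K` into its lattice in the mixed space. -/
def toLattice (a : 𝓞 K) : mixedEmbedding.integerLattice K :=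
  ⟨mixedEmbedding K (a : K), ⟨a, rfl⟩⟩

lemma toLattice_injective : Function.Injective (toLattice K) := by
  intro a b h
  have h' : mixedEmbedding K (a : K) = mixedEmbedding K (b : K) := congrArg Subtype.val h
  exact RingOfIntegers.ext (mixedEmbedding_injective K h')

lemma norm_toLattice (a : 𝓞 K) : ‖toLattice K a‖ = size K (a : K) := rfl

lemma finrank_integerLattice :
    Module.finrank ℤ (mixedEmbedding.integerLattice K) = Module.finrank ℚ K := by
  rw [ZLattice.rank ℝ, mixedEmbedding.finrank]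

lemma summable_size_rpow {t : ℝ} (ht : t < -(Module.finrank ℚ K : ℝ)) :
    Summable fun b : 𝓞 K => size K (b : K) ^ t := by
  have h := ZLattice.summable_norm_rpow (mixedEmbedding.integerLattice K) t
    (by rw [finrank_integerLattice]; exact ht)
  have h2 := h.comp_injective (toLattice_injective K)
  refine h2.congr fun b => ?_
  simp only [Function.comp_apply]
  rw [norm_toLattice]

lemma summable_size_inv_pow :
    Summable fun b : 𝓞 K => ((size K (b : K)) ^ (Module.finrank ℚ K + 1))⁻¹ := by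
  have h := summable_size_rpow K (t := -((Module.finrank ℚ K + 1 : ℕ) : ℝ))
    (by push_cast; linarith)
  refine h.congr fun b => ?_
  rw [Real.rpow_neg (size_nonneg K _), Real.rpow_natCast]

lemma finite_size_lt (X : ℝ) : {b : 𝓞 K | size K (b : K) < X}.Finite := by
  by_cases hX : 0 < X
  · have h := (summable_size_inv_pow K).tendsto_cofinite_zero
    have hε : (0 : ℝ) < (X ^ (Module.finrank ℚ K + 1))⁻¹ := by positivity
    have h2 := Filter.eventually_cofinite.mp (h.eventually_lt_const hε)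
    refine (h2.union (Set.finite_singleton (0 : 𝓞 K))).subset ?_
    intro b hb
    by_cases hb0 : b = 0
    · exact Or.inr hb0
    · left
      have hpos : 0 < size K (b : K) := size_pos K (coe_ne_zero K hb0)
      simp only [Set.mem_ofPred_eq, not_lt]
      exact inv_anti₀ (pow_pos hpos _) (pow_le_pow_left₀ hpos.le (le_of_lt hb) _)
  · convert Set.finite_empty
    ext b
    simp only [Set.mem_ofPred_eq, Set.mem_empty_iff_false, iff_false, not_lt]
    exact (not_lt.mp hX).trans (size_nonneg K _)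

lemma summable_Dfun (r : 𝓞 K) : Summable (Dfun K r) := by
  unfold Dfun
  refine ((summable_size_inv_pow K).mul_left _).add ?_
  apply summable_of_hasFiniteSupport
  refine (finite_size_lt K (4 / coneC K * (1 + size K (r : K)))).subset ?_
  intro b hb
  simp only [Function.mem_support, ne_eq, ite_eq_right_iff, one_ne_zero, imp_false,
    not_not] at hb
  exact hb

end GFun

/-! ## Upper bound for the full lattice sum -/

section Upper

variable (K : Type*) [Field K] [NumberField K]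

lemma G_le_size_rpow {s : ℝ} (hs : 1 ≤ s) (a : 𝓞 K) :
    G K s a ≤ coneC K ^ (-((Module.finrank ℚ K : ℝ) * s)) *
      size K (a : K) ^ (-((Module.finrank ℚ K : ℝ) * s)) := by
  have hR : 0 ≤ coneC K ^ (-((Module.finrank ℚ K : ℝ) * s)) *
      size K (a : K) ^ (-((Module.finrank ℚ K : ℝ) * s)) :=
    mul_nonneg (Real.rpow_nonneg (coneC_pos K).le _) (Real.rpow_nonneg (size_nonneg K _) _)
  unfold G
  split_ifs with h
  · exact hR
  · by_cases hw : weight K (a : K) = 0
    · rw [hw, zero_mul]; exact hR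
    · have ha : (a : K) ≠ 0 := coe_ne_zero K h
      have hsz : 0 < size K (a : K) := size_pos K ha
      have hμ : 0 < coneC K * size K (a : K) := mul_pos (coneC_pos K) hsz
      have h1 : (coneC K * size K (a : K)) ^ Module.finrank ℚ K ≤ absN K (a : K) :=
        pow_finrank_le_absN K hμ.le (fun w => coneC_mul_size_le K ha hw w)
      have h2 : absN K (a : K) ^ (-s) ≤
          ((coneC K * size K (a : K)) ^ Module.finrank ℚ K) ^ (-s) :=
        Real.rpow_le_rpow_of_nonpos (pow_pos hμ _) h1 (by linarith)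
      have h3 : ((coneC K * size K (a : K)) ^ Module.finrank ℚ K) ^ (-s) =
          coneC K ^ (-((Module.finrank ℚ K : ℝ) * s)) *
            size K (a : K) ^ (-((Module.finrank ℚ K : ℝ) * s)) := by
        rw [← Real.rpow_natCast_mul hμ.le, Real.mul_rpow (coneC_pos K).le hsz.le, mul_neg]
      rw [h3] at h2
      have h4 := Real.rpow_nonneg (absN_pos K ha).le (-s)
      calc weight K (a : K) * absN K (a : K) ^ (-s) ≤ 1 * absN K (a : K) ^ (-s) :=
            mul_le_mul_of_nonneg_right (weight_le_one K _) h4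
        _ = absN K (a : K) ^ (-s) := one_mul _
        _ ≤ _ := h2

lemma neg_finrank_mul_lt {s : ℝ} (hs : 1 < s) :
    -((Module.finrank ℚ K : ℝ) * s) < -(Module.finrank ℚ K : ℝ) := by
  have := finrank_pos_real K
  nlinarith

lemma summable_G {s : ℝ} (hs : 1 < s) : Summable (G K s) :=
  Summable.of_nonneg_of_le (G_nonneg K s) (G_le_size_rpow K hs.le)
    ((summable_size_rpow K (neg_finrank_mul_lt K hs)).mul_left _)

lemma tsum_nat_rpow_le {σ : ℝ} (hσ : 1 < σ) :
    ∑' k : ℕ, (k : ℝ) ^ (-σ) ≤ 1 + 1 / (σ - 1) := by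
  have hsum : Summable fun k : ℕ => (k : ℝ) ^ (-σ) := Real.summable_nat_rpow.mpr (by linarith)
  rw [hsum.tsum_eq_zero_add, Nat.cast_zero, Real.zero_rpow (by linarith), zero_add]
  have h1 := ZetaAsymptotics.zeta_limit_aux1 hσ
  have h2 : 0 ≤ ZetaAsymptotics.termTSum σ :=
    tsum_nonneg fun n => ZetaAsymptotics.term_nonneg _ _
  have h3 : ∑' k : ℕ, ((k + 1 : ℕ) : ℝ) ^ (-σ) = ∑' n : ℕ, 1 / ((n : ℝ) + 1) ^ σ := by
    refine tsum_congr fun k => ?_
    rw [Real.rpow_neg (by positivity), one_div]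
    push_cast
    rfl
  rw [h3]
  nlinarith

lemma tsum_size_rpow_le {t : ℝ} (ht : t < -(Module.finrank ℚ K : ℝ)) :
    ∑' a : 𝓞 K, size K (a : K) ^ t ≤
      ZLattice.tsumNormRPowBound (mixedEmbedding.integerLattice K) ^ t *
        ∑' k : ℕ, (k : ℝ) ^ ((Module.finrank ℚ K : ℝ) - 1 + t) := by
  have htL : t < -(Module.finrank ℤ (mixedEmbedding.integerLattice K) : ℝ) := by
    rw [finrank_integerLattice]; exact ht
  have hsumL := ZLattice.summable_norm_rpow (mixedEmbedding.integerLattice K) t htL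
  have h1 : ∑' a : 𝓞 K, ((fun z : mixedEmbedding.integerLattice K => ‖z‖ ^ t) ∘ toLattice K) a ≤
      ∑' z : mixedEmbedding.integerLattice K, ‖z‖ ^ t :=
    tsum_comp_le_tsum_of_inj hsumL (fun z => Real.rpow_nonneg (norm_nonneg _) _)
      (toLattice_injective K)
  have h2 := ZLattice.tsum_norm_rpow_le (mixedEmbedding.integerLattice K) t htL
  rw [finrank_integerLattice] at h2
  have h3 : ∑' a : 𝓞 K, size K (a : K) ^ t =
      ∑' a : 𝓞 K, ((fun z : mixedEmbedding.integerLattice K => ‖z‖ ^ t) ∘ toLattice K) a := by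
    refine tsum_congr fun a => ?_
    simp only [Function.comp_apply]
    rw [norm_toLattice]
  rw [h3]
  exact h1.trans h2

omit [NumberField K] in
lemma real_bound_aux {c A₀ n s Z S Zk : ℝ} (hcpos : 0 < c) (hA₀pos : 0 < A₀) (hn1 : 1 ≤ n)
    (hs1 : 1 < s) (hs2 : s ≤ 2) (hZ : Z ≤ c ^ (-(n * s)) * S)
    (hS : S ≤ A₀ ^ (-(n * s)) * Zk) (hZk : Zk ≤ 1 + 1 / (n * (s - 1))) (hk0 : 0 ≤ Zk) :
    Z ≤ 2 * (1 + (c * A₀) ^ (-(2 * n))) / (s - 1) := by
  have hP0 : 0 ≤ (c * A₀) ^ (-(2 * n)) := Real.rpow_nonneg (mul_pos hcpos hA₀pos).le _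
  have hct : 0 ≤ c ^ (-(n * s)) := Real.rpow_nonneg hcpos.le _
  have hcA : c ^ (-(n * s)) * A₀ ^ (-(n * s)) ≤ 1 + (c * A₀) ^ (-(2 * n)) := by
    rw [← Real.mul_rpow hcpos.le hA₀pos.le]
    by_cases h1 : 1 ≤ c * A₀
    · have := Real.rpow_le_one_of_one_le_of_nonpos h1 (by nlinarith : -(n * s) ≤ 0)
      linarith
    · have := Real.rpow_le_rpow_of_exponent_ge (mul_pos hcpos hA₀pos) (not_le.mp h1).le
        (by nlinarith : -(2 * n) ≤ -(n * s))
      linarith
  have hs0 : 0 < s - 1 := by linarith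
  have hzeta : 1 + 1 / (n * (s - 1)) ≤ 2 / (s - 1) := by
    have h1 : 1 / (n * (s - 1)) ≤ 1 / (s - 1) :=
      one_div_le_one_div_of_le hs0 (by nlinarith)
    have h2 : 1 ≤ 1 / (s - 1) := by
      rw [le_div_iff₀ hs0]; linarith
    have h3 : 2 / (s - 1) = 1 / (s - 1) + 1 / (s - 1) := by ring
    linarith
  calc Z ≤ c ^ (-(n * s)) * S := hZ
    _ ≤ c ^ (-(n * s)) * (A₀ ^ (-(n * s)) * Zk) := mul_le_mul_of_nonneg_left hS hct
    _ = (c ^ (-(n * s)) * A₀ ^ (-(n * s))) * Zk := by ring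
    _ ≤ (1 + (c * A₀) ^ (-(2 * n))) * (2 / (s - 1)) :=
        mul_le_mul hcA (hZk.trans hzeta) hk0 (by positivity)
    _ = 2 * (1 + (c * A₀) ^ (-(2 * n))) / (s - 1) := by ring

/-- The full lattice sum is `O(1/(s-1))`. -/
lemma exists_tsum_G_le :
    ∃ A : ℝ, 0 ≤ A ∧ ∀ s : ℝ, 1 < s → s ≤ 2 → ∑' a, G K s a ≤ A / (s - 1) := by
  have hA₀pos : 0 < ZLattice.tsumNormRPowBound (mixedEmbedding.integerLattice K) :=
    ZLattice.tsumNormRPowBound_pos _
  have hcpos : 0 < coneC K := coneC_pos K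
  have hn1 : (1 : ℝ) ≤ (Module.finrank ℚ K : ℝ) := by
    exact_mod_cast Module.finrank_pos (R := ℚ) (M := K)
  have hP0 : 0 ≤ (coneC K * ZLattice.tsumNormRPowBound (mixedEmbedding.integerLattice K)) ^
      (-(2 * (Module.finrank ℚ K : ℝ))) := Real.rpow_nonneg (mul_pos hcpos hA₀pos).le _
  refine ⟨2 * (1 + (coneC K * ZLattice.tsumNormRPowBound (mixedEmbedding.integerLattice K)) ^
      (-(2 * (Module.finrank ℚ K : ℝ)))), by positivity, fun s hs1 hs2 => ?_⟩
  have hsum1 : Summable fun a : 𝓞 K => size K (a : K) ^ (-((Module.finrank ℚ K : ℝ) * s)) :=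
    summable_size_rpow K (neg_finrank_mul_lt K hs1)
  have step1 : ∑' a, G K s a ≤ coneC K ^ (-((Module.finrank ℚ K : ℝ) * s)) *
      ∑' a : 𝓞 K, size K (a : K) ^ (-((Module.finrank ℚ K : ℝ) * s)) := by
    rw [← tsum_mul_left]
    exact (summable_G K hs1).tsum_le_tsum (G_le_size_rpow K hs1.le) (hsum1.mul_left _)
  have step3 := tsum_size_rpow_le K (neg_finrank_mul_lt K hs1)
  have hσ : 1 < 1 + (Module.finrank ℚ K : ℝ) * (s - 1) := by nlinarith
  have step4 : ∑' k : ℕ, (k : ℝ) ^ ((Module.finrank ℚ K : ℝ) - 1 +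
      -((Module.finrank ℚ K : ℝ) * s)) ≤ 1 + 1 / ((Module.finrank ℚ K : ℝ) * (s - 1)) := by
    have e : (Module.finrank ℚ K : ℝ) - 1 + -((Module.finrank ℚ K : ℝ) * s) =
        -(1 + (Module.finrank ℚ K : ℝ) * (s - 1)) := by ring
    rw [e]
    have := tsum_nat_rpow_le hσ
    rwa [add_sub_cancel_left] at this
  have hk0 : 0 ≤ ∑' k : ℕ, (k : ℝ) ^ ((Module.finrank ℚ K : ℝ) - 1 +
      -((Module.finrank ℚ K : ℝ) * s)) :=
    tsum_nonneg fun k => Real.rpow_nonneg (Nat.cast_nonneg k) _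
  exact real_bound_aux hcpos hA₀pos hn1 hs1 hs2 step1 step3 step4 hk0

end Upper

/-! ## Orbit decomposition: the lattice sum over an ideal is a partial zeta function -/

section Orbit

variable (K : Type*) [Field K] [NumberField K]

lemma absN_coe (g : 𝓞 K) : absN K (g : K) = (Ideal.absNorm (Ideal.span {g}) : ℝ) := by
  rw [Ideal.absNorm_span_singleton, absN, ← Algebra.coe_norm_int, Rat.cast_intCast,
    Nat.cast_natAbs, Int.cast_abs]

variable {K}

lemma exists_gen {C : ClassGroup (𝓞 K)} {J : (Ideal (𝓞 K))⁰} (hJ : ClassGroup.mk0 J = C⁻¹)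
    (I : {I : (Ideal (𝓞 K))⁰ // ClassGroup.mk0 I = C}) :
    ∃ g : 𝓞 K, g ≠ 0 ∧ Ideal.span {g} = (I.1 : Ideal (𝓞 K)) * (J : Ideal (𝓞 K)) := by
  have h1 : ClassGroup.mk0 (I.1 * J) = 1 := by rw [map_mul, I.2, hJ, mul_inv_cancel]
  have h2 : ((I.1 * J : (Ideal (𝓞 K))⁰) : Ideal (𝓞 K)).IsPrincipal :=
    (ClassGroup.mk0_eq_one_iff (I.1 * J).2).mp h1
  obtain ⟨g, hg⟩ := h2.principal
  have hne : ((I.1 * J : (Ideal (𝓞 K))⁰) : Ideal (𝓞 K)) ≠ 0 :=
    mem_nonZeroDivisors_iff_ne_zero.mp (I.1 * J).2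
  refine ⟨g, ?_, hg.symm⟩
  rintro rfl
  apply hne
  rw [hg]
  simp

/-- The lattice sum over the ideal `J` computes the partial zeta function of the class of
`J⁻¹`, up to the factor `N(J)^(-s)`. -/
lemma hasSum_classZeta {C : ClassGroup (𝓞 K)} {J : (Ideal (𝓞 K))⁰}
    (hJ : ClassGroup.mk0 J = C⁻¹) {s : ℝ} (hs : 1 < s) :
    HasSum (fun I : {I : (Ideal (𝓞 K))⁰ // ClassGroup.mk0 I = C} =>
        (Ideal.absNorm (I.1 : Ideal (𝓞 K)) : ℝ) ^ (-s) *
          (Ideal.absNorm (J : Ideal (𝓞 K)) : ℝ) ^ (-s))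
      (∑' a, ((J : Ideal (𝓞 K)) : Set (𝓞 K)).indicator (G K s) a) := by
  classical
  choose gen hgen0 hgen using exists_gen hJ
  obtain ⟨Φ, hΦ⟩ : ∃ Φ : {I : (Ideal (𝓞 K))⁰ // ClassGroup.mk0 I = C} × (𝓞 K)ˣ → 𝓞 K,
      ∀ p, Φ p = (p.2 : 𝓞 K) * gen p.1 := ⟨fun p => (p.2 : 𝓞 K) * gen p.1, fun _ => rfl⟩
  have hJ0 : (J : Ideal (𝓞 K)) ≠ 0 := mem_nonZeroDivisors_iff_ne_zero.mp J.2
  have hΦinj : Function.Injective Φ := by
    rintro ⟨I, u⟩ ⟨I', u'⟩ h
    rw [hΦ, hΦ] at h
    dsimp only at h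
    have hspan : Ideal.span {gen I} = Ideal.span {gen I'} := by
      rw [← Ideal.span_singleton_mul_left_unit u.isUnit (gen I),
        ← Ideal.span_singleton_mul_left_unit u'.isUnit (gen I'), h]
    rw [hgen, hgen] at hspan
    have hII : (I.1 : Ideal (𝓞 K)) = I'.1 := mul_right_cancel₀ hJ0 hspan
    have hI : I = I' := Subtype.ext (Subtype.ext hII)
    subst hI
    have hu : (u : 𝓞 K) = u' := mul_right_cancel₀ (hgen0 I) h
    rw [Units.ext hu]
  have hrange : ∀ a ∉ Set.range Φ,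
      ((J : Ideal (𝓞 K)) : Set (𝓞 K)).indicator (G K s) a = 0 := by
    intro a ha
    by_contra hne
    apply ha
    have haJ : a ∈ (J : Ideal (𝓞 K)) := by
      by_contra h
      exact hne (Set.indicator_of_notMem h _)
    have ha0 : a ≠ 0 := by
      rintro rfl
      apply hne
      rw [Set.indicator_of_mem haJ]
      simp [G]
    obtain ⟨I₀, hI₀⟩ := Ideal.dvd_span_singleton.mpr haJ
    have hI₀ne : I₀ ≠ 0 := by
      rintro rfl
      rw [mul_zero] at hI₀
      exact ha0 (Ideal.span_singleton_eq_bot.mp hI₀)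
    set I₁ : (Ideal (𝓞 K))⁰ := ⟨I₀, mem_nonZeroDivisors_iff_ne_zero.mpr hI₀ne⟩ with hI₁
    have hcl : ClassGroup.mk0 I₁ = C := by
      have h1 : ClassGroup.mk0 (J * I₁) = 1 := by
        rw [ClassGroup.mk0_eq_one_iff (J * I₁).2]
        exact ⟨⟨a, hI₀.symm⟩⟩
      rw [map_mul, hJ] at h1
      exact (inv_mul_eq_one.mp h1).symm
    have hspan : Ideal.span {gen ⟨I₁, hcl⟩} = Ideal.span {a} := by
      rw [hgen, hI₀, mul_comm]
    obtain ⟨u, hu⟩ := Ideal.span_singleton_eq_span_singleton.mp hspan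
    exact ⟨(⟨I₁, hcl⟩, u), by rw [hΦ, mul_comm]; exact hu⟩
  have hS : Summable (((J : Ideal (𝓞 K)) : Set (𝓞 K)).indicator (G K s)) :=
    (summable_G K hs).indicator _
  have h1 : HasSum ((((J : Ideal (𝓞 K)) : Set (𝓞 K)).indicator (G K s)) ∘ Φ)
      (∑' a, ((J : Ideal (𝓞 K)) : Set (𝓞 K)).indicator (G K s) a) :=
    (hΦinj.hasSum_iff hrange).mpr hS.hasSum
  have hcomp : ∀ p : {I : (Ideal (𝓞 K))⁰ // ClassGroup.mk0 I = C} × (𝓞 K)ˣ,
      ((((J : Ideal (𝓞 K)) : Set (𝓞 K)).indicator (G K s)) ∘ Φ) p =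
        weight K ((((p.2 : (𝓞 K)ˣ) : 𝓞 K) : K) * (gen p.1 : K)) *
          absN K (gen p.1 : K) ^ (-s) := by
    intro p
    have hgJ : gen p.1 ∈ (J : Ideal (𝓞 K)) := by
      have h := Ideal.mem_span_singleton_self (gen p.1)
      rw [hgen] at h
      exact Ideal.mul_le_left (I := (J : Ideal (𝓞 K))) (by rw [mul_comm]; exact h)
    have hmem : Φ p ∈ ((J : Ideal (𝓞 K)) : Set (𝓞 K)) := by
      rw [hΦ]; exact Ideal.mul_mem_left _ _ hgJ
    have hne : Φ p ≠ 0 := by
      rw [hΦ]; exact mul_ne_zero (Units.ne_zero _) (hgen0 _)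
    simp only [Function.comp_apply]
    rw [Set.indicator_of_mem hmem, G, if_neg hne]
    have e : ((Φ p : 𝓞 K) : K) = (((p.2 : (𝓞 K)ˣ) : 𝓞 K) : K) * (gen p.1 : K) := by
      rw [hΦ]; push_cast; ring
    rw [e, absN_unit_mul]
  have h2 : HasSum (fun I : {I : (Ideal (𝓞 K))⁰ // ClassGroup.mk0 I = C} =>
      absN K (gen I : K) ^ (-s))
      (∑' a, ((J : Ideal (𝓞 K)) : Set (𝓞 K)).indicator (G K s) a) := by
    refine HasSum.prod_fiberwise h1 fun I => ?_
    have h3 := (hasSum_weight_units K (coe_ne_zero K (hgen0 I))).mul_right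
      (absN K (gen I : K) ^ (-s))
    rw [one_mul] at h3
    have hfun : (fun u : (𝓞 K)ˣ =>
        ((((J : Ideal (𝓞 K)) : Set (𝓞 K)).indicator (G K s)) ∘ Φ) (I, u)) =
        fun u : (𝓞 K)ˣ => weight K (((u : 𝓞 K) : K) * (gen I : K)) *
          absN K (gen I : K) ^ (-s) := funext fun u => hcomp (I, u)
    rw [hfun]
    exact h3
  have hfun2 : (fun I : {I : (Ideal (𝓞 K))⁰ // ClassGroup.mk0 I = C} =>
      absN K (gen I : K) ^ (-s)) =
      fun I : {I : (Ideal (𝓞 K))⁰ // ClassGroup.mk0 I = C} =>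
        (Ideal.absNorm (I.1 : Ideal (𝓞 K)) : ℝ) ^ (-s) *
          (Ideal.absNorm (J : Ideal (𝓞 K)) : ℝ) ^ (-s) := by
    funext I
    rw [absN_coe, hgen, map_mul, Nat.cast_mul,
      Real.mul_rpow (Nat.cast_nonneg _) (Nat.cast_nonneg _)]
  rw [hfun2] at h2
  exact h2

lemma absNorm_cast_pos (J : (Ideal (𝓞 K))⁰) : (0 : ℝ) < (Ideal.absNorm (J : Ideal (𝓞 K)) : ℝ) := by
  exact_mod_cast Ideal.absNorm_pos_of_nonZeroDivisors J

variable (K) in
/-- Summability of the partial zeta function of an ideal class. -/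
theorem classZeta_summable (C : ClassGroup (𝓞 K)) (s : ℝ) (hs : 1 < s) :
    Summable fun I : {I : (Ideal (𝓞 K))⁰ // ClassGroup.mk0 I = C} =>
      (Ideal.absNorm (I.1 : Ideal (𝓞 K)) : ℝ) ^ (-s) := by
  obtain ⟨J, hJ⟩ := ClassGroup.mk0_surjective C⁻¹
  have h := (hasSum_classZeta hJ hs).summable
  exact (summable_mul_right_iff (Real.rpow_pos_of_pos (absNorm_cast_pos J) _).ne').mp h

lemma tsum_indicator_G {C : ClassGroup (𝓞 K)} {J : (Ideal (𝓞 K))⁰}
    (hJ : ClassGroup.mk0 J = C⁻¹) {s : ℝ} (hs : 1 < s) :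
    ∑' a, ((J : Ideal (𝓞 K)) : Set (𝓞 K)).indicator (G K s) a =
      (∑' I : {I : (Ideal (𝓞 K))⁰ // ClassGroup.mk0 I = C},
        (Ideal.absNorm (I.1 : Ideal (𝓞 K)) : ℝ) ^ (-s)) *
        (Ideal.absNorm (J : Ideal (𝓞 K)) : ℝ) ^ (-s) := by
  rw [← (hasSum_classZeta hJ hs).tsum_eq, tsum_mul_right]

end Orbit

/-! ## The main theorem -/

section Main

lemma final_real_aux {N s Z1 ZC D A : ℝ} (hN : 1 ≤ N) (hs1 : 1 < s) (hs2 : s ≤ 2)
    (hZ1 : 0 ≤ Z1) (hZ1le : Z1 ≤ A / (s - 1)) (hA : 0 ≤ A) (hD0 : 0 ≤ D)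
    (hD : |Z1 - N * (ZC * N ^ (-s))| ≤ D) :
    |ZC - Z1| ≤ N * D + A * N * Real.log N := by
  have hN0 : 0 < N := by linarith
  have hs0 : 0 < s - 1 := by linarith
  set q : ℝ := N ^ (s - 1) with hq
  have hq0 : 0 < q := Real.rpow_pos_of_pos hN0 _
  have hq1 : 1 ≤ q := Real.one_le_rpow hN hs0.le
  have hqN : q ≤ N := by
    have := Real.rpow_le_rpow_of_exponent_le hN (by linarith : s - 1 ≤ 1)
    rwa [Real.rpow_one] at this
  have e : N * (ZC * N ^ (-s)) = ZC * q⁻¹ := by
    have h1 : N * N ^ (-s) = q⁻¹ := by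
      rw [hq, ← Real.rpow_neg hN0.le, neg_sub, Real.rpow_sub hN0, Real.rpow_one,
        Real.rpow_neg hN0.le]
      field_simp
    rw [← h1]; ring
  rw [e] at hD
  have hlog : 0 ≤ Real.log N := Real.log_nonneg hN
  have hqexp : q = Real.exp (Real.log N * (s - 1)) := by
    rw [hq, Real.rpow_def_of_pos hN0]
  have hq2 : q - 1 ≤ (s - 1) * Real.log N * N := by
    have hx : 0 ≤ Real.log N * (s - 1) := mul_nonneg hlog hs0.le
    have h1 := Real.add_one_le_exp (-(Real.log N * (s - 1)))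
    have h2 : Real.exp (-(Real.log N * (s - 1))) = q⁻¹ := by rw [Real.exp_neg, ← hqexp]
    rw [h2] at h1
    have h3 : q * (-(Real.log N * (s - 1)) + 1) ≤ 1 := by
      have := mul_le_mul_of_nonneg_left h1 hq0.le
      rwa [mul_inv_cancel₀ hq0.ne'] at this
    have h4 : Real.log N * (s - 1) * q ≤ Real.log N * (s - 1) * N :=
      mul_le_mul_of_nonneg_left hqN hx
    nlinarith
  have e2 : ZC - Z1 = q * (ZC * q⁻¹ - Z1) + (q - 1) * Z1 := by
    field_simp
    ring
  rw [e2]
  refine (abs_add_le _ _).trans ?_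
  rw [abs_mul, abs_mul, abs_of_pos hq0, abs_of_nonneg (by linarith : 0 ≤ q - 1),
    abs_of_nonneg hZ1, abs_sub_comm]
  have t1 : q * |Z1 - ZC * q⁻¹| ≤ N * D := mul_le_mul hqN hD (abs_nonneg _) hN0.le
  have t2 : (q - 1) * Z1 ≤ A * N * Real.log N := by
    calc (q - 1) * Z1 ≤ ((s - 1) * Real.log N * N) * (A / (s - 1)) :=
          mul_le_mul hq2 hZ1le hZ1 (by positivity)
      _ = A * N * Real.log N := by field_simp
  linarith

variable (K : Type*) [Field K] [NumberField K]

/-- The partial zeta function of any ideal class differs from that of the trivial class by a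
bounded amount on `(1, 2]`. -/
theorem classZeta_sub_one_bounded (C : ClassGroup (𝓞 K)) :
    ∃ B : ℝ, ∀ s : ℝ, 1 < s → s ≤ 2 →
      |(∑' I : {I : (Ideal (𝓞 K))⁰ // ClassGroup.mk0 I = C},
          (Ideal.absNorm (I.1 : Ideal (𝓞 K)) : ℝ) ^ (-s))
        - (∑' I : {I : (Ideal (𝓞 K))⁰ // ClassGroup.mk0 I = (1 : ClassGroup (𝓞 K))},
          (Ideal.absNorm (I.1 : Ideal (𝓞 K)) : ℝ) ^ (-s))| ≤ B := by
  classical
  obtain ⟨J, hJ⟩ := ClassGroup.mk0_surjective C⁻¹
  have htop : (⊤ : Ideal (𝓞 K)) ∈ (Ideal (𝓞 K))⁰ :=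
    mem_nonZeroDivisors_iff_ne_zero.mpr top_ne_bot
  have hJtop : ClassGroup.mk0 ⟨(⊤ : Ideal (𝓞 K)), htop⟩ = (1 : ClassGroup (𝓞 K))⁻¹ := by
    rw [inv_one, ClassGroup.mk0_eq_one_iff htop]
    exact ⟨⟨1, Ideal.span_singleton_one.symm⟩⟩
  have hJ0 : (J : Ideal (𝓞 K)) ≠ ⊥ := mem_nonZeroDivisors_iff_ne_zero.mp J.2
  have hfin : Finite (𝓞 K ⧸ (J : Ideal (𝓞 K)).toAddSubgroup) :=
    Ideal.finiteQuotientOfFreeOfNeBot (J : Ideal (𝓞 K)) hJ0
  obtain ⟨R, hRcard, hR⟩ := exists_coset_reps (J : Ideal (𝓞 K)).toAddSubgroup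
  have hcard : (R.card : ℝ) = (Ideal.absNorm (J : Ideal (𝓞 K)) : ℝ) := by
    rw [hRcard, Ideal.absNorm_apply, Submodule.cardQuot_apply]
    rfl
  obtain ⟨A, hA0, hA⟩ := exists_tsum_G_le K
  have hN1 : (1 : ℝ) ≤ (Ideal.absNorm (J : Ideal (𝓞 K)) : ℝ) := by
    exact_mod_cast Ideal.absNorm_pos_of_nonZeroDivisors J
  refine ⟨(Ideal.absNorm (J : Ideal (𝓞 K)) : ℝ) * (∑ r ∈ R, ∑' b, Dfun K r b) +
    A * (Ideal.absNorm (J : Ideal (𝓞 K)) : ℝ) *
      Real.log (Ideal.absNorm (J : Ideal (𝓞 K)) : ℝ), fun s hs1 hs2 => ?_⟩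
  have hcmp := abs_tsum_sub_card_mul_tsum_indicator_le (J : Ideal (𝓞 K)).toAddSubgroup R hR
    (G K s) (summable_G K hs1) (Dfun K) (fun r b => abs_G_sub_le_Dfun K r b hs1.le hs2)
    (summable_Dfun K)
  have e1 : ∑' a, G K s a =
      ∑' I : {I : (Ideal (𝓞 K))⁰ // ClassGroup.mk0 I = (1 : ClassGroup (𝓞 K))},
        (Ideal.absNorm (I.1 : Ideal (𝓞 K)) : ℝ) ^ (-s) := by
    have h := tsum_indicator_G hJtop hs1
    simp only [Submodule.top_coe, Set.indicator_univ, Ideal.absNorm_top, Nat.cast_one,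
      Real.one_rpow, mul_one] at h
    exact h
  have e2 : ∑' a, (((J : Ideal (𝓞 K)).toAddSubgroup : AddSubgroup (𝓞 K)) :
      Set (𝓞 K)).indicator (G K s) a =
      (∑' I : {I : (Ideal (𝓞 K))⁰ // ClassGroup.mk0 I = C},
        (Ideal.absNorm (I.1 : Ideal (𝓞 K)) : ℝ) ^ (-s)) *
        (Ideal.absNorm (J : Ideal (𝓞 K)) : ℝ) ^ (-s) := tsum_indicator_G hJ hs1
  rw [e1, e2, hcard] at hcmp
  have hZ1 : 0 ≤ ∑' I : {I : (Ideal (𝓞 K))⁰ // ClassGroup.mk0 I = (1 : ClassGroup (𝓞 K))},
      (Ideal.absNorm (I.1 : Ideal (𝓞 K)) : ℝ) ^ (-s) :=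
    tsum_nonneg fun I => Real.rpow_nonneg (Nat.cast_nonneg _) _
  have hZ1le := hA s hs1 hs2
  rw [e1] at hZ1le
  have hD0 : 0 ≤ ∑ r ∈ R, ∑' b, Dfun K r b := (abs_nonneg _).trans hcmp
  exact final_real_aux hN1 hs1 hs2 hZ1 hZ1le hA0 hD0 hcmp

/-- **Package N1.** The partial zeta functions of two ideal classes differ by a bounded amount
on `(1, 2]`. -/
theorem classZeta_sub_bounded (C C' : ClassGroup (𝓞 K)) :
    ∃ B : ℝ, ∀ s : ℝ, 1 < s → s ≤ 2 →
      |(∑' I : {I : (Ideal (𝓞 K))⁰ // ClassGroup.mk0 I = C},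
          (Ideal.absNorm (I.1 : Ideal (𝓞 K)) : ℝ) ^ (-s))
        - (∑' I : {I : (Ideal (𝓞 K))⁰ // ClassGroup.mk0 I = C'},
          (Ideal.absNorm (I.1 : Ideal (𝓞 K)) : ℝ) ^ (-s))| ≤ B := by
  obtain ⟨B, hB⟩ := classZeta_sub_one_bounded K C
  obtain ⟨B', hB'⟩ := classZeta_sub_one_bounded K C'
  refine ⟨B + B', fun s hs1 hs2 => ?_⟩
  have h1 := hB s hs1 hs2
  have h2 := hB' s hs1 hs2
  have h3 := abs_sub_le
    (∑' I : {I : (Ideal (𝓞 K))⁰ // ClassGroup.mk0 I = C},
      (Ideal.absNorm (I.1 : Ideal (𝓞 K)) : ℝ) ^ (-s))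
    (∑' I : {I : (Ideal (𝓞 K))⁰ // ClassGroup.mk0 I = (1 : ClassGroup (𝓞 K))},
      (Ideal.absNorm (I.1 : Ideal (𝓞 K)) : ℝ) ^ (-s))
    (∑' I : {I : (Ideal (𝓞 K))⁰ // ClassGroup.mk0 I = C'},
      (Ideal.absNorm (I.1 : Ideal (𝓞 K)) : ℝ) ^ (-s))
  rw [abs_sub_comm] at h2
  linarith

end Main

end

end Fermat.Agent.S14.ClassZeta
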