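import Mathlib
import Fermat.Prelude.Def_ExtCitation_AdmissibleExtension_v2

set_option autoImplicit false

open scoped NumberField nonZeroDivisors
open IsDedekindDomain

namespace Fermat.Agent.S14.Defs

/-- The explicit cyclotomic element `∏_{a=1}^{p-1} (1 + z^a)^(a^(p-3))`
(the `ω²`-projection of the cyclotomic unit `1 + ζ`). -/
def c2 (p : ℕ) {R : Type*} [CommRing R] (z : R) : R :=
  ∏ a ∈ Finset.Ico 1 p, (1 + z ^ a) ^ (a ^ (p - 3))

/-- `α` is an `ω²`-eigenvector modulo `p`-th powers. -/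
def EigenElt (p : ℕ) {K : Type*} [Field K] [NumberField K] (ζ α : K) : Prop :=
  ∀ (σ : K ≃ₐ[ℚ] K) (n : ℕ), σ ζ = ζ ^ n → ∃ β : K, σ α = α ^ (n ^ 2) * β ^ p

/-- Every prime valuation of `α` is divisible by `p`. -/
def ValDivisible (p : ℕ) {K : Type*} [Field K] [NumberField K] (α : K) : Prop :=
  ∀ v : HeightOneSpectrum (𝓞 K), ∃ x : K, x ≠ 0 ∧ v.valuation K (α * x ^ p) = 1

/-- `α` is, up to `p`-th powers, congruent to `1` modulo the cube of every prime above `p`. -/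
def LocalPow (p : ℕ) {K : Type*} [Field K] [NumberField K] (α : K) : Prop :=
  ∀ v : HeightOneSpectrum (𝓞 K), ((p : ℕ) : 𝓞 K) ∈ v.asIdeal →
    ∃ x : K, v.valuation K (α * x ^ p - 1) ≤ WithZero.exp (-3 : ℤ)

/-- The ideal class of a prime. -/
noncomputable def cls {K : Type*} [Field K] [NumberField K] (v : HeightOneSpectrum (𝓞 K)) :
    ClassGroup (𝓞 K) :=
  ClassGroup.mk0 ⟨v.asIdeal, mem_nonZeroDivisors_of_ne_zero v.ne_bot⟩

/-- The action of a field automorphism on the ring of integers. -/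
noncomputable def sigmaO {K : Type*} [Field K] [NumberField K] (σ : K ≃ₐ[ℚ] K) : 𝓞 K ≃+* 𝓞 K :=
  NumberField.RingOfIntegers.mapRingEquiv σ.toRingEquiv

/-- `φ` is an `ω²`-eigenfunctional on the class group. -/
def IsEigen (p : ℕ) {K : Type*} [Field K] [NumberField K] (ζ : K)
    (φ : Additive (ClassGroup (𝓞 K)) →+ ZMod p) : Prop :=
  ∀ (σ : K ≃ₐ[ℚ] K) (n : ℕ), σ ζ = ζ ^ n → ∀ I J : (Ideal (𝓞 K))⁰,
    (J : Ideal (𝓞 K)) = Ideal.map (sigmaO σ) (I : Ideal (𝓞 K)) →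
      φ (Additive.ofMul (ClassGroup.mk0 J)) = (n : ZMod p) ^ 2 * φ (Additive.ofMul (ClassGroup.mk0 I))

end Fermat.Agent.S14.Defs
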