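import Mathlib

set_option autoImplicit false

namespace Fermat.Agent.S14.Base

/-- The `ℚ`-algebra structure on `AlgebraicClosure ℚ` found by instance search
(`DivisionRing.toRatAlgebra`) agrees with the one `AlgebraicClosure` is built with. -/
theorem algebra_eq :
    (DivisionRing.toRatAlgebra : Algebra ℚ (AlgebraicClosure ℚ)) = AlgebraicClosure.instAlgebra ℚ :=
  Subsingleton.elim _ _

theorem isAlgebraic : Algebra.IsAlgebraic ℚ (AlgebraicClosure ℚ) := by
  have h := AlgebraicClosure.isAlgebraic ℚ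
  rw [← algebra_eq] at h
  exact h

theorem isIntegral : Algebra.IsIntegral ℚ (AlgebraicClosure ℚ) :=
  haveI := isAlgebraic
  Algebra.IsAlgebraic.isIntegral

theorem isAlgClosure : IsAlgClosure ℚ (AlgebraicClosure ℚ) :=
  ⟨inferInstance, isAlgebraic⟩

theorem isGalois : IsGalois ℚ (AlgebraicClosure ℚ) := by
  have := isAlgClosure
  have := isAlgebraic
  infer_instance

theorem compactSpace : CompactSpace (AlgebraicClosure ℚ ≃ₐ[ℚ] AlgebraicClosure ℚ) := by
  have := isGalois
  infer_instance

theorem totallyDisconnectedSpace :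
    TotallyDisconnectedSpace (AlgebraicClosure ℚ ≃ₐ[ℚ] AlgebraicClosure ℚ) := by
  have := isAlgebraic
  infer_instance

/-- There is a copy of `ℚ(ζ_p)` inside `AlgebraicClosure ℚ`. -/
theorem exists_cyclotomic_subfield (p : ℕ) [Fact p.Prime] :
    ∃ K : IntermediateField ℚ (AlgebraicClosure ℚ),
      NumberField K ∧ IsCyclotomicExtension {p} ℚ K := by
  have : NeZero p := ⟨(Fact.out : p.Prime).ne_zero⟩
  have : NeZero (p : AlgebraicClosure ℚ) := ⟨Nat.cast_ne_zero.mpr (NeZero.ne p)⟩
  have := isIntegral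
  obtain ⟨ζ, hζ⟩ := HasEnoughRootsOfUnity.exists_primitiveRoot (AlgebraicClosure ℚ) p
  have hcyc : IsCyclotomicExtension {p} ℚ (IntermediateField.adjoin ℚ {ζ}) :=
    hζ.intermediateField_adjoin_isCyclotomicExtension ℚ
  exact ⟨IntermediateField.adjoin ℚ {ζ}, IsCyclotomicExtension.numberField {p} ℚ _, hcyc⟩

end Fermat.Agent.S14.Base
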