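import Mathlib

/-!
# The frontier of `normLeOne K` is covered by finitely many Lipschitz images of `(n-1)`-cubes

`frontier_normLeOne_coverable`: for a number field `K` of degree `n`, the frontier of
`NumberField.mixedEmbedding.fundamentalCone.normLeOne K` is contained in a finite union of images
of the unit cube `[0,1]^(n-1)` under maps that are Lipschitz on that cube.
-/

set_option autoImplicit false

open scoped NNReal
open NumberField NumberField.InfinitePlace NumberField.mixedEmbedding NumberField.Units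
  NumberField.Units.dirichletUnitTheorem NumberField.mixedEmbedding.fundamentalCone

namespace Fermat.Agent.S14.NormLeOneFrontier

section generic

/-- Reparametrise a cube over a finite type `P` of cardinality `d` by the cube over `Fin d`. -/
theorem reparam {E : Type*} [PseudoEMetricSpace E] {d : ℕ} {P : Type*} [Fintype P]
    (hP : Nat.card P = d) (Φ : (P → ℝ) → E)
    (hΦ : ∃ C : ℝ≥0, LipschitzOnWith C Φ (Set.Icc 0 1)) :
    ∃ Ψ : (Fin d → ℝ) → E, (∃ C : ℝ≥0, LipschitzOnWith C Ψ (Set.Icc 0 1)) ∧
      Φ '' Set.Icc 0 1 ⊆ Ψ '' Set.Icc 0 1 := by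
  obtain ⟨C, hC⟩ := hΦ
  have e : P ≃ Fin d := Fintype.equivFinOfCardEq (by rw [← hP, Nat.card_eq_fintype_card])
  have hR : LipschitzWith 1 (fun (v : Fin d → ℝ) (q : P) => v (e q)) := by
    refine LipschitzWith.of_dist_le_mul fun v v' => ?_
    rw [NNReal.coe_one, one_mul]
    exact (dist_pi_le_iff dist_nonneg).2 fun q => dist_le_pi_dist v v' (e q)
  have hmaps : Set.MapsTo (fun (v : Fin d → ℝ) (q : P) => v (e q)) (Set.Icc 0 1) (Set.Icc 0 1) := by
    intro v hv
    exact ⟨fun q => hv.1 (e q), fun q => hv.2 (e q)⟩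
  refine ⟨fun v => Φ (fun q => v (e q)), ⟨C * 1, hC.comp hR.lipschitzOnWith hmaps⟩, ?_⟩
  rintro _ ⟨u, hu, rfl⟩
  refine ⟨fun k => u (e.symm k), ⟨fun k => hu.1 (e.symm k), fun k => hu.2 (e.symm k)⟩, ?_⟩
  simp

/-- Finitely many Lipschitz maps indexed by a finite type, with individual constants, can be
indexed by `Fin m` with a uniform constant. -/
theorem coverable_of_finite {E : Type*} [PseudoEMetricSpace E] {d : ℕ} {ι : Type*} [Finite ι]
    (T : Set E) (Φ : ι → (Fin d → ℝ) → E)
    (hΦ : ∀ i, ∃ C : ℝ≥0, LipschitzOnWith C (Φ i) (Set.Icc 0 1))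
    (hT : T ⊆ ⋃ i, Φ i '' Set.Icc 0 1) :
    ∃ (m : ℕ) (C : ℝ≥0) (Ψ : Fin m → (Fin d → ℝ) → E),
      (∀ i, LipschitzOnWith C (Ψ i) (Set.Icc 0 1)) ∧ T ⊆ ⋃ i, Ψ i '' Set.Icc 0 1 := by
  obtain ⟨m, ⟨em⟩⟩ := Finite.exists_equiv_fin ι
  choose C hC using hΦ
  refine ⟨m, Finset.univ.sup fun j => C (em.symm j), fun j => Φ (em.symm j), fun j => ?_, ?_⟩
  · exact (hC (em.symm j)).weaken (Finset.le_sup (f := fun j => C (em.symm j)) (Finset.mem_univ j))
  · intro x hx
    obtain ⟨i, hi⟩ := Set.mem_iUnion.1 (hT hx)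
    refine Set.mem_iUnion.2 ⟨em i, ?_⟩
    simpa using hi

end generic

variable (K : Type*) [Field K] [NumberField K]

theorem contDiff_expMapBasis :
    ContDiff ℝ ⊤ (fun x : realSpace K => (expMapBasis x : realSpace K)) := by
  rw [contDiff_pi]
  intro w
  have h1 : ContDiff ℝ ⊤ (fun x : realSpace K => ((completeBasis K).equivFunL.symm x) w) :=
    (contDiff_apply ℝ ℝ w).comp ((completeBasis K).equivFunL.symm.contDiff)
  exact Real.contDiff_exp.comp (contDiff_const.mul h1)

/-- The sign `±1` attached to a boolean. -/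
def sgn (b : Bool) : ℝ := if b then 1 else -1

theorem exists_sgn (a : ℝ) : ∃ b : Bool, a = sgn b * ‖a‖ := by
  rcases le_total 0 a with h | h
  · exact ⟨true, by simp [sgn, Real.norm_of_nonneg h]⟩
  · exact ⟨false, by simp [sgn, Real.norm_of_nonpos h]⟩

theorem exists_angle (z : ℂ) : ∃ θ ∈ Set.Icc (0 : ℝ) 1,
    z = (‖z‖ : ℂ) * Complex.exp (((2 * Real.pi * θ : ℝ) : ℂ) * Complex.I) := by
  have hpi := Real.pi_pos
  have h1 := Complex.neg_pi_lt_arg z
  have h2 := Complex.arg_le_pi z
  by_cases h : 0 ≤ Complex.arg z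
  · refine ⟨Complex.arg z / (2 * Real.pi), ⟨by positivity, ?_⟩, ?_⟩
    · rw [div_le_one (by positivity)]; linarith
    · rw [mul_div_cancel₀ _ (by positivity : (2 * Real.pi) ≠ 0)]
      exact (Complex.norm_mul_exp_arg_mul_I z).symm
  · rw [not_le] at h
    refine ⟨Complex.arg z / (2 * Real.pi) + 1, ⟨?_, ?_⟩, ?_⟩
    · have : -1 ≤ Complex.arg z / (2 * Real.pi) := by
        rw [le_div_iff₀ (by positivity)]; linarith
      linarith
    · have : Complex.arg z / (2 * Real.pi) ≤ 0 :=
        div_nonpos_of_nonpos_of_nonneg h.le (by positivity)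
      linarith
    · have e : (2 * Real.pi * (Complex.arg z / (2 * Real.pi) + 1) : ℝ)
          = Complex.arg z + 2 * Real.pi := by
        field_simp
      rw [e, Complex.ofReal_add, add_mul, Complex.exp_add]
      have : Complex.exp (((2 * Real.pi : ℝ) : ℂ) * Complex.I) = 1 := by
        push_cast
        exact Complex.exp_two_pi_mul_I
      rw [this, mul_one]
      exact (Complex.norm_mul_exp_arg_mul_I z).symm

/-- The map `(c, y, θ) ↦ (± c · expMapBasis y, c · expMapBasis y · e^{2πiθ})`. -/
noncomputable def bigMap (s : {w : InfinitePlace K // IsReal w} → Bool)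
    (q : ℝ × realSpace K × ({w : InfinitePlace K // IsComplex w} → ℝ)) : mixedSpace K :=
  (fun w => sgn (s w) * (q.1 * expMapBasis q.2.1 w.1),
   fun w => ((q.1 * expMapBasis q.2.1 w.1 : ℝ) : ℂ) *
      Complex.exp (((2 * Real.pi * q.2.2 w : ℝ) : ℂ) * Complex.I))

open scoped Classical in
theorem contDiff_bigMap (s : {w : InfinitePlace K // IsReal w} → Bool) :
    ContDiff ℝ ⊤ (bigMap K s) := by
  unfold bigMap
  have hE : ∀ w : InfinitePlace K, ContDiff ℝ ⊤
      (fun q : ℝ × realSpace K × ({w : InfinitePlace K // IsComplex w} → ℝ) =>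
        q.1 * expMapBasis q.2.1 w) := fun w =>
    contDiff_fst.mul ((contDiff_apply ℝ ℝ w).comp
      ((contDiff_expMapBasis K).comp (contDiff_fst.comp contDiff_snd)))
  refine ContDiff.prodMk ?_ ?_
  · rw [contDiff_pi]
    intro w
    exact contDiff_const.mul (hE w.1)
  · rw [contDiff_pi]
    intro w
    refine ContDiff.mul (Complex.ofRealCLM.contDiff.comp (hE w.1)) ?_
    refine Complex.contDiff_exp.comp (ContDiff.mul (Complex.ofRealCLM.contDiff.comp
      (contDiff_const.mul ((contDiff_apply ℝ ℝ w).comp (contDiff_snd.comp contDiff_snd))))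
      contDiff_const)

/-- The parameter type of a face: one real parameter for each place different from the frozen
one, and one angle for each complex place. -/
abbrev Param (w₁ : InfinitePlace K) : Type _ :=
  {w : InfinitePlace K // w ≠ w₁} ⊕ {w : InfinitePlace K // IsComplex w}

open scoped Classical in
theorem card_param (w₁ : InfinitePlace K) :
    Nat.card (Param K w₁) = Module.finrank ℚ K - 1 := by
  classical
  have h1 : Nat.card {w : InfinitePlace K // w ≠ w₁} = Fintype.card (InfinitePlace K) - 1 := by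
    rw [Nat.card_eq_fintype_card, Fintype.card_subtype_compl, Fintype.card_subtype_eq]
  have h2 : Nat.card {w : InfinitePlace K // IsComplex w} = nrComplexPlaces K := by
    rw [Nat.card_eq_fintype_card]
  have h3 := card_eq_nrRealPlaces_add_nrComplexPlaces K
  have h4 := card_add_two_mul_card_eq_rank K
  have h5 : 0 < Fintype.card (InfinitePlace K) := Fintype.card_pos
  rw [Nat.card_sum, h1, h2]
  omega

open scoped Classical in
/-- The affine map from the parameter cube of a face to `(c, y, θ)`. -/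
noncomputable def paramMap (w₁ : InfinitePlace K) (t : ℝ) (u : Param K w₁ → ℝ) :
    ℝ × realSpace K × ({w : InfinitePlace K // IsComplex w} → ℝ) :=
  (if h : w₁ = w₀ then 1 else u (Sum.inl ⟨w₀, Ne.symm h⟩),
   fun w => if w = w₀ then 0 else if h : w = w₁ then t else u (Sum.inl ⟨w, h⟩),
   fun w => u (Sum.inr w))

open scoped Classical in
theorem contDiff_paramMap (w₁ : InfinitePlace K) (t : ℝ) :
    ContDiff ℝ ⊤ (paramMap K w₁ t) := by
  unfold paramMap
  refine ContDiff.prodMk ?_ (ContDiff.prodMk ?_ ?_)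
  · split_ifs with h
    · exact contDiff_const
    · exact contDiff_apply ℝ ℝ _
  · rw [contDiff_pi]
    intro w
    by_cases h0 : w = w₀
    · simp only [h0, if_true]
      exact contDiff_const
    · by_cases h1 : w = w₁
      · simp only [h1, dif_pos]
        exact contDiff_const
      · simp only [h0, h1, if_false, dif_neg, not_false_iff]
        exact contDiff_apply ℝ ℝ _
  · rw [contDiff_pi]
    intro w
    exact contDiff_apply ℝ ℝ _

open scoped Classical in
theorem exists_lipschitz_face (w₁ : InfinitePlace K) (t : ℝ)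
    (s : {w : InfinitePlace K // IsReal w} → Bool) :
    ∃ C : ℝ≥0, LipschitzOnWith C (fun u => bigMap K s (paramMap K w₁ t u)) (Set.Icc 0 1) :=
  (((contDiff_bigMap K s).comp (contDiff_paramMap K w₁ t)).contDiffOn).exists_lipschitzOnWith
    (by simp) (convex_Icc 0 1) isCompact_Icc

open scoped Classical in
/-- Every point of the frontier of `normLeOne K` is `0` or lies on one of the faces. -/
theorem frontier_subset (x : mixedSpace K) (hx : x ∈ frontier (normLeOne K)) :
    x = 0 ∨ ∃ (w₁ : InfinitePlace K) (b : Bool) (s : {w : InfinitePlace K // IsReal w} → Bool)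
      (u : Param K w₁ → ℝ), u ∈ Set.Icc 0 1 ∧
        bigMap K s (paramMap K w₁ (if b then 1 else 0) u) = x := by
  classical
  obtain ⟨hcl, hint⟩ := hx
  have h1 : normAtAllPlaces x ∈ compactSet K := closure_normLeOne_subset K hcl
  have h2 : normAtAllPlaces x ∉ expMapBasis '' interior (paramSet K) :=
    fun h => hint (subset_interior_normLeOne K h)
  obtain ⟨c, hc, _, ⟨y, hy, rfl⟩, hxy⟩ := h1
  rw [Set.mem_univ_pi] at hy
  have hy0 : y w₀ = 0 := by simpa using hy w₀
  have hy1 : ∀ w, w ≠ w₀ → y w ∈ Set.Icc (0 : ℝ) 1 := fun w hw => by simpa [hw] using hy w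
  have hxy' : ∀ w, normAtPlace w x = c * expMapBasis y w := fun w => by
    have := congrFun hxy w
    simpa using this.symm
  by_cases hc0 : c = 0
  · left
    rw [← forall_normAtPlace_eq_zero_iff]
    intro w
    rw [hxy', hc0, zero_mul]
  · right
    have hcpos : 0 < c := lt_of_le_of_ne hc.1 (Ne.symm hc0)
    have hreal : ∀ w : {w : InfinitePlace K // IsReal w}, ∃ b : Bool,
        x.1 w = sgn b * (c * expMapBasis y w.1) := fun w => by
      obtain ⟨b, hb⟩ := exists_sgn (x.1 w)
      refine ⟨b, ?_⟩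
      rw [← hxy', normAtPlace_apply_of_isReal w.2]
      exact hb
    have hcomplex : ∀ w : {w : InfinitePlace K // IsComplex w}, ∃ θ ∈ Set.Icc (0 : ℝ) 1,
        x.2 w = ((c * expMapBasis y w.1 : ℝ) : ℂ) *
          Complex.exp (((2 * Real.pi * θ : ℝ) : ℂ) * Complex.I) := fun w => by
      obtain ⟨θ, hθ, h⟩ := exists_angle (x.2 w)
      refine ⟨θ, hθ, ?_⟩
      rw [← hxy', normAtPlace_apply_of_isComplex w.2]
      exact h
    choose s hs using hreal
    choose θ hθ hθ' using hcomplex
    have hface : c = 1 ∨ ∃ w, w ≠ w₀ ∧ (y w = 0 ∨ y w = 1) := by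
      by_contra hcon
      rw [not_or, not_exists] at hcon
      have hcon2 : ∀ w, w ≠ w₀ → y w ≠ 0 ∧ y w ≠ 1 := fun w hw =>
        not_or.1 fun h => hcon.2 w ⟨hw, h⟩
      apply h2
      refine ⟨fun w => if w = w₀ then Real.log c else y w, ?_, ?_⟩
      · rw [interior_paramSet, Set.mem_univ_pi]
        intro w
        by_cases hw : w = w₀
        · simp only [hw, if_true]
          exact Real.log_neg hcpos (lt_of_le_of_ne hc.2 hcon.1)
        · simp only [hw, if_false]
          exact ⟨lt_of_le_of_ne (hy1 w hw).1 (Ne.symm (hcon2 w hw).1),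
            lt_of_le_of_ne (hy1 w hw).2 (hcon2 w hw).2⟩
      · rw [← hxy, expMapBasis_apply'', if_pos rfl, Real.exp_log hcpos]
        congr 2
        ext w
        by_cases hw : w = w₀ <;> simp [hw, hy0]
    -- the common parameter vector
    have key : ∀ (w₁ : InfinitePlace K) (t : ℝ), (w₁ = w₀ → c = 1) → (w₁ ≠ w₀ → y w₁ = t) →
        ∃ u : Param K w₁ → ℝ, u ∈ Set.Icc 0 1 ∧ bigMap K s (paramMap K w₁ t u) = x := by
      intro w₁ t hA hB
      refine ⟨fun j => Sum.elim (fun w => if w.1 = w₀ then c else y w.1) θ j, ⟨?_, ?_⟩, ?_⟩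
      · rintro (w | w)
        · simp only [Sum.elim_inl, Pi.zero_apply]
          split_ifs with h
          · exact hc.1
          · exact (hy1 w.1 h).1
        · exact (hθ w).1
      · rintro (w | w)
        · simp only [Sum.elim_inl, Pi.one_apply]
          split_ifs with h
          · exact hc.2
          · exact (hy1 w.1 h).2
        · exact (hθ w).2
      · have hp : paramMap K w₁ t
            (fun j => Sum.elim (fun w => if w.1 = w₀ then c else y w.1) θ j) = (c, y, θ) := by
          unfold paramMap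
          refine Prod.ext ?_ (Prod.ext ?_ ?_)
          · by_cases h : w₁ = w₀
            · simp [h, hA h]
            · simp [h]
          · funext w
            by_cases h0 : w = w₀
            · simp [h0, hy0]
            · by_cases h1 : w = w₁
              · subst h1
                simp [h0, hB h0]
              · simp [h0, h1]
          · rfl
        rw [hp]
        exact Prod.ext (funext fun w => (hs w).symm) (funext fun w => (hθ' w).symm)
    rcases hface with hc1 | ⟨w₁, hw₁, ht | ht⟩
    · obtain ⟨u, hu, hux⟩ := key w₀ 0 (fun _ => hc1) (fun h => absurd rfl h)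
      exact ⟨w₀, false, s, u, hu, by simpa using hux⟩
    · obtain ⟨u, hu, hux⟩ := key w₁ 0 (fun h => absurd h hw₁) (fun _ => ht)
      exact ⟨w₁, false, s, u, hu, by simpa using hux⟩
    · obtain ⟨u, hu, hux⟩ := key w₁ 1 (fun h => absurd h hw₁) (fun _ => ht)
      exact ⟨w₁, true, s, u, hu, by simpa using hux⟩

open scoped Classical in
/-- **The frontier of `normLeOne K` is covered by finitely many Lipschitz images of the unit
cube of dimension `[K : ℚ] - 1`.** -/
theorem frontier_normLeOne_coverable :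
    ∃ (m : ℕ) (C : ℝ≥0) (Φ : Fin m → (Fin (Module.finrank ℚ K - 1) → ℝ) → mixedSpace K),
      (∀ i, LipschitzOnWith C (Φ i) (Set.Icc 0 1)) ∧
      frontier (normLeOne K) ⊆ ⋃ i, Φ i '' Set.Icc 0 1 := by
  classical
  have hj : ∀ j : InfinitePlace K × Bool × ({w : InfinitePlace K // IsReal w} → Bool),
      ∃ Ψ : (Fin (Module.finrank ℚ K - 1) → ℝ) → mixedSpace K,
        (∃ C : ℝ≥0, LipschitzOnWith C Ψ (Set.Icc 0 1)) ∧
        (fun u => bigMap K j.2.2 (paramMap K j.1 (if j.2.1 then 1 else 0) u)) '' Set.Icc 0 1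
          ⊆ Ψ '' Set.Icc 0 1 := fun j =>
    reparam (card_param K j.1) _ (exists_lipschitz_face K j.1 _ j.2.2)
  choose Ψ hΨ1 hΨ2 using hj
  refine coverable_of_finite (ι := Option (InfinitePlace K × Bool ×
    ({w : InfinitePlace K // IsReal w} → Bool))) _ (fun i => i.elim (fun _ => 0) Ψ) ?_ ?_
  · rintro (_ | j)
    · exact ⟨0, (LipschitzWith.const (0 : mixedSpace K)).lipschitzOnWith⟩
    · exact hΨ1 j
  · intro x hx
    rcases frontier_subset K x hx with rfl | ⟨w₁, b, s, u, hu, rfl⟩
    · exact Set.mem_iUnion.2 ⟨none, 0, ⟨le_rfl, zero_le_one⟩, rfl⟩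
    · exact Set.mem_iUnion.2 ⟨some (w₁, b, s), hΨ2 (w₁, b, s) ⟨u, hu, rfl⟩⟩

end Fermat.Agent.S14.NormLeOneFrontier
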