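import Fermat.Agent.S14.IdealCount
import Fermat.Agent.S14.NormLeOneFrontier

/-!
# Partial zeta functions of two ideal classes differ by `O(1)` on `(1, 2]` (unconditional)

Glue of `NormLeOneFrontier.frontier_normLeOne_coverable` (the frontier of `normLeOne K` is
Lipschitz coverable in dimension `n - 1`) with `IdealCount.classZeta_sub_bounded_of_frontier`.
-/

set_option autoImplicit false

open scoped NNReal NumberField nonZeroDivisors
open NumberField NumberField.mixedEmbedding NumberField.mixedEmbedding.fundamentalCone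
open Fermat.Agent.S14.LipschitzCount

namespace Fermat.Agent.S14.ClassZetaFinal

variable (K : Type*) [Field K] [NumberField K]

open scoped Classical in
/-- The frontier of `normLeOne K` is Lipschitz coverable in dimension `[K : ℚ] - 1`. -/
theorem lipschitzCoverable_frontier_normLeOne :
    LipschitzCoverable (Module.finrank ℚ K - 1) (frontier (normLeOne K)) := by
  obtain ⟨m, C, Φ, h1, h2⟩ :=
    Fermat.Agent.S14.NormLeOneFrontier.frontier_normLeOne_coverable K
  exact ⟨m, C, Φ, fun _ => Set.Icc 0 1, fun _ => Metric.isBounded_Icc 0 1, h1, h2⟩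

/-- **Partial zeta functions of two ideal classes differ by `O(1)` on `(1, 2]`.** -/
theorem classZeta_sub_bounded (C C' : ClassGroup (𝓞 K)) :
    ∃ B : ℝ, ∀ s : ℝ, 1 < s → s ≤ 2 →
      |(∑' I : {I : (Ideal (𝓞 K))⁰ // ClassGroup.mk0 I = C},
          (Ideal.absNorm (I.1 : Ideal (𝓞 K)) : ℝ) ^ (-s))
        - (∑' I : {I : (Ideal (𝓞 K))⁰ // ClassGroup.mk0 I = C'},
          (Ideal.absNorm (I.1 : Ideal (𝓞 K)) : ℝ) ^ (-s))| ≤ B :=
  Fermat.Agent.S14.IdealCount.classZeta_sub_bounded_of_frontier K
    (lipschitzCoverable_frontier_normLeOne K) C C'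

end Fermat.Agent.S14.ClassZetaFinal
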