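import Mathlib

set_option autoImplicit false
set_option linter.unusedSectionVars false
set_option linter.style.haveILetI false

open scoped NumberField nonZeroDivisors
open IsDedekindDomain Polynomial

namespace Fermat.Agent.S14.KummerSplit

section general

variable {p : ℕ} [hp : Fact p.Prime] {K : Type} [Field K] [NumberField K]
  {M : Type} [Field M] [NumberField M] [Algebra K M]

/-- The integral trace of an element of `v 𝓞_M` lies in `v`. -/
theorem intTrace_mem_of_mem_map (v : Ideal (𝓞 K)) {x : 𝓞 M}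
    (hx : x ∈ v.map (algebraMap (𝓞 K) (𝓞 M))) :
    Algebra.intTrace (𝓞 K) (𝓞 M) x ∈ v := by
  have hx' : x ∈ (v • (⊤ : Submodule (𝓞 K) (𝓞 M))) := by
    rw [Ideal.smul_top_eq_map]; exact hx
  refine Submodule.smul_induction_on hx' ?_ ?_
  · intro a ha m _
    rw [map_smul]
    exact Ideal.mul_mem_right _ _ ha
  · intro a b ha hb
    rw [map_add]
    exact Ideal.add_mem _ ha hb

/-- The cofactor `∑_{i<p} θ^i r^(p-1-i)` of `θ - r` in `θ^p - r^p`. -/
noncomputable def cof (p : ℕ) (θ : 𝓞 M) (r : 𝓞 K) : 𝓞 M :=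
  ∑ i ∈ Finset.range p, θ ^ i * (algebraMap (𝓞 K) (𝓞 M) r) ^ (p - 1 - i)

theorem sub_mul_cof (θ : 𝓞 M) (r : 𝓞 K) :
    (θ - algebraMap (𝓞 K) (𝓞 M) r) * cof p θ r = θ ^ p - (algebraMap (𝓞 K) (𝓞 M) r) ^ p := by
  rw [cof, mul_comm]
  exact (Commute.all _ _).geom_sum₂_mul p

/-- The trace of `cof * θ` is `p * c`. -/
theorem intTrace_cof_mul (hfin : Module.finrank K M = p) (c : 𝓞 K) (θ : 𝓞 M)
    (hθ : θ ^ p = algebraMap (𝓞 K) (𝓞 M) c)
    (htr : ∀ k, 0 < k → k < p → Algebra.trace K M ((θ : M) ^ k) = 0) (r : 𝓞 K) :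
    Algebra.intTrace (𝓞 K) (𝓞 M) (cof p θ r * θ) = (p : 𝓞 K) * c := by
  have hp0 : 0 < p := hp.out.pos
  apply FaithfulSMul.algebraMap_injective (𝓞 K) K
  rw [Algebra.algebraMap_intTrace (L := M)]
  have h1 : (algebraMap (𝓞 M) M (cof p θ r * θ))
      = ∑ i ∈ Finset.range p, (algebraMap (𝓞 K) K r) ^ (p - 1 - i) • ((θ : M) ^ (i + 1)) := by
    rw [cof, Finset.sum_mul, map_sum]
    refine Finset.sum_congr rfl fun i _ => ?_
    rw [Algebra.smul_def]
    simp only [map_mul, map_pow]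
    rw [← IsScalarTower.algebraMap_apply (𝓞 K) (𝓞 M) M, IsScalarTower.algebraMap_apply (𝓞 K) K M]
    have : algebraMap (𝓞 M) M θ = (θ : M) := rfl
    rw [this]
    ring
  rw [h1, map_sum]
  simp only [map_smul]
  rw [Finset.sum_eq_single (p - 1)]
  · have hpp : p - 1 + 1 = p := Nat.sub_add_cancel hp0
    rw [hpp, Nat.sub_self, pow_zero, one_smul]
    have h2 : (θ : M) ^ p = algebraMap K M (algebraMap (𝓞 K) K c) := by
      have := congrArg (algebraMap (𝓞 M) M) hθ
      rw [map_pow, ← IsScalarTower.algebraMap_apply (𝓞 K) (𝓞 M) M,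
        IsScalarTower.algebraMap_apply (𝓞 K) K M] at this
      exact this
    rw [h2, Algebra.trace_algebraMap, hfin]
    simp [nsmul_eq_mul]
  · intro i hi hne
    have hi' : i < p := Finset.mem_range.mp hi
    rw [htr (i + 1) (Nat.succ_pos i) (by omega), smul_zero]
  · intro h
    exact absurd (Finset.mem_range.mpr (by omega)) h

/-- The ideal `(θ - r) + v 𝓞_M` is proper when `c ≡ r^p mod v` and `p c ∉ v`. -/
theorem sup_ne_top (hfin : Module.finrank K M = p) (c : 𝓞 K) (θ : 𝓞 M)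
    (hθ : θ ^ p = algebraMap (𝓞 K) (𝓞 M) c)
    (htr : ∀ k, 0 < k → k < p → Algebra.trace K M ((θ : M) ^ k) = 0)
    (v : Ideal (𝓞 K)) (hv : (p : 𝓞 K) * c ∉ v) (r : 𝓞 K) (hr : c - r ^ p ∈ v) :
    Ideal.span {θ - algebraMap (𝓞 K) (𝓞 M) r} ⊔ v.map (algebraMap (𝓞 K) (𝓞 M)) ≠ ⊤ := by
  intro htop
  have h1 : (1 : 𝓞 M) ∈ Ideal.span {θ - algebraMap (𝓞 K) (𝓞 M) r}
      ⊔ v.map (algebraMap (𝓞 K) (𝓞 M)) := by
    rw [htop]; trivial
  obtain ⟨a, ha, y, hy, hay⟩ := Submodule.mem_sup.mp h1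
  obtain ⟨x, rfl⟩ := Ideal.mem_span_singleton'.mp ha
  have hcof : cof p θ r ∈ v.map (algebraMap (𝓞 K) (𝓞 M)) := by
    have h2 : cof p θ r = x * (algebraMap (𝓞 K) (𝓞 M) (c - r ^ p)) + cof p θ r * y := by
      have h3 := sub_mul_cof (p := p) θ r
      rw [hθ] at h3
      calc cof p θ r = cof p θ r * 1 := (mul_one _).symm
        _ = cof p θ r * (x * (θ - algebraMap (𝓞 K) (𝓞 M) r) + y) := by rw [hay]
        _ = x * ((θ - algebraMap (𝓞 K) (𝓞 M) r) * cof p θ r) + cof p θ r * y := by ring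
        _ = _ := by rw [h3, map_sub, map_pow]
    rw [h2]
    exact Ideal.add_mem _ (Ideal.mul_mem_left _ _ (Ideal.mem_map_of_mem _ hr))
      (Ideal.mul_mem_left _ _ hy)
  have h4 := intTrace_mem_of_mem_map v (Ideal.mul_mem_right θ _ hcof)
  rw [intTrace_cof_mul hfin c θ hθ htr r] at h4
  exact hv h4

/-- Norm bookkeeping: `p` distinct primes above `v` in an extension of degree `p` all have
the same absolute norm as `v`. -/
theorem absNorm_eq_of_card (hfin : Module.finrank K M = p) (v : Ideal (𝓞 K)) [hvm : v.IsMaximal]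
    (hv0 : v ≠ ⊥) (S : Finset (Ideal (𝓞 M))) (hcard : S.card = p)
    (hS : ∀ w ∈ S, w.IsPrime ∧ w.comap (algebraMap (𝓞 K) (𝓞 M)) = v) :
    ∀ w ∈ S, Ideal.absNorm w = Ideal.absNorm v := by
  classical
  have hinj : Function.Injective (algebraMap (𝓞 K) (𝓞 M)) :=
    FaithfulSMul.algebraMap_injective (𝓞 K) (𝓞 M)
  have hne : ∀ w ∈ S, w ≠ ⊥ := by
    intro w hw hbot
    have h1 := (hS w hw).2
    rw [hbot, Ideal.comap_bot_of_injective _ hinj] at h1
    exact hv0 h1.symm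
  have hle : ∀ w ∈ S, v.map (algebraMap (𝓞 K) (𝓞 M)) ≤ w := by
    intro w hw
    rw [Ideal.map_le_iff_le_comap, (hS w hw).2]
  have hdvd : ∏ w ∈ S, w ∣ v.map (algebraMap (𝓞 K) (𝓞 M)) :=
    Finset.prod_primes_dvd _ (fun w hw => Ideal.prime_of_isPrime (hne w hw) (hS w hw).1)
      (fun w hw => Ideal.dvd_iff_le.mpr (hle w hw))
  have hnorm := map_dvd Ideal.absNorm hdvd
  rw [map_prod, Ideal.absNorm_algebraMap, ← IsFractionRing.finrank_eq (𝓞 K) K (𝓞 M) M, hfin]
    at hnorm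
  -- each norm is a positive power of `absNorm v`
  have hpow : ∀ w ∈ S, ∃ f : ℕ, 1 ≤ f ∧ Ideal.absNorm w = Ideal.absNorm v ^ f := by
    intro w hw
    haveI := (hS w hw).1
    haveI : w.LiesOver v := ⟨(hS w hw).2.symm⟩
    refine ⟨v.inertiaDeg' w, Ideal.inertiaDeg'_pos v w, ?_⟩
    exact Ideal.absNorm_eq_pow_inertiaDeg'_of_liesOver w v hvm.isPrime hv0
  choose! f hf1 hf using hpow
  have hq2 : 2 ≤ Ideal.absNorm v := by
    have h1 : Ideal.absNorm v ≠ 1 := fun h => hvm.ne_top (Ideal.absNorm_eq_one_iff.mp h)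
    have h0 : Ideal.absNorm v ≠ 0 := by
      rw [Ne, Ideal.absNorm_eq_zero_iff]; exact hv0
    omega
  have hprod : ∏ w ∈ S, Ideal.absNorm w = Ideal.absNorm v ^ (∑ w ∈ S, f w) := by
    rw [← Finset.prod_pow_eq_pow_sum]
    exact Finset.prod_congr rfl fun w hw => hf w hw
  rw [hprod, Nat.pow_dvd_pow_iff_le_right hq2] at hnorm
  have hsum : ∑ w ∈ S, 1 = ∑ w ∈ S, f w := by
    apply le_antisymm (Finset.sum_le_sum fun w hw => hf1 w hw)
    rw [Finset.sum_const, smul_eq_mul, mul_one, hcard]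
    exact hnorm
  have hall := (Finset.sum_eq_sum_iff_of_le fun w hw => hf1 w hw).mp hsum
  intro w hw
  rw [hf w hw, ← hall w hw, pow_one]

/-- Main splitting lemma, abstract form: if `θ^p = c`, the traces of `θ^k` (`0<k<p`) vanish and
`c ≡ t^p mod v` with `v ∤ p`, then there are `p` primes of `𝓞 M` above `v` with the same norm. -/
theorem exists_primes_of_root (hfin : Module.finrank K M = p) (ζ : 𝓞 K) (hζ : IsPrimitiveRoot ζ p)
    (c : (𝓞 K)ˣ) (θ : 𝓞 M) (hθ : θ ^ p = algebraMap (𝓞 K) (𝓞 M) c)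
    (htr : ∀ k, 0 < k → k < p → Algebra.trace K M ((θ : M) ^ k) = 0)
    (v : HeightOneSpectrum (𝓞 K)) (hvp : (p : 𝓞 K) ∉ v.asIdeal) (t : 𝓞 K)
    (ht : (c : 𝓞 K) - t ^ p ∈ v.asIdeal) :
    ∃ S : Finset (HeightOneSpectrum (𝓞 M)), S.card = p ∧ ∀ w ∈ S,
      Ideal.absNorm w.asIdeal = Ideal.absNorm v.asIdeal ∧
      w.asIdeal.comap (algebraMap (𝓞 K) (𝓞 M)) = v.asIdeal := by
  classical
  have hvmax : v.asIdeal.IsMaximal := v.isMaximal
  have hvprime : v.asIdeal.IsPrime := v.isPrime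
  have hc_notin : (c : 𝓞 K) ∉ v.asIdeal := fun h =>
    hvprime.ne_top (Ideal.eq_top_of_isUnit_mem _ h c.isUnit)
  have hpc : (p : 𝓞 K) * c ∉ v.asIdeal := fun h => (hvprime.mem_or_mem h).elim hvp hc_notin
  have ht_notin : t ∉ v.asIdeal := by
    intro h
    apply hc_notin
    have e : (c : 𝓞 K) = (c - t ^ p) + t ^ p := by ring
    rw [e]
    exact Ideal.add_mem _ ht (Ideal.pow_mem_of_mem _ h p hp.out.pos)
  -- the `p` roots of `X^p - c` modulo `v`
  set r : ℕ → 𝓞 K := fun i => t * ζ ^ i with hrdef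
  have hr : ∀ i, (c : 𝓞 K) - r i ^ p ∈ v.asIdeal := by
    intro i
    have e : r i ^ p = t ^ p := by
      simp only [hrdef]
      rw [mul_pow, ← pow_mul, mul_comm i p, pow_mul, hζ.pow_eq_one, one_pow, mul_one]
    rw [e]; exact ht
  have hr_inj : ∀ i j, i < p → j < p → i < j → r j - r i ∉ v.asIdeal := by
    intro i j hi hj hij hmem
    have e : r j - r i = t * ζ ^ i * (ζ ^ (j - i) - 1) := by
      simp only [hrdef]
      have e' : ζ ^ j = ζ ^ i * ζ ^ (j - i) := by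
        rw [← pow_add]; congr 1; omega
      rw [e']; ring
    rw [e] at hmem
    have hζi : ζ ^ i ∉ v.asIdeal := fun h =>
      hvprime.ne_top (Ideal.eq_top_of_isUnit_mem _ h ((hζ.isUnit hp.out.ne_zero).pow i))
    have h1 : ζ ^ (j - i) - 1 ∈ v.asIdeal := by
      rcases hvprime.mem_or_mem hmem with h | h
      · rcases hvprime.mem_or_mem h with h | h
        · exact absurd h ht_notin
        · exact absurd h hζi
      · exact h
    have hcop : (j - i).Coprime p :=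
      Nat.Coprime.symm ((Nat.Prime.coprime_iff_not_dvd hp.out).mpr
        (Nat.not_dvd_of_pos_of_lt (by omega) (by omega)))
    have hprim : IsPrimitiveRoot (ζ ^ (j - i)) p := hζ.pow_of_coprime _ hcop
    have hsum := hprim.geom_sum_eq_zero hp.out.one_lt
    have hpmem : (p : 𝓞 K) ∈ v.asIdeal := by
      have e2 : (p : 𝓞 K) = - ∑ k ∈ Finset.range p, ((ζ ^ (j - i)) ^ k - 1) := by
        rw [Finset.sum_sub_distrib, hsum]; simp
      rw [e2]
      refine (Ideal.neg_mem_iff _).mpr (Ideal.sum_mem _ fun k _ => ?_)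
      obtain ⟨q, hq⟩ := sub_one_dvd_pow_sub_one (ζ ^ (j - i)) k
      rw [hq]; exact Ideal.mul_mem_right _ _ h1
    exact hvp hpmem
  -- a maximal ideal above each root
  have hex : ∀ i : ℕ, ∃ w : Ideal (𝓞 M), w.IsMaximal ∧
      Ideal.span {θ - algebraMap (𝓞 K) (𝓞 M) (r i)}
        ⊔ v.asIdeal.map (algebraMap (𝓞 K) (𝓞 M)) ≤ w :=
    fun i => Ideal.exists_le_maximal _ (sup_ne_top hfin c θ hθ htr v.asIdeal hpc (r i) (hr i))
  choose W hWmax hWle using hex
  have hcomap : ∀ i, (W i).comap (algebraMap (𝓞 K) (𝓞 M)) = v.asIdeal := by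
    intro i
    have h1 : v.asIdeal ≤ (W i).comap (algebraMap (𝓞 K) (𝓞 M)) := by
      rw [← Ideal.map_le_iff_le_comap]; exact le_trans le_sup_right (hWle i)
    have h2 : (W i).comap (algebraMap (𝓞 K) (𝓞 M)) ≠ ⊤ := Ideal.comap_ne_top _ (hWmax i).ne_top
    exact (hvmax.eq_of_le h2 h1).symm
  have hWlt : ∀ i j, i < p → j < p → i < j → W i ≠ W j := by
    intro i j hi hj hij heq
    apply hr_inj i j hi hj hij
    rw [← hcomap i, Ideal.mem_comap]
    have h1 : θ - algebraMap (𝓞 K) (𝓞 M) (r i) ∈ W i :=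
      hWle i (Ideal.mem_sup_left (Ideal.subset_span rfl))
    have h2 : θ - algebraMap (𝓞 K) (𝓞 M) (r j) ∈ W i :=
      heq ▸ hWle j (Ideal.mem_sup_left (Ideal.subset_span rfl))
    have e : algebraMap (𝓞 K) (𝓞 M) (r j - r i)
        = (θ - algebraMap (𝓞 K) (𝓞 M) (r i)) - (θ - algebraMap (𝓞 K) (𝓞 M) (r j)) := by
      rw [map_sub]; ring
    rw [e]; exact Ideal.sub_mem _ h1 h2
  have hWinj : Set.InjOn W (Finset.range p : Set ℕ) := by
    intro i hi j hj heq
    have hi' : i < p := Finset.mem_range.mp hi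
    have hj' : j < p := Finset.mem_range.mp hj
    by_contra hne
    rcases Nat.lt_or_gt_of_ne hne with h | h
    · exact hWlt i j hi' hj' h heq
    · exact hWlt j i hj' hi' h heq.symm
  have hinj : Function.Injective (algebraMap (𝓞 K) (𝓞 M)) :=
    FaithfulSMul.algebraMap_injective (𝓞 K) (𝓞 M)
  have hWne : ∀ i, W i ≠ ⊥ := by
    intro i hbot
    have h1 := hcomap i
    rw [hbot, Ideal.comap_bot_of_injective _ hinj] at h1
    exact v.ne_bot h1.symm
  -- norms
  have hnorm := absNorm_eq_of_card hfin v.asIdeal v.ne_bot ((Finset.range p).image W)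
    (by rw [Finset.card_image_of_injOn hWinj, Finset.card_range])
    (by
      intro w hw
      obtain ⟨i, -, rfl⟩ := Finset.mem_image.mp hw
      exact ⟨(hWmax i).isPrime, hcomap i⟩)
  set H : ℕ → HeightOneSpectrum (𝓞 M) := fun i => ⟨W i, (hWmax i).isPrime, hWne i⟩ with hH
  have hHinj : Set.InjOn H (Finset.range p : Set ℕ) := by
    intro i hi j hj heq
    exact hWinj hi hj (congrArg HeightOneSpectrum.asIdeal heq)
  refine ⟨(Finset.range p).image H, ?_, ?_⟩
  · rw [Finset.card_image_of_injOn hHinj, Finset.card_range]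
  · intro w hw
    obtain ⟨i, hi, rfl⟩ := Finset.mem_image.mp hw
    exact ⟨hnorm (W i) (Finset.mem_image_of_mem W hi), hcomap i⟩

end general

section adjoinRoot

variable {p : ℕ} [hp : Fact p.Prime] {K : Type} [Field K] [NumberField K]

theorem eval₂_kummer {S : Type*} [CommRing S] (φ : K →+* S) (x : S) (a : K) (n : ℕ) :
    (X ^ n - C a : K[X]).eval₂ φ x = x ^ n - φ a := by
  rw [eval₂_sub, eval₂_pow, eval₂_X, eval₂_C]

/-- In `M = K[X]/(X^p - a)` with `ζ_p ∈ K`, the traces of `θ^k` (`0 < k < p`) vanish. -/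
theorem trace_root_pow_eq_zero {ζ : K} (hζ : IsPrimitiveRoot ζ p) (a : K)
    [hirr : Fact (Irreducible (X ^ p - C a : K[X]))] (k : ℕ) (hk0 : 0 < k) (hkp : k < p) :
    Algebra.trace K (AdjoinRoot (X ^ p - C a : K[X]))
      ((AdjoinRoot.root (X ^ p - C a : K[X])) ^ k) = 0 := by
  set f : K[X] := X ^ p - C a with hf
  set θ := AdjoinRoot.root f with hθdef
  have hf0 : f ≠ 0 := hirr.out.ne_zero
  haveI : FiniteDimensional K (AdjoinRoot f) := (AdjoinRoot.powerBasis hf0).finite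
  have hθp : θ ^ p = algebraMap K (AdjoinRoot f) a := by
    have h : (AdjoinRoot.root f) ^ p - AdjoinRoot.of f a = 0 :=
      (eval₂_kummer (AdjoinRoot.of f) (AdjoinRoot.root f) a p).symm.trans (AdjoinRoot.eval₂_root f)
    exact sub_eq_zero.mp h
  have hroot : f.eval₂ (Algebra.ofId K (AdjoinRoot f)) (algebraMap K (AdjoinRoot f) ζ * θ) = 0 := by
    have h : f.eval₂ (Algebra.ofId K (AdjoinRoot f)) (algebraMap K (AdjoinRoot f) ζ * θ)
        = (algebraMap K (AdjoinRoot f) ζ * θ) ^ p - (Algebra.ofId K (AdjoinRoot f) : K →+* AdjoinRoot f) a :=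
      eval₂_kummer _ _ a p
    rw [h, mul_pow, ← map_pow, hζ.pow_eq_one, map_one, one_mul, hθp]
    simp
  let σ : AdjoinRoot f →ₐ[K] AdjoinRoot f :=
    AdjoinRoot.liftAlgHom f (Algebra.ofId K (AdjoinRoot f)) (algebraMap K (AdjoinRoot f) ζ * θ) hroot
  have hσθ : σ θ = algebraMap K (AdjoinRoot f) ζ * θ := AdjoinRoot.liftAlgHom_root _ _ _ _
  let e : AdjoinRoot f ≃ₐ[K] AdjoinRoot f := AlgEquiv.ofBijective σ (Algebra.IsAlgebraic.algHom_bijective σ)
  have h1 : Algebra.trace K (AdjoinRoot f) (e (θ ^ k)) = Algebra.trace K (AdjoinRoot f) (θ ^ k) :=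
    Algebra.trace_eq_of_algEquiv e _
  have h2 : e (θ ^ k) = (ζ ^ k) • θ ^ k := by
    show σ (θ ^ k) = _
    rw [map_pow, hσθ, mul_pow, Algebra.smul_def, map_pow]
  rw [h2, map_smul, smul_eq_mul] at h1
  have h3 : (ζ ^ k - 1) * Algebra.trace K (AdjoinRoot f) (θ ^ k) = 0 := by
    rw [sub_mul, h1, one_mul, sub_self]
  rcases mul_eq_zero.mp h3 with h | h
  · exact absurd (sub_eq_zero.mp h) (hζ.pow_ne_one_of_pos_of_lt hk0.ne' hkp)
  · exact h

/-- **Package KummerSplit.** For a unit `c` of `𝓞 K` (`K ∋ ζ_p`) which is not a `p`-th power in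
`K`, the field `M = K(c^(1/p))` is a number field of degree `p` over `K`, and every prime `v ∤ p`
of `K` modulo which `c` is a `p`-th power has `p` primes of `M` above it, all with the same
absolute norm as `v`. -/
theorem exists_kummer_field {ζ : K} (hζ : IsPrimitiveRoot ζ p) (c : (𝓞 K)ˣ)
    (hc : ¬ ∃ t : K, ((c : 𝓞 K) : K) = t ^ p) :
    ∃ (M : Type) (_ : Field M) (_ : NumberField M) (_ : Algebra K M),
      Module.finrank K M = p ∧
      ∀ v : HeightOneSpectrum (𝓞 K), ((p : ℕ) : 𝓞 K) ∉ v.asIdeal →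
        (∃ t : 𝓞 K, (c : 𝓞 K) - t ^ p ∈ v.asIdeal) →
        ∃ S : Finset (HeightOneSpectrum (𝓞 M)), S.card = p ∧ ∀ w ∈ S,
          Ideal.absNorm w.asIdeal = Ideal.absNorm v.asIdeal ∧
          w.asIdeal.comap (algebraMap (𝓞 K) (𝓞 M)) = v.asIdeal := by
  set a : K := ((c : 𝓞 K) : K) with ha
  have hirr : Irreducible (X ^ p - C a : K[X]) :=
    X_pow_sub_C_irreducible_of_prime hp.out (fun b hb => hc ⟨b, hb.symm⟩)
  haveI : Fact (Irreducible (X ^ p - C a : K[X])) := ⟨hirr⟩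
  set f : K[X] := X ^ p - C a with hf
  have hf0 : f ≠ 0 := hirr.ne_zero
  haveI : FiniteDimensional K (AdjoinRoot f) := (AdjoinRoot.powerBasis hf0).finite
  haveI : NumberField (AdjoinRoot f) := NumberField.of_module_finite K (AdjoinRoot f)
  have hfin : Module.finrank K (AdjoinRoot f) = p := by
    rw [(AdjoinRoot.powerBasis hf0).finrank, AdjoinRoot.powerBasis_dim, hf, natDegree_X_pow_sub_C]
  refine ⟨AdjoinRoot f, inferInstance, inferInstance, inferInstance, hfin, ?_⟩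
  intro v hvp ⟨t, ht⟩
  haveI : NeZero p := ⟨hp.out.ne_zero⟩
  have hθp : (AdjoinRoot.root f) ^ p = algebraMap K (AdjoinRoot f) a := by
    have h : (AdjoinRoot.root f) ^ p - AdjoinRoot.of f a = 0 :=
      (eval₂_kummer (AdjoinRoot.of f) (AdjoinRoot.root f) a p).symm.trans (AdjoinRoot.eval₂_root f)
    exact sub_eq_zero.mp h
  have hint : IsIntegral ℤ (AdjoinRoot.root f) := by
    refine IsIntegral.of_pow hp.out.pos ?_
    rw [hθp]
    exact (c : 𝓞 K).isIntegral_coe.algebraMap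
  let θ : 𝓞 (AdjoinRoot f) := ⟨AdjoinRoot.root f, hint⟩
  have hθ : θ ^ p = algebraMap (𝓞 K) (𝓞 (AdjoinRoot f)) c := by
    apply NumberField.RingOfIntegers.ext
    show (AdjoinRoot.root f) ^ p = _
    rw [hθp]
    rfl
  exact exists_primes_of_root hfin hζ.toInteger hζ.toInteger_isPrimitiveRoot c θ hθ
    (fun k hk0 hkp => trace_root_pow_eq_zero hζ a k hk0 hkp) v hvp t ht

end adjoinRoot

end Fermat.Agent.S14.KummerSplit
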