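import Fermat.Agent.S14.Defs
import Fermat.Agent.S14.ClassZetaFinal
import Fermat.Agent.S14.KummerSplit
import Fermat.Agent.S14.Analytic.Endgame

set_option autoImplicit false

open scoped NumberField nonZeroDivisors
open IsDedekindDomain Fermat.Agent.S14.Defs

namespace Fermat.Agent.S14.Analytic

/-- PACKAGE N (analytic density argument). In a number field `K ∋ ζ_p`, let `c` be a unit that is
not a `p`-th power and `φ` a nonzero homomorphism `Cl(K) → 𝔽_p`. It is impossible that every
degree-one prime `v ∤ p` with `φ([v]) ≠ 0` has `c` as a `p`-th power residue.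
(Primes with `φ ≠ 0` have Dirichlet density `≥ 1 - 1/p`; primes splitting in `K(c^(1/p))` have
density `≤ 1/p`.) -/
theorem analytic_core {p : ℕ} [Fact p.Prime] (hp : 3 ≤ p) {K : Type} [Field K] [NumberField K]
    {ζ : K} (hζ : IsPrimitiveRoot ζ p) (c : (𝓞 K)ˣ) (hc : ¬ ∃ t : K, ((c : 𝓞 K) : K) = t ^ p)
    (φ : Additive (ClassGroup (𝓞 K)) →+ ZMod p) (hφ : φ ≠ 0)
    (H : ∀ v : HeightOneSpectrum (𝓞 K), (Ideal.absNorm v.asIdeal).Prime →
      ((p : ℕ) : 𝓞 K) ∉ v.asIdeal → φ (Additive.ofMul (cls v)) ≠ 0 →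
        ∃ t : 𝓞 K, (c : 𝓞 K) - t ^ p ∈ v.asIdeal) : False := by
  -- the Kummer field `M = K(c^(1/p))` (block K, helper122)
  obtain ⟨M, _, _, _, -, hM⟩ := Fermat.Agent.S14.KummerSplit.exists_kummer_field hζ c hc
  have hp0 : ((p : ℕ) : 𝓞 K) ≠ 0 := by
    exact_mod_cast (Fact.out : p.Prime).ne_zero
  -- the finitely many primes above `p`
  have hfin : {v : HeightOneSpectrum (𝓞 K) | ((p : ℕ) : 𝓞 K) ∈ v.asIdeal}.Finite := by
    have h := _root_.Ideal.finite_factors (R := 𝓞 K) (I := Ideal.span {((p : ℕ) : 𝓞 K)})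
      (by simpa [Ideal.span_singleton_eq_bot] using hp0)
    refine h.subset ?_
    intro v hv
    simp only [Set.mem_setOf_eq] at hv ⊢
    rw [Ideal.dvd_iff_le, Ideal.span_singleton_le_iff_mem]
    exact hv
  -- the density endgame (block G), with the `O(1)` bound for partial zeta functions
  -- (block B, Lipschitz-counting track: helper134, helper55, helper242)
  refine Endgame.endgame (M := M) hp
    (Fermat.Agent.S14.ClassZetaFinal.classZeta_sub_bounded K) φ hφ hfin.toFinset ?_
  intro v hvT hv hne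
  have hvp : ((p : ℕ) : 𝓞 K) ∉ v.asIdeal := by
    simpa using hvT
  exact hM v hvp (H v hv hvp hne)

end Fermat.Agent.S14.Analytic
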