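import Mathlib
import Fermat.Agent.Lib.LogDeriv
import Fermat.Agent.Lib.KummerLocal

set_option autoImplicit false

/-!
# S14, package Loc: the second logarithmic coefficient modulo `(ζ - 1) ^ 3`

For a prime `5 ≤ p`, `K` the `p`-th cyclotomic field and `π = ζ - 1`, the ring hom
`ψ₀ : 𝓞 K → 𝔽_p[t]/(t^(p-2))`, `ζ ↦ 1 + t`, lets us read off the coefficients of a unit
modulo `π ^ 3`.  `ell2 u` is the coefficient of `t ^ 2` in `log (ψ₀ u)`; it is a group hom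
`(𝓞 K)ˣ →* Multiplicative (ZMod p)` which

* kills every unit `u` with `u * r ^ p ≡ s ^ p mod π ^ 3` (`π ∤ r`), see `ell2_eq_one_of_dvd`;
* takes the value `-1/8 ≠ 0` on the cyclotomic unit
  `c2 = ∏_{a = 1}^{p - 1} (1 + ζ ^ a) ^ (a ^ (p - 3))`, see `ell2_c2`.
-/

namespace Fermat.Agent.S14.Loc

open NumberField Polynomial

section Trunc

variable (p : ℕ) [hp : Fact p.Prime]

local notation "T" => Fermat.Agent.Lib.LogDeriv.Trunc p
local notation "tt" => Fermat.Agent.Lib.LogDeriv.t p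
local notation "cf" => Fermat.Agent.Lib.LogDeriv.coeff p

lemma cf_mk {j : ℕ} (hj : j < p - 2) (f : (ZMod p)[X]) :
    cf j (AdjoinRoot.mk (X ^ (p - 2) : (ZMod p)[X]) f) = f.coeff j := by
  have hmon : (X ^ (p - 2) : (ZMod p)[X]).Monic := monic_X_pow _
  rw [Fermat.Agent.Lib.LogDeriv.coeff, LinearMap.comp_apply, AdjoinRoot.modByMonicHom_mk]
  change (f %ₘ X ^ (p - 2)).coeff j = f.coeff j
  conv_rhs => rw [← modByMonic_add_div f (X ^ (p - 2))]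
  rw [coeff_add, coeff_X_pow_mul', if_neg (Nat.not_le.mpr hj), add_zero]

lemma tt_eq : tt = AdjoinRoot.mk (X ^ (p - 2) : (ZMod p)[X]) X := by
  rw [Fermat.Agent.Lib.LogDeriv.t, AdjoinRoot.mk_X]

lemma cf_zero_mul (hp5 : 5 ≤ p) (x y : T) : cf 0 (x * y) = cf 0 x * cf 0 y := by
  obtain ⟨f, rfl⟩ := AdjoinRoot.mk_surjective x
  obtain ⟨g, rfl⟩ := AdjoinRoot.mk_surjective y
  rw [← map_mul, cf_mk p (by omega), cf_mk p (by omega), cf_mk p (by omega), mul_coeff_zero]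

lemma cf_one_mul (hp5 : 5 ≤ p) (x y : T) :
    cf 1 (x * y) = cf 0 x * cf 1 y + cf 1 x * cf 0 y := by
  obtain ⟨f, rfl⟩ := AdjoinRoot.mk_surjective x
  obtain ⟨g, rfl⟩ := AdjoinRoot.mk_surjective y
  rw [← map_mul, cf_mk p (by omega), cf_mk p (by omega), cf_mk p (by omega), cf_mk p (by omega),
    cf_mk p (by omega), coeff_mul]
  simp [Finset.Nat.antidiagonal_succ]

lemma cf_two_mul (hp5 : 5 ≤ p) (x y : T) :
    cf 2 (x * y) = cf 0 x * cf 2 y + cf 1 x * cf 1 y + cf 2 x * cf 0 y := by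
  obtain ⟨f, rfl⟩ := AdjoinRoot.mk_surjective x
  obtain ⟨g, rfl⟩ := AdjoinRoot.mk_surjective y
  rw [← map_mul, cf_mk p (by omega), cf_mk p (by omega), cf_mk p (by omega), cf_mk p (by omega),
    cf_mk p (by omega), cf_mk p (by omega), cf_mk p (by omega), coeff_mul]
  simp [Finset.Nat.antidiagonal_succ]
  ring

lemma cf_one (_hp5 : 5 ≤ p) (j : ℕ) (hj : j < p - 2) : cf j (1 : T) = if j = 0 then 1 else 0 := by
  have h := Fermat.Agent.Lib.LogDeriv.coeff_t_pow p j 0 (by omega)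
  rwa [pow_zero] at h

lemma cf_intCast (hp5 : 5 ≤ p) (n : ℤ) (j : ℕ) (hj : j < p - 2) :
    cf j ((n : T)) = if j = 0 then (n : ZMod p) else 0 := by
  have h : ((n : T)) = AdjoinRoot.mk (X ^ (p - 2) : (ZMod p)[X]) ((n : (ZMod p)[X])) := by
    rw [map_intCast]
  rw [h, cf_mk p hj, ← Polynomial.C_eq_intCast, coeff_C]

lemma cf_tt_pow_mul {k j : ℕ} (hj : j < p - 2) (hjk : j < k) (x : T) :
    cf j (tt ^ k * x) = 0 := by
  obtain ⟨f, rfl⟩ := AdjoinRoot.mk_surjective x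
  rw [tt_eq, ← map_pow, ← map_mul, cf_mk p hj, coeff_X_pow_mul', if_neg (Nat.not_le.mpr hjk)]

lemma cf_pow_prime (_hp5 : 5 ≤ p) {j : ℕ} (hj : j < p - 2) (hj0 : 0 < j) (x : T) :
    cf j (x ^ p) = 0 := by
  obtain ⟨f, rfl⟩ := AdjoinRoot.mk_surjective x
  rw [← map_pow, ← ZMod.expand_card, cf_mk p hj, coeff_expand hp.out.pos, if_neg]
  intro hdvd
  have := Nat.le_of_dvd hj0 hdvd
  omega

lemma cf_zero_pow (hp5 : 5 ≤ p) (x : T) (n : ℕ) : cf 0 (x ^ n) = cf 0 x ^ n := by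
  induction n with
  | zero => rw [pow_zero, pow_zero, cf_one p hp5 0 (by omega), if_pos rfl]
  | succ n ih => rw [pow_succ, cf_zero_mul p hp5, ih, pow_succ]

lemma cf_one_add_tt_pow (hp5 : 5 ≤ p) (a j : ℕ) (hj : j < p - 2) :
    cf j ((1 + tt) ^ a) = (a.choose j : ZMod p) := by
  have h : (1 + tt) ^ a = AdjoinRoot.mk (X ^ (p - 2) : (ZMod p)[X]) ((1 + X) ^ a) := by
    rw [map_pow, map_add, map_one, tt_eq]
  rw [h, cf_mk p hj, coeff_one_add_X_pow]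

/-- The coefficient of `t ^ 2` in `log x`, for `x` with non-zero constant coefficient. -/
noncomputable def Lfun (x : T) : ZMod p :=
  cf 2 x / cf 0 x - (cf 1 x / cf 0 x) ^ 2 / 2

lemma two_ne_zero' (hp5 : 5 ≤ p) : (2 : ZMod p) ≠ 0 := by
  intro h
  have h2 : ((2 : ℕ) : ZMod p) = 0 := by exact_mod_cast h
  rw [ZMod.natCast_eq_zero_iff] at h2
  have := Nat.le_of_dvd (by norm_num) h2
  omega

lemma Lfun_mul (hp5 : 5 ≤ p) (x y : T) (hx : cf 0 x ≠ 0) (hy : cf 0 y ≠ 0) :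
    Lfun p (x * y) = Lfun p x + Lfun p y := by
  have h2 := two_ne_zero' p hp5
  rw [Lfun, Lfun, Lfun, cf_zero_mul p hp5, cf_one_mul p hp5, cf_two_mul p hp5]
  field_simp
  ring

lemma Lfun_eq_zero (x : T) (h1 : cf 1 x = 0) (h2 : cf 2 x = 0) : Lfun p x = 0 := by
  rw [Lfun, h1, h2]
  simp

end Trunc

section Main

variable {p : ℕ} [hp : Fact p.Prime] {K : Type*} [Field K] [NumberField K]
  [IsCyclotomicExtension {p} ℚ K] {ζ : K} (hζ : IsPrimitiveRoot ζ p)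

local notation "T" => Fermat.Agent.Lib.LogDeriv.Trunc p
local notation "tt" => Fermat.Agent.Lib.LogDeriv.t p
local notation "cf" => Fermat.Agent.Lib.LogDeriv.coeff p

lemma tt_pow_pred : tt ^ (p - 1) = 0 := by
  have hp2 : 2 ≤ p := hp.out.two_le
  have : p - 1 = (p - 2) + 1 := by omega
  rw [this, pow_succ, Fermat.Agent.Lib.LogDeriv.t_pow, zero_mul]

/-- The ring hom `𝓞 K → 𝔽_p[t]/(t^(p-2))` with `ζ ↦ 1 + t`. -/
noncomputable def psi0 : 𝓞 K →+* T :=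
  (Fermat.Agent.Lib.LogDeriv.exists_ringHom hζ tt tt_pow_pred).choose

lemma psi0_zeta : psi0 hζ hζ.toInteger = 1 + tt :=
  (Fermat.Agent.Lib.LogDeriv.exists_ringHom hζ tt tt_pow_pred).choose_spec

lemma psi0_pi : psi0 hζ (hζ.toInteger - 1) = tt := by
  rw [map_sub, psi0_zeta, map_one, add_sub_cancel_left]

/-- The constant coefficient of `ψ₀ x` is the residue of `x` modulo `π = ζ - 1`. -/
lemma cf_zero_psi0_of_dvd (hp5 : 5 ≤ p) (x : 𝓞 K) (n : ℤ)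
    (h : hζ.toInteger - 1 ∣ x - (n : 𝓞 K)) : cf 0 (psi0 hζ x) = (n : ZMod p) := by
  obtain ⟨w, hw⟩ := h
  have hx : x = n + (hζ.toInteger - 1) ^ 1 * w := by rw [pow_one, ← hw]; ring
  rw [hx, map_add, map_mul, map_pow, psi0_pi, map_intCast, map_add,
    cf_tt_pow_mul p (by omega) (by omega), add_zero, cf_intCast p hp5 n 0 (by omega), if_pos rfl]

lemma cf_zero_psi0_ne_zero (hp5 : 5 ≤ p) (x : 𝓞 K) (hx : ¬ hζ.toInteger - 1 ∣ x) :
    cf 0 (psi0 hζ x) ≠ 0 := by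
  obtain ⟨n, hn⟩ := Fermat.Agent.Lib.KummerLocal.exists_int_sub_dvd hζ x
  rw [cf_zero_psi0_of_dvd hζ hp5 x n hn]
  intro h0
  apply hx
  have hpn : (p : ℤ) ∣ n := (ZMod.intCast_zmod_eq_zero_iff_dvd n p).mp h0
  have h1 : hζ.toInteger - 1 ∣ ((n : ℤ) : 𝓞 K) := by
    obtain ⟨m, rfl⟩ := hpn
    have h2 : hζ.toInteger - 1 ∣ (p : 𝓞 K) := hζ.toInteger_sub_one_dvd_prime'
    push_cast
    exact Dvd.dvd.mul_right h2 _
  have h3 := dvd_add hn h1
  rwa [sub_add_cancel] at h3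

lemma cf_zero_psi0_unit (hp5 : 5 ≤ p) (u : (𝓞 K)ˣ) : cf 0 (psi0 hζ (u : 𝓞 K)) ≠ 0 := by
  intro h
  have h1 : cf 0 (psi0 hζ ((u : 𝓞 K) * ((u⁻¹ : (𝓞 K)ˣ) : 𝓞 K))) = 1 := by
    rw [Units.mul_inv, map_one, cf_one p hp5 0 (by omega), if_pos rfl]
  rw [map_mul, cf_zero_mul p hp5, h, zero_mul] at h1
  exact zero_ne_one h1

/-- The second logarithmic coefficient of a unit modulo `π ^ 3`. -/
noncomputable def ell2 (hp5 : 5 ≤ p) : (𝓞 K)ˣ →* Multiplicative (ZMod p) where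
  toFun u := Multiplicative.ofAdd (Lfun p (psi0 hζ (u : 𝓞 K)))
  map_one' := by
    have h1 : cf 1 (psi0 hζ ((1 : (𝓞 K)ˣ) : 𝓞 K)) = 0 := by
      rw [Units.val_one, map_one, cf_one p hp5 1 (by omega), if_neg one_ne_zero]
    have h2 : cf 2 (psi0 hζ ((1 : (𝓞 K)ˣ) : 𝓞 K)) = 0 := by
      rw [Units.val_one, map_one, cf_one p hp5 2 (by omega), if_neg two_ne_zero]
    rw [Lfun_eq_zero p _ h1 h2]
    rfl
  map_mul' u v := by
    rw [← ofAdd_add, Units.val_mul, map_mul,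
      Lfun_mul p hp5 _ _ (cf_zero_psi0_unit hζ hp5 u) (cf_zero_psi0_unit hζ hp5 v)]

lemma toAdd_ell2 (hp5 : 5 ≤ p) (u : (𝓞 K)ˣ) :
    Multiplicative.toAdd (ell2 hζ hp5 u) = Lfun p (psi0 hζ (u : 𝓞 K)) := rfl

/-- **Key local lemma.** A unit `u` with `u * r ^ p ≡ s ^ p` modulo `π ^ 3`, `π ∤ r`, has
`ell2 u = 1`.  In particular this holds when `u` is congruent to a rational integer modulo
`π ^ 3` (take `r = 1`, `s ^ p ≡ n`), or when `u` is locally a `p`-th power at `π`. -/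
theorem ell2_eq_one_of_dvd (hp5 : 5 ≤ p) (u : (𝓞 K)ˣ) (r s : 𝓞 K)
    (hr : ¬ hζ.toInteger - 1 ∣ r)
    (h : (hζ.toInteger - 1) ^ 3 ∣ (u : 𝓞 K) * r ^ p - s ^ p) : ell2 hζ hp5 u = 1 := by
  obtain ⟨w, hw⟩ := h
  have hE : psi0 hζ (u : 𝓞 K) * psi0 hζ r ^ p = psi0 hζ s ^ p + tt ^ 3 * psi0 hζ w := by
    have : (u : 𝓞 K) * r ^ p = s ^ p + (hζ.toInteger - 1) ^ 3 * w := by rw [← hw]; ring
    have h2 := congrArg (psi0 hζ) this
    rwa [map_mul, map_pow, map_add, map_pow, map_mul, map_pow, psi0_pi] at h2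
  have hr0 : cf 0 (psi0 hζ r ^ p) ≠ 0 := by
    rw [cf_zero_pow p hp5]
    exact pow_ne_zero _ (cf_zero_psi0_ne_zero hζ hp5 r hr)
  have y1 : cf 1 (psi0 hζ r ^ p) = 0 := cf_pow_prime p hp5 (by omega) (by omega) _
  have y2 : cf 2 (psi0 hζ r ^ p) = 0 := cf_pow_prime p hp5 (by omega) (by omega) _
  have z1 : cf 1 (psi0 hζ s ^ p + tt ^ 3 * psi0 hζ w) = 0 := by
    rw [map_add, cf_pow_prime p hp5 (by omega) (by omega), cf_tt_pow_mul p (by omega) (by omega),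
      add_zero]
  have z2 : cf 2 (psi0 hζ s ^ p + tt ^ 3 * psi0 hζ w) = 0 := by
    rw [map_add, cf_pow_prime p hp5 (by omega) (by omega), cf_tt_pow_mul p (by omega) (by omega),
      add_zero]
  have e1 := congrArg (cf 1) hE
  have e2 := congrArg (cf 2) hE
  rw [cf_one_mul p hp5, y1, z1, mul_zero, zero_add] at e1
  have h1 : cf 1 (psi0 hζ (u : 𝓞 K)) = 0 := by
    rcases mul_eq_zero.mp e1 with h | h
    · exact h
    · exact absurd h hr0
  rw [cf_two_mul p hp5, y1, y2, z2, mul_zero, mul_zero, zero_add, zero_add] at e2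
  have h2 : cf 2 (psi0 hζ (u : 𝓞 K)) = 0 := by
    rcases mul_eq_zero.mp e2 with h | h
    · exact h
    · exact absurd h hr0
  change Multiplicative.ofAdd (Lfun p (psi0 hζ (u : 𝓞 K))) = 1
  rw [Lfun_eq_zero p _ h1 h2]
  rfl

/-- Special case: a unit congruent to a rational integer modulo `π ^ 3`. -/
theorem ell2_eq_one_of_int (hp5 : 5 ≤ p) (u : (𝓞 K)ˣ) (n : ℤ)
    (h : (hζ.toInteger - 1) ^ 3 ∣ (u : 𝓞 K) - (n : 𝓞 K)) : ell2 hζ hp5 u = 1 := by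
  obtain ⟨w, hw⟩ := h
  have hE : psi0 hζ (u : 𝓞 K) = (n : T) + tt ^ 3 * psi0 hζ w := by
    have : (u : 𝓞 K) = n + (hζ.toInteger - 1) ^ 3 * w := by rw [← hw]; ring
    have h2 := congrArg (psi0 hζ) this
    rwa [map_add, map_intCast, map_mul, map_pow, psi0_pi] at h2
  have h1 : cf 1 (psi0 hζ (u : 𝓞 K)) = 0 := by
    rw [hE, map_add, cf_intCast p hp5 n 1 (by omega), if_neg one_ne_zero,
      cf_tt_pow_mul p (by omega) (by omega), add_zero]
  have h2 : cf 2 (psi0 hζ (u : 𝓞 K)) = 0 := by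
    rw [hE, map_add, cf_intCast p hp5 n 2 (by omega), if_neg two_ne_zero,
      cf_tt_pow_mul p (by omega) (by omega), add_zero]
  change Multiplicative.ofAdd (Lfun p (psi0 hζ (u : 𝓞 K))) = 1
  rw [Lfun_eq_zero p _ h1 h2]
  rfl

/-- `ell2` kills `p`-th powers. -/
theorem ell2_pow_prime (hp5 : 5 ≤ p) (v : (𝓞 K)ˣ) : ell2 hζ hp5 (v ^ p) = 1 := by
  rw [map_pow]
  apply Multiplicative.toAdd.injective
  rw [toAdd_pow, toAdd_one, nsmul_eq_mul, ZMod.natCast_self, zero_mul]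

/-! ### The cyclotomic unit `c2` -/

lemma isUnit_one_add_zeta_pow (hp5 : 5 ≤ p) {a : ℕ} (ha : ¬ p ∣ a) :
    IsUnit (1 + hζ.toInteger ^ a) := by
  have hcop : a.Coprime p := (Nat.coprime_comm.mp ((Nat.Prime.coprime_iff_not_dvd hp.out).mpr ha))
  have hζa : IsPrimitiveRoot (ζ ^ a) p := hζ.pow_of_coprime a hcop
  have h2 : ¬ p ∣ 2 := by
    intro h
    have := Nat.le_of_dvd (by norm_num) h
    omega
  have h := Fermat.Agent.Lib.KummerLocal.isUnit_geom_sum hζa h2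
  have he : hζa.toInteger = hζ.toInteger ^ a := by
    apply RingOfIntegers.ext
    simp [IsPrimitiveRoot.coe_toInteger]
  rw [Finset.sum_range_succ, Finset.sum_range_one, pow_zero, pow_one, he] at h
  exact h

/-- The unit `1 + ζ ^ a` (and `1` when `p ∣ a`). -/
noncomputable def onePlus (hp5 : 5 ≤ p) (a : ℕ) : (𝓞 K)ˣ :=
  if ha : p ∣ a then 1 else (isUnit_one_add_zeta_pow hζ hp5 ha).unit

lemma coe_onePlus (hp5 : 5 ≤ p) {a : ℕ} (ha : ¬ p ∣ a) :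
    ((onePlus hζ hp5 a : (𝓞 K)ˣ) : 𝓞 K) = 1 + hζ.toInteger ^ a := by
  rw [onePlus, dif_neg ha]
  rfl

/-- The cyclotomic unit `c2 = ∏_{a = 1}^{p - 1} (1 + ζ ^ a) ^ (a ^ (p - 3))`, which spans the
`ω²`-eigenspace of the units modulo `p`-th powers. -/
noncomputable def c2 (hp5 : 5 ≤ p) : (𝓞 K)ˣ :=
  ∏ a ∈ Finset.Ico 1 p, onePlus hζ hp5 a ^ (a ^ (p - 3))

lemma not_dvd_of_mem_Ico {a : ℕ} (ha : a ∈ Finset.Ico 1 p) : ¬ p ∣ a := by
  rw [Finset.mem_Ico] at ha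
  exact Nat.not_dvd_of_pos_of_lt (by omega) ha.2

lemma coe_c2 (hp5 : 5 ≤ p) :
    ((c2 hζ hp5 : (𝓞 K)ˣ) : 𝓞 K) =
      ∏ a ∈ Finset.Ico 1 p, (1 + hζ.toInteger ^ a) ^ (a ^ (p - 3)) := by
  rw [c2, Units.coe_prod]
  refine Finset.prod_congr rfl fun a ha => ?_
  rw [Units.val_pow_eq_pow_val, coe_onePlus hζ hp5 (not_dvd_of_mem_Ico ha)]

lemma Lfun_psi0_one_add_zeta_pow (hp5 : 5 ≤ p) (a : ℕ) :
    Lfun p (psi0 hζ (1 + hζ.toInteger ^ a)) = (a : ZMod p) ^ 2 / 8 - (a : ZMod p) / 4 := by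
  have h2 := two_ne_zero' p hp5
  have : NeZero (2 : ZMod p) := ⟨h2⟩
  have hE : psi0 hζ (1 + hζ.toInteger ^ a) = 1 + (1 + tt) ^ a := by
    rw [map_add, map_one, map_pow, psi0_zeta]
  have c0 : cf 0 (psi0 hζ (1 + hζ.toInteger ^ a)) = 2 := by
    rw [hE, map_add, cf_one p hp5 0 (by omega), if_pos rfl, cf_one_add_tt_pow p hp5 a 0 (by omega),
      Nat.choose_zero_right, Nat.cast_one]
    norm_num
  have c1 : cf 1 (psi0 hζ (1 + hζ.toInteger ^ a)) = (a : ZMod p) := by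
    rw [hE, map_add, cf_one p hp5 1 (by omega), if_neg one_ne_zero,
      cf_one_add_tt_pow p hp5 a 1 (by omega), Nat.choose_one_right, zero_add]
  have c2' : cf 2 (psi0 hζ (1 + hζ.toInteger ^ a)) = (a : ZMod p) * ((a : ZMod p) - 1) / 2 := by
    rw [hE, map_add, cf_one p hp5 2 (by omega), if_neg two_ne_zero,
      cf_one_add_tt_pow p hp5 a 2 (by omega), zero_add, Nat.cast_choose_two]
  have h8 : (8 : ZMod p) = 2 * 2 * 2 := by norm_num
  have h4 : (4 : ZMod p) = 2 * 2 := by norm_num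
  rw [Lfun, c0, c1, c2', h8, h4]
  field_simp
  ring

lemma toAdd_ell2_onePlus (hp5 : 5 ≤ p) {a : ℕ} (ha : ¬ p ∣ a) :
    Multiplicative.toAdd (ell2 hζ hp5 (onePlus hζ hp5 a)) =
      (a : ZMod p) ^ 2 / 8 - (a : ZMod p) / 4 := by
  rw [toAdd_ell2, coe_onePlus hζ hp5 ha, Lfun_psi0_one_add_zeta_pow hζ hp5]

lemma sum_Ico_pow_pred :
    ∑ a ∈ Finset.Ico 1 p, ((a : ZMod p)) ^ (p - 1) = -1 := by
  have h1 : ∀ a ∈ Finset.Ico 1 p, ((a : ZMod p)) ^ (p - 1) = 1 := by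
    intro a ha
    apply ZMod.pow_card_sub_one_eq_one
    rw [Ne, ZMod.natCast_eq_zero_iff]
    exact not_dvd_of_mem_Ico ha
  rw [Finset.sum_congr rfl h1, Finset.sum_const, Nat.card_Ico, nsmul_eq_mul, mul_one]
  have hp1 : 1 ≤ p := hp.out.one_lt.le
  rw [Nat.cast_sub hp1, ZMod.natCast_self]
  simp

lemma sum_Ico_pow (hp5 : 5 ≤ p) :
    ∑ a ∈ Finset.Ico 1 p, ((a : ZMod p)) ^ (p - 2) = 0 := by
  have hsub : Finset.Ico 1 p ⊆ Finset.range p := by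
    intro a ha
    rw [Finset.mem_Ico] at ha
    exact Finset.mem_range.mpr ha.2
  have h0 : ∀ a ∈ Finset.range p, a ∉ Finset.Ico 1 p → ((a : ZMod p)) ^ (p - 2) = 0 := by
    intro a ha ha'
    rw [Finset.mem_range] at ha
    rw [Finset.mem_Ico] at ha'
    have : a = 0 := by omega
    subst this
    rw [Nat.cast_zero, zero_pow (by omega)]
  rw [Finset.sum_subset hsub h0]
  have hbij : ∑ a ∈ Finset.range p, ((a : ZMod p)) ^ (p - 2) = ∑ x : ZMod p, x ^ (p - 2) := by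
    have : NeZero p := ⟨hp.out.ne_zero⟩
    refine Finset.sum_nbij' (fun a => (a : ZMod p)) (fun x => x.val) ?_ ?_ ?_ ?_ ?_
    · intro a _; exact Finset.mem_univ _
    · intro x _; exact Finset.mem_range.mpr (ZMod.val_lt x)
    · intro a ha; exact ZMod.val_natCast_of_lt (Finset.mem_range.mp ha)
    · intro x _; exact ZMod.natCast_zmod_val x
    · intro a _; rfl
  rw [hbij]
  apply FiniteField.sum_pow_lt_card_sub_one
  rw [ZMod.card]
  omega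

/-- `ell2 c2 = -1/8`. -/
theorem toAdd_ell2_c2 (hp5 : 5 ≤ p) :
    Multiplicative.toAdd (ell2 hζ hp5 (c2 hζ hp5)) = -(1 / 8 : ZMod p) := by
  rw [c2, map_prod, toAdd_prod]
  have hterm : ∀ a ∈ Finset.Ico 1 p,
      Multiplicative.toAdd (ell2 hζ hp5 (onePlus hζ hp5 a ^ (a ^ (p - 3)))) =
        ((a : ZMod p)) ^ (p - 1) / 8 - ((a : ZMod p)) ^ (p - 2) / 4 := by
    intro a ha
    rw [map_pow, toAdd_pow, toAdd_ell2_onePlus hζ hp5 (not_dvd_of_mem_Ico ha), nsmul_eq_mul,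
      Nat.cast_pow]
    have e1 : p - 1 = (p - 3) + 2 := by omega
    have e2 : p - 2 = (p - 3) + 1 := by omega
    rw [e1, e2, pow_add, pow_add, pow_one]
    ring
  rw [Finset.sum_congr rfl hterm, Finset.sum_sub_distrib, ← Finset.sum_div, ← Finset.sum_div,
    sum_Ico_pow_pred, sum_Ico_pow hp5]
  ring

lemma eight_ne_zero' (hp5 : 5 ≤ p) : (8 : ZMod p) ≠ 0 := by
  have h2 := two_ne_zero' p hp5
  have h8 : (8 : ZMod p) = 2 * 2 * 2 := by norm_num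
  rw [h8]
  exact mul_ne_zero (mul_ne_zero h2 h2) h2

theorem ell2_c2_ne_one (hp5 : 5 ≤ p) : ell2 hζ hp5 (c2 hζ hp5) ≠ 1 := by
  intro h
  have h1 := toAdd_ell2_c2 hζ hp5
  rw [h, toAdd_one] at h1
  have h8 := eight_ne_zero' (p := p) hp5
  have : (1 / 8 : ZMod p) = 0 := neg_eq_zero.mp h1.symm
  exact one_ne_zero ((div_eq_zero_iff.mp this).resolve_right h8)

/-- `c2` is not a `p`-th power of a unit. -/
theorem c2_ne_pow (hp5 : 5 ≤ p) (v : (𝓞 K)ˣ) : c2 hζ hp5 ≠ v ^ p := by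
  intro h
  apply ell2_c2_ne_one hζ hp5
  rw [h, ell2_pow_prime]

/-- **Local obstruction.** If `c2 ^ j * v ^ p` is, modulo `π ^ 3`, a rational integer times a
`p`-th power (in the form `u * r ^ p ≡ s ^ p`, `π ∤ r`), then `p ∣ j`. -/
theorem dvd_of_c2_zpow_mul_pow (hp5 : 5 ≤ p) (j : ℤ) (v : (𝓞 K)ˣ) (r s : 𝓞 K)
    (hr : ¬ hζ.toInteger - 1 ∣ r)
    (h : (hζ.toInteger - 1) ^ 3 ∣
      (((c2 hζ hp5) ^ j * v ^ p : (𝓞 K)ˣ) : 𝓞 K) * r ^ p - s ^ p) : (p : ℤ) ∣ j := by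
  have h1 := ell2_eq_one_of_dvd hζ hp5 _ r s hr h
  rw [map_mul, ell2_pow_prime, mul_one, map_zpow] at h1
  have h2 := congrArg Multiplicative.toAdd h1
  rw [toAdd_zpow, toAdd_one, toAdd_ell2_c2, zsmul_eq_mul] at h2
  have h8 := eight_ne_zero' (p := p) hp5
  have h3 : (j : ZMod p) = 0 := by
    rcases mul_eq_zero.mp h2 with h | h
    · exact h
    · exfalso
      rw [neg_eq_zero] at h
      exact one_ne_zero ((div_eq_zero_iff.mp h).resolve_right h8)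
  exact (ZMod.intCast_zmod_eq_zero_iff_dvd j p).mp h3

end Main

end Fermat.Agent.S14.Loc
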