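import Fermat.Agent.S14.Defs
import Fermat.Agent.S14.C2.Basic
import Fermat.Agent.S14.C2.Local

set_option autoImplicit false

open scoped NumberField nonZeroDivisors
open IsDedekindDomain Fermat.Agent.S14.Defs

namespace Fermat.Agent.S14.C2

set_option linter.unusedSectionVars false

variable {p : ℕ} [Fact p.Prime] {K : Type} [Field K] [NumberField K]
  [IsCyclotomicExtension {p} ℚ K] {ζ : K}

/-- `c2 p ζ` is a unit of `𝓞 K`. -/
theorem c2_isUnit (hp : 3 ≤ p) (hζ : IsPrimitiveRoot ζ p) :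
    ∃ u : (𝓞 K)ˣ, ((u : 𝓞 K) : K) = c2 p ζ :=
  Basic.c2_isUnit hp hζ

/-- `c2 p ζ` is an `ω²`-eigenvector modulo `p`-th powers. -/
theorem c2_eigen (hp5 : 5 ≤ p) (hζ : IsPrimitiveRoot ζ p) : EigenElt p ζ (c2 p ζ) :=
  Basic.c2_eigen (by omega) hζ

/-- `c2 p ζ` is not, up to `p`-th powers, congruent to `1` modulo `(1-ζ)^3`
(`c2 ≡ 2^m (1 - π²/8) mod π³`). -/
theorem c2_not_localPow (hp5 : 5 ≤ p) (hζ : IsPrimitiveRoot ζ p) : ¬ LocalPow p (c2 p ζ) :=
  Local.c2_not_localPow hp5 hζ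

end Fermat.Agent.S14.C2
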