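import Fermat.Agent.S14.Defs
import Fermat.Agent.S14.ClassAlg.IdealRoot
import Fermat.Agent.S14.ClassAlg.GalClass

set_option autoImplicit false

open scoped NumberField nonZeroDivisors
open IsDedekindDomain Fermat.Agent.S14.Defs

namespace Fermat.Agent.S14.ClassAlg

variable {p : ℕ} [Fact p.Prime] {K : Type} [Field K] [NumberField K]
  [IsCyclotomicExtension {p} ℚ K] {ζ : K}

/-- PACKAGE A (class-group algebra). If all valuations of the eigen-element `α` are divisible
by `p`, then `(α) = I^p`; either `I` is principal (so `α` is a unit times a `p`-th power) or the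
class of `I` yields a nonzero `ω²`-eigenfunctional on the class group. -/
theorem class_dichotomy (hp : 3 ≤ p) (hζ : IsPrimitiveRoot ζ p) (α : K) (hα : α ≠ 0)
    (h2 : EigenElt p ζ α) (h3 : ValDivisible p α) :
    (∃ (η : (𝓞 K)ˣ) (a : K), a ≠ 0 ∧ α = ((η : 𝓞 K) : K) * a ^ p) ∨
    (∃ φ : Additive (ClassGroup (𝓞 K)) →+ ZMod p, φ ≠ 0 ∧ IsEigen p ζ φ) := by
  -- A1: the ideal `p`-th root of `(α)`
  obtain ⟨I, hI⟩ := IdealRoot.exists_root (p := p) (by omega) α hα h3
  by_cases h1 : ClassGroup.mk K I = 1
  · -- A2: principal case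
    exact Or.inl (IdealRoot.exists_unit_mul_pow α hα I hI h1)
  · -- A3 + A4: the class of `I` is a nonzero `ω²`-eigenvector killed by `p`
    exact Or.inr (GalClass.exists_eigenfunctional hζ (ClassGroup.mk K I) h1
      (IdealRoot.mk_pow_eq_one α hα I hI)
      (fun σ n hn => GalClass.class_eigen α hα h2 I hI σ n hn))

end Fermat.Agent.S14.ClassAlg
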