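import Fermat.Agent.S14.Defs

set_option autoImplicit false

open scoped NumberField nonZeroDivisors
open IsDedekindDomain Fermat.Agent.S14.Defs

namespace Fermat.Agent.S14.PThree

/-- Divisibility of the multiplicities of an integral element all of whose valuations are
divisible by `p`. -/
theorem dvd_count_of_valDivisible {K : Type} [Field K] [NumberField K] {p : ℕ}
    (z : 𝓞 K) (hz : z ≠ 0) (h : ValDivisible p (z : K)) (v : HeightOneSpectrum (𝓞 K)) :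
    p ∣ Multiset.count v.asIdeal
      (UniqueFactorizationMonoid.normalizedFactors (Ideal.span {z} : Ideal (𝓞 K))) := by
  obtain ⟨x, hx0, hx⟩ := h v
  have hsz : (Ideal.span {z} : Ideal (𝓞 K)) ≠ 0 := by
    rw [Ne, Ideal.zero_eq_bot, Ideal.span_singleton_eq_bot]; exact hz
  have hvx : v.valuation K x ≠ 0 := (Valuation.ne_zero_iff _).mpr hx0
  rw [map_mul, map_pow, HeightOneSpectrum.valuation_of_algebraMap, v.intValuation_if_neg hz,
    Ideal.count_associates_factors_eq hsz v.isPrime v.ne_bot, ← WithZero.exp_log hvx,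
    ← WithZero.exp_nsmul, ← WithZero.exp_add, ← WithZero.exp_zero, WithZero.exp_inj] at hx
  have h2 : (Multiset.count v.asIdeal
      (UniqueFactorizationMonoid.normalizedFactors (Ideal.span {z} : Ideal (𝓞 K))) : ℤ)
      = (p : ℤ) * WithZero.log (v.valuation K x) := by
    rw [nsmul_eq_mul] at hx; linarith
  exact Int.natCast_dvd_natCast.mp ⟨_, h2⟩

/-- `ValDivisible` is stable under multiplication by `p`-th powers. -/
theorem valDivisible_mul_pow {K : Type} [Field K] [NumberField K] {p : ℕ} (α y : K) (hy : y ≠ 0)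
    (h : ValDivisible p α) : ValDivisible p (α * y ^ p) := by
  intro v
  obtain ⟨x, hx0, hx⟩ := h v
  refine ⟨x / y, div_ne_zero hx0 hy, ?_⟩
  have : α * y ^ p * (x / y) ^ p = α * x ^ p := by
    rw [div_pow, mul_assoc, mul_div_cancel₀ _ (pow_ne_zero p hy)]
  rw [this]; exact hx

/-- In a number field whose ring of integers is a PID, an element all of whose valuations are
divisible by `p` is a unit times a `p`-th power. -/
theorem exists_unit_mul_pow {K : Type} [Field K] [NumberField K] [IsPrincipalIdealRing (𝓞 K)]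
    {p : ℕ} (hp : p ≠ 0) (α : K) (hα : α ≠ 0) (h : ValDivisible p α) :
    ∃ (η : (𝓞 K)ˣ) (a : K), a ≠ 0 ∧ α = ((η : 𝓞 K) : K) * a ^ p := by
  obtain ⟨x, y, hy, hxy⟩ := IsFractionRing.div_surjective (A := 𝓞 K) α
  have hy0 : (y : 𝓞 K) ≠ 0 := nonZeroDivisors.ne_zero hy
  have hyK : ((y : 𝓞 K) : K) ≠ 0 := by
    simpa using hy0
  have hx0 : x ≠ 0 := by
    rintro rfl
    apply hα
    rw [← hxy]; simp
  -- z = x * y^(p-1)
  set z : 𝓞 K := x * y ^ (p - 1) with hzdef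
  have hz0 : z ≠ 0 := mul_ne_zero hx0 (pow_ne_zero _ hy0)
  have hzα : ((z : 𝓞 K) : K) = α * (y : K) ^ p := by
    rw [hzdef, ← hxy]
    push_cast
    have : (y : K) ^ p = (y : K) ^ (p - 1) * (y : K) := by
      rw [← pow_succ, Nat.sub_add_cancel (Nat.pos_of_ne_zero hp)]
    rw [this]
    field_simp
  have hzval : ValDivisible p ((z : 𝓞 K) : K) := by
    rw [hzα]; exact valDivisible_mul_pow α _ hyK h
  have hsz : (Ideal.span {z} : Ideal (𝓞 K)) ≠ ⊥ := by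
    rw [Ne, Ideal.span_singleton_eq_bot]; exact hz0
  -- all multiplicities divisible by p
  have hcount : ∀ P : Ideal (𝓞 K),
      P ∈ UniqueFactorizationMonoid.normalizedFactors (Ideal.span {z} : Ideal (𝓞 K)) →
      p ∣ Multiset.count P
        (UniqueFactorizationMonoid.normalizedFactors (Ideal.span {z} : Ideal (𝓞 K))) := by
    intro P hP
    have hPprime : Prime P := UniqueFactorizationMonoid.prime_of_normalized_factor P hP
    have hPne : P ≠ ⊥ := hPprime.ne_zero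
    have hPip : P.IsPrime := Ideal.isPrime_of_prime hPprime
    exact dvd_count_of_valDivisible z hz0 hzval ⟨P, hPip, hPne⟩
  obtain ⟨u, hu⟩ := Multiset.exists_smul_of_dvd_count _ hcount
  have hJ : (u.prod) ^ p = Ideal.span {z} := by
    rw [← Multiset.prod_nsmul, ← hu]
    exact Ideal.prod_normalizedFactors_eq_self hsz
  obtain ⟨a, ha⟩ := IsPrincipalIdealRing.principal (u.prod)
  rw [ha, Ideal.submodule_span_eq, Ideal.span_singleton_pow,
    Ideal.span_singleton_eq_span_singleton] at hJ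
  obtain ⟨η, hη⟩ := hJ
  have ha0 : a ≠ 0 := by
    rintro rfl
    rw [zero_pow hp, zero_mul] at hη
    exact hz0 hη.symm
  refine ⟨η, (a : K) / (y : K), div_ne_zero (by simpa using ha0) hyK, ?_⟩
  have h1 : α = ((z : 𝓞 K) : K) / (y : K) ^ p := by
    rw [hzα]; field_simp
  rw [h1, ← hη]
  push_cast
  rw [div_pow]
  ring

variable {K : Type} [Field K] [NumberField K] [IsCyclotomicExtension {3} ℚ K] {ζ : K}

/-- Every unit of `ℤ[ζ₃]` is `± ζ^j`. -/
theorem unit_eq_sign_mul_pow (hζ : IsPrimitiveRoot ζ 3) (u : (𝓞 K)ˣ) :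
    ∃ (j : ℕ) (s : K), (s = 1 ∨ s = -1) ∧ ((u : 𝓞 K) : K) = s * ζ ^ j := by
  have hmem := IsCyclotomicExtension.Rat.Three.Units.mem hζ u
  have hc : ((hζ.toInteger : 𝓞 K) : K) = ζ := rfl
  simp only [List.mem_cons, List.not_mem_nil, or_false] at hmem
  rcases hmem with h | h | h | h | h | h <;> rw [h]
  · exact ⟨0, 1, Or.inl rfl, by simp⟩
  · exact ⟨0, -1, Or.inr rfl, by simp⟩
  · exact ⟨1, 1, Or.inl rfl, by simp [hc]⟩
  · exact ⟨1, -1, Or.inr rfl, by simp⟩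
  · exact ⟨2, 1, Or.inl rfl, by simp [hc]⟩
  · exact ⟨2, -1, Or.inr rfl, by simp [hc]⟩

/-- The cube of a unit of `ℤ[ζ₃]` is `±1`. -/
theorem unit_cube (hζ : IsPrimitiveRoot ζ 3) (u : (𝓞 K)ˣ) :
    ((u : 𝓞 K) : K) ^ 3 = 1 ∨ ((u : 𝓞 K) : K) ^ 3 = -1 := by
  have h3 : ζ ^ 3 = 1 := hζ.pow_eq_one
  obtain ⟨j, s, hs, hu⟩ := unit_eq_sign_mul_pow hζ u
  have hj : (ζ ^ j) ^ 3 = 1 := by rw [← pow_mul, mul_comm, pow_mul, h3, one_pow]
  rw [hu, mul_pow, hj, mul_one]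
  rcases hs with rfl | rfl
  · left; norm_num
  · right; norm_num

/-- Every unit of `ℤ[ζ₃]` is a power of `ζ` times a cube. -/
theorem unit_eq (hζ : IsPrimitiveRoot ζ 3) (u : (𝓞 K)ˣ) :
    ∃ (j : ℕ) (s : K), s ≠ 0 ∧ ((u : 𝓞 K) : K) = ζ ^ j * s ^ 3 := by
  obtain ⟨j, s, hs, hu⟩ := unit_eq_sign_mul_pow hζ u
  refine ⟨j, s, ?_, ?_⟩
  · rcases hs with rfl | rfl <;> norm_num
  · rw [hu]
    rcases hs with rfl | rfl <;> ring

/-- If `ζ^k` is a cube in `ℚ(ζ₃)` then `3 ∣ k`. -/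
theorem three_dvd_of_pow_eq_cube (hζ : IsPrimitiveRoot ζ 3) (k : ℕ) (d : K) (h : ζ ^ k = d ^ 3) :
    3 ∣ k := by
  have h3 : ζ ^ 3 = 1 := hζ.pow_eq_one
  have hd9 : d ^ 9 = 1 := by
    rw [show 9 = 3 * 3 by norm_num, pow_mul, ← h, ← pow_mul, mul_comm, pow_mul, h3, one_pow]
  have hdint : IsIntegral ℤ d := by
    apply IsIntegral.of_pow (n := 9) (by norm_num)
    rw [hd9]; exact isIntegral_one
  obtain ⟨d', hd'⟩ : ∃ d' : 𝓞 K, (d' : K) = d := ⟨⟨d, hdint⟩, rfl⟩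
  have hd'9 : d' ^ 9 = 1 := by
    have hd'' : algebraMap (𝓞 K) K d' = d := hd'
    apply NumberField.RingOfIntegers.coe_injective
    rw [map_pow, hd'', hd9, map_one]
  have hunit : IsUnit d' := IsUnit.of_pow_eq_one hd'9 (by norm_num)
  obtain ⟨u, hu⟩ := hunit
  have hud : ((u : 𝓞 K) : K) = d := by rw [hu, hd']
  have hz2 : ζ ^ (2 * k) = 1 := by
    rw [mul_comm, pow_mul, h]
    rcases unit_cube hζ u with h1 | h1 <;> rw [hud] at h1 <;> rw [h1] <;> norm_num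
  have := (hζ.pow_eq_one_iff_dvd (2 * k)).mp hz2
  exact (Nat.Coprime.dvd_mul_left (by norm_num : Nat.Coprime 3 2)).mp this

/-- There is an automorphism of `ℚ(ζ₃)` sending `ζ` to `ζ²`. -/
theorem exists_conj (hζ : IsPrimitiveRoot ζ 3) : ∃ σ : K ≃ₐ[ℚ] K, σ ζ = ζ ^ 2 := by
  refine ⟨(IsCyclotomicExtension.Rat.galEquivZMod 3 K).symm (-1), ?_⟩
  rw [IsCyclotomicExtension.Rat.galEquivZMod_apply_of_pow_eq 3 K _ hζ.pow_eq_one,
    MulEquiv.apply_symm_apply]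
  rfl

/-- PACKAGE P3. The case `p = 3`: `ℚ(ζ_3)` is a PID with units `±ζ^j`. -/
theorem core_three {K : Type} [Field K] [NumberField K] [IsCyclotomicExtension {3} ℚ K] {ζ : K}
    (hζ : IsPrimitiveRoot ζ 3) (α : K) (hα : α ≠ 0) (h2 : EigenElt 3 ζ α)
    (h3 : ValDivisible 3 α) : ∃ γ : K, α = γ ^ 3 := by
  have : IsPrincipalIdealRing (𝓞 K) := IsCyclotomicExtension.Rat.three_pid K
  obtain ⟨η, a, ha, hαη⟩ := exists_unit_mul_pow (p := 3) (by norm_num) α hα h3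
  obtain ⟨j, s, hs, hηj⟩ := unit_eq hζ η
  set c : K := s * a with hc
  have hc0 : c ≠ 0 := mul_ne_zero hs ha
  have hαc : α = ζ ^ j * c ^ 3 := by rw [hαη, hηj, hc]; ring
  obtain ⟨σ, hσ⟩ := exists_conj hζ
  obtain ⟨β, hβ⟩ := h2 σ 2 hσ
  have hβ0 : β ≠ 0 := by
    rintro rfl
    rw [zero_pow (by norm_num), mul_zero] at hβ
    exact hα ((map_eq_zero σ).mp hβ)
  have h3' : ζ ^ 3 = 1 := hζ.pow_eq_one
  have hj3 : (ζ ^ j) ^ 3 = 1 := by rw [← pow_mul, mul_comm, pow_mul, h3', one_pow]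
  have key : ζ ^ (2 * j) = (σ c / (c ^ 4 * β)) ^ 3 := by
    have e1 : σ α = (ζ ^ 2) ^ j * (σ c) ^ 3 := by
      rw [hαc, map_mul, map_pow, map_pow, hσ]
    rw [e1, hαc] at hβ
    rw [div_pow, eq_div_iff (pow_ne_zero 3 (mul_ne_zero (pow_ne_zero 4 hc0) hβ0))]
    calc ζ ^ (2 * j) * (c ^ 4 * β) ^ 3
        = (ζ ^ j) ^ 3 * (ζ ^ (2 * j) * (c ^ 4 * β) ^ 3) := by rw [hj3, one_mul]
      _ = ζ ^ j * ((ζ ^ j * c ^ 3) ^ 2 ^ 2 * β ^ 3) := by ring
      _ = ζ ^ j * ((ζ ^ 2) ^ j * σ c ^ 3) := by rw [hβ]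
      _ = (ζ ^ j) ^ 3 * σ c ^ 3 := by ring
      _ = σ c ^ 3 := by rw [hj3, one_mul]
  have hdvd : 3 ∣ 2 * j := three_dvd_of_pow_eq_cube hζ _ _ key
  have hj : 3 ∣ j := (Nat.Coprime.dvd_mul_left (by norm_num : Nat.Coprime 3 2)).mp hdvd
  obtain ⟨m, rfl⟩ := hj
  refine ⟨c, ?_⟩
  rw [hαc, pow_mul, h3', one_pow, one_mul]

end Fermat.Agent.S14.PThree
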