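import Fermat.Agent.S14.Defs

set_option autoImplicit false

open scoped NumberField nonZeroDivisors
open IsDedekindDomain Fermat.Agent.S14.Defs

namespace Fermat.Agent.S14.ThaineBook

variable {p : ℕ} [Fact p.Prime] {K : Type} [Field K] [NumberField K]
  [IsCyclotomicExtension {p} ℚ K] {ζ : K}

/-- An automorphism with prescribed value on `ζ`. -/
theorem exists_aut (hζ : IsPrimitiveRoot ζ p) {a : ℕ} (ha : a.Coprime p) :
    ∃ σ : K ≃ₐ[ℚ] K, σ ζ = ζ ^ a := by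
  have hp : p.Prime := Fact.out
  have : NeZero p := ⟨hp.ne_zero⟩
  have hirr : Irreducible (Polynomial.cyclotomic p ℚ) :=
    Polynomial.cyclotomic.irreducible_rat hp.pos
  have hζa : IsPrimitiveRoot (ζ ^ a) p := hζ.pow_of_coprime a ha
  have hmin : minpoly ℚ (hζ.powerBasis ℚ).gen = minpoly ℚ (hζa.powerBasis ℚ).gen := by
    simp only [IsPrimitiveRoot.powerBasis_gen]
    rw [← hζ.minpoly_eq_cyclotomic_of_irreducible hirr,
      ← hζa.minpoly_eq_cyclotomic_of_irreducible hirr]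
  refine ⟨(hζ.powerBasis ℚ).equivOfMinpoly (hζa.powerBasis ℚ) hmin, ?_⟩
  have := (hζ.powerBasis ℚ).equivOfMinpoly_gen (hζa.powerBasis ℚ) hmin
  simpa using this

/-- An automorphism is determined by its value on `ζ`. -/
theorem aut_ext (hζ : IsPrimitiveRoot ζ p) {σ τ : K ≃ₐ[ℚ] K} (h : σ ζ = τ ζ) : σ = τ := by
  have hp : p.Prime := Fact.out
  have : NeZero p := ⟨hp.ne_zero⟩
  apply AlgEquiv.coe_toAlgHom_injective
  apply (hζ.powerBasis ℚ).algHom_ext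
  simpa using h

omit [IsCyclotomicExtension {p} ℚ K] in
/-- Every automorphism raises `ζ` to a power with exponent in `[1, p-1]`. -/
theorem exists_pow (hζ : IsPrimitiveRoot ζ p) (σ : K ≃ₐ[ℚ] K) :
    ∃ a ∈ Finset.Ico 1 p, σ ζ = ζ ^ a := by
  have hp : p.Prime := Fact.out
  have hσζ : IsPrimitiveRoot (σ ζ) p := hζ.map_of_injective σ.injective
  obtain ⟨i, hi, hi'⟩ := hζ.eq_pow_of_pow_eq_one hσζ.pow_eq_one
  refine ⟨i, Finset.mem_Ico.mpr ⟨?_, hi⟩, hi'.symm⟩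
  rcases Nat.eq_zero_or_pos i with h0 | h0
  · exfalso
    rw [h0, pow_zero] at hi'
    exact hσζ.ne_one hp.one_lt hi'.symm
  · exact h0

omit [Fact p.Prime] [IsCyclotomicExtension {p} ℚ K] in
theorem sigmaO_coe (σ : K ≃ₐ[ℚ] K) (x : 𝓞 K) : ((sigmaO σ x : 𝓞 K) : K) = σ (x : K) := rfl

/-- Conjugate of a prime by an automorphism. -/
noncomputable def conj (σ : K ≃ₐ[ℚ] K) (q : HeightOneSpectrum (𝓞 K)) :
    HeightOneSpectrum (𝓞 K) where
  asIdeal := Ideal.map (sigmaO σ) q.asIdeal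
  isPrime := Ideal.map_isPrime_of_equiv (sigmaO σ)
  ne_bot := by
    intro h
    apply q.ne_bot
    rw [eq_bot_iff]
    intro x hx
    have h1 : sigmaO σ x ∈ Ideal.map (sigmaO σ) q.asIdeal := Ideal.mem_map_of_mem _ hx
    rw [h] at h1
    have h2 : sigmaO σ x = 0 := by simpa using h1
    have h3 : x = 0 := (sigmaO σ).injective (h2.trans (map_zero _).symm)
    simp [h3]

omit [Fact p.Prime] [IsCyclotomicExtension {p} ℚ K] in
theorem mem_conj (σ : K ≃ₐ[ℚ] K) (q : HeightOneSpectrum (𝓞 K)) (x : 𝓞 K) :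
    sigmaO σ x ∈ (conj σ q).asIdeal ↔ x ∈ q.asIdeal := by
  change sigmaO σ x ∈ Ideal.map (sigmaO σ) q.asIdeal ↔ _
  rw [Ideal.mem_map_of_equiv]
  constructor
  · rintro ⟨y, hy, hxy⟩
    have := (sigmaO σ).injective hxy
    rwa [← this]
  · intro hx
    exact ⟨x, hx, rfl⟩

omit [Fact p.Prime] [IsCyclotomicExtension {p} ℚ K] in
theorem mem_conj_iff (σ : K ≃ₐ[ℚ] K) (q : HeightOneSpectrum (𝓞 K)) (y : 𝓞 K) :
    y ∈ (conj σ q).asIdeal ↔ ∃ x ∈ q.asIdeal, sigmaO σ x = y :=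
  Ideal.mem_map_of_equiv (sigmaO σ) y

omit [Fact p.Prime] [IsCyclotomicExtension {p} ℚ K] in
theorem conj_mul (σ τ : K ≃ₐ[ℚ] K) (q : HeightOneSpectrum (𝓞 K)) :
    conj (σ * τ) q = conj σ (conj τ q) := by
  apply HeightOneSpectrum.ext
  ext y
  rw [mem_conj_iff, mem_conj_iff]
  constructor
  · rintro ⟨x, hx, rfl⟩
    exact ⟨sigmaO τ x, (mem_conj τ q x).mpr hx, rfl⟩
  · rintro ⟨w, hw, rfl⟩
    obtain ⟨x, hx, rfl⟩ := (mem_conj_iff τ q w).mp hw
    exact ⟨x, hx, rfl⟩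

omit [Fact p.Prime] [IsCyclotomicExtension {p} ℚ K] in
theorem conj_one (q : HeightOneSpectrum (𝓞 K)) : conj 1 q = q := by
  apply HeightOneSpectrum.ext
  ext y
  rw [mem_conj_iff]
  constructor
  · rintro ⟨x, hx, rfl⟩
    exact hx
  · intro hy
    exact ⟨y, hy, rfl⟩

omit [Fact p.Prime] [IsCyclotomicExtension {p} ℚ K] in
theorem sigmaO_intCast (σ : K ≃ₐ[ℚ] K) (n : ℤ) : sigmaO σ (n : 𝓞 K) = (n : 𝓞 K) :=
  map_intCast _ n

omit [Fact p.Prime] [IsCyclotomicExtension {p} ℚ K] in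
theorem sigmaO_natCast (σ : K ≃ₐ[ℚ] K) (n : ℕ) : sigmaO σ (n : 𝓞 K) = (n : 𝓞 K) :=
  map_natCast _ n

omit [Fact p.Prime] [IsCyclotomicExtension {p} ℚ K] in
theorem sigmaO_of_coe (σ : K ≃ₐ[ℚ] K) {z : 𝓞 K} (hz : (z : K) = ζ) {a : ℕ}
    (h : σ ζ = ζ ^ a) : sigmaO σ z = z ^ a := by
  apply NumberField.RingOfIntegers.ext
  rw [sigmaO_coe, hz, h]
  simp [hz]

omit [Fact p.Prime] [IsCyclotomicExtension {p} ℚ K] in
theorem natCast_mem_conj (σ : K ≃ₐ[ℚ] K) (q : HeightOneSpectrum (𝓞 K)) (n : ℕ) :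
    (n : 𝓞 K) ∈ (conj σ q).asIdeal ↔ (n : 𝓞 K) ∈ q.asIdeal := by
  rw [← mem_conj σ q, sigmaO_natCast]

omit [Fact p.Prime] [IsCyclotomicExtension {p} ℚ K] in
/-- Modulo a prime of prime norm every integer of `K` is congruent to a rational integer. -/
theorem exists_int_sub_mem (v : HeightOneSpectrum (𝓞 K)) (hv : (Ideal.absNorm v.asIdeal).Prime)
    (x : 𝓞 K) : ∃ n : ℤ, x - (n : 𝓞 K) ∈ v.asIdeal := by
  have hcard : Nat.card (𝓞 K ⧸ v.asIdeal) = Ideal.absNorm v.asIdeal := by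
    rw [Ideal.absNorm_apply, Submodule.cardQuot_apply]
  have : Fact (Nat.card (𝓞 K ⧸ v.asIdeal)).Prime := ⟨hcard ▸ hv⟩
  have hne : (1 : 𝓞 K ⧸ v.asIdeal) ≠ 0 := by
    intro h
    have h1 : (Ideal.Quotient.mk v.asIdeal 1) = 0 := h
    rw [Ideal.Quotient.eq_zero_iff_mem] at h1
    exact v.isPrime.ne_top ((Ideal.eq_top_iff_one _).mpr h1)
  have htop : AddSubgroup.zmultiples (1 : 𝓞 K ⧸ v.asIdeal) = ⊤ := by
    rcases (AddSubgroup.zmultiples (1 : 𝓞 K ⧸ v.asIdeal)).eq_bot_or_eq_top_of_prime_card with h | h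
    · exfalso
      apply hne
      have : (1 : 𝓞 K ⧸ v.asIdeal) ∈ AddSubgroup.zmultiples (1 : 𝓞 K ⧸ v.asIdeal) :=
        AddSubgroup.mem_zmultiples _
      rw [h] at this
      simp at this
    · exact h
  have hx : Ideal.Quotient.mk v.asIdeal x ∈ AddSubgroup.zmultiples (1 : 𝓞 K ⧸ v.asIdeal) := by
    rw [htop]; trivial
  obtain ⟨n, hn⟩ := AddSubgroup.mem_zmultiples_iff.mp hx
  refine ⟨n, ?_⟩
  rw [← Ideal.Quotient.eq_zero_iff_mem, map_sub, ← hn]
  simp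

/-- The stabiliser of a degree-one prime not above `p` is trivial. -/
theorem stab_trivial (hζ : IsPrimitiveRoot ζ p) (v : HeightOneSpectrum (𝓞 K))
    (hv : (Ideal.absNorm v.asIdeal).Prime) (hvp : ((p : ℕ) : 𝓞 K) ∉ v.asIdeal)
    (τ : K ≃ₐ[ℚ] K) (h : conj τ v = v) : τ ζ = ζ := by
  have hp : p.Prime := Fact.out
  have : NeZero p := ⟨hp.ne_zero⟩
  obtain ⟨c, hc, hτ⟩ := exists_pow hζ τ
  rw [Finset.mem_Ico] at hc
  set z : 𝓞 K := hζ.toInteger with hzdef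
  have hz : (z : K) = ζ := rfl
  obtain ⟨n, hn⟩ := exists_int_sub_mem v hv z
  have h1 : sigmaO τ (z - (n : 𝓞 K)) ∈ (conj τ v).asIdeal := (mem_conj τ v _).mpr hn
  rw [h, map_sub, sigmaO_intCast, sigmaO_of_coe τ hz hτ] at h1
  have h2 : z ^ c - z ∈ v.asIdeal := by
    have := v.asIdeal.sub_mem h1 hn
    have e : z ^ c - (n : 𝓞 K) - (z - (n : 𝓞 K)) = z ^ c - z := by ring
    rwa [e] at this
  by_cases hc1 : c = 1
  · rw [hτ, hc1, pow_one]
  exfalso
  have hzp : z ^ p = 1 := by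
    apply NumberField.RingOfIntegers.ext
    simp [hz, hζ.pow_eq_one]
  have hznot : z ∉ v.asIdeal := by
    intro hzv
    have : z ^ p ∈ v.asIdeal := Ideal.pow_mem_of_mem _ hzv p hp.pos
    rw [hzp] at this
    exact v.isPrime.ne_top ((Ideal.eq_top_iff_one _).mpr this)
  have h3 : z ^ (c - 1) - 1 ∈ v.asIdeal := by
    have e : z ^ c - z = z * (z ^ (c - 1) - 1) := by
      have : c = (c - 1) + 1 := by omega
      nth_rewrite 1 [this]
      ring
    rw [e] at h2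
    exact (v.isPrime.mem_or_mem h2).resolve_left hznot
  have hcop : (c - 1).Coprime p := by
    rw [Nat.coprime_comm, hp.coprime_iff_not_dvd]
    intro hdvd
    have := Nat.le_of_dvd (by omega) hdvd
    omega
  have hη : IsPrimitiveRoot (ζ ^ (c - 1)) p := hζ.pow_of_coprime _ hcop
  have h4 : hη.toInteger - 1 ∣ ((p : ℤ) : 𝓞 K) :=
    (IsCyclotomicExtension.Rat.zeta_sub_one_dvd_intCast_iff' p hη).mpr dvd_rfl
  have h5 : hη.toInteger = z ^ (c - 1) := by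
    apply NumberField.RingOfIntegers.ext
    simp only [map_pow, hz]
    rfl
  rw [h5] at h4
  apply hvp
  have : ((p : ℤ) : 𝓞 K) ∈ v.asIdeal := Ideal.mem_of_dvd _ h4 h3
  simpa using this


omit [Fact p.Prime] [IsCyclotomicExtension {p} ℚ K] in
/-- Transitivity of the Galois action on the primes above a rational prime. -/
theorem exists_conj_eq [IsGalois ℚ K] (v q' : HeightOneSpectrum (𝓞 K)) (l : ℕ) (hl : l.Prime)
    (hv : (l : 𝓞 K) ∈ v.asIdeal) (hq : (l : 𝓞 K) ∈ q'.asIdeal) :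
    ∃ σ : K ≃ₐ[ℚ] K, conj σ q' = v := by
  have : Fact l.Prime := ⟨hl⟩
  have hmax : (Ideal.span {(l : ℤ)}).IsMaximal := Int.ideal_span_isMaximal_of_prime l
  have key : ∀ w : HeightOneSpectrum (𝓞 K), (l : 𝓞 K) ∈ w.asIdeal →
      w.asIdeal.under ℤ = Ideal.span {(l : ℤ)} := by
    intro w hw
    have hle : Ideal.span {(l : ℤ)} ≤ w.asIdeal.under ℤ := by
      rw [Ideal.span_singleton_le_iff_mem, Ideal.under_def, Ideal.mem_comap]
      simpa using hw
    have hne : w.asIdeal.under ℤ ≠ ⊤ := by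
      have : (w.asIdeal.under ℤ).IsPrime := Ideal.IsPrime.under ℤ w.asIdeal
      exact this.ne_top
    exact (hmax.eq_of_le hne hle).symm
  have hPQ : q'.asIdeal.under ℤ = v.asIdeal.under ℤ := by rw [key q' hq, key v hv]
  obtain ⟨g, hg⟩ := Algebra.IsInvariant.exists_smul_of_under_eq ℤ (𝓞 K) (K ≃ₐ[ℚ] K)
    q'.asIdeal v.asIdeal hPQ
  refine ⟨g, HeightOneSpectrum.ext ?_⟩
  exact hg.symm

/-- The functional `φ` as a function on ideals (zero on the zero ideal). -/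
noncomputable def Phi (φ : Additive (ClassGroup (𝓞 K)) →+ ZMod p) (I : Ideal (𝓞 K)) : ZMod p :=
  open Classical in
  if h : I ∈ (Ideal (𝓞 K))⁰ then φ (Additive.ofMul (ClassGroup.mk0 ⟨I, h⟩)) else 0

omit [IsCyclotomicExtension {p} ℚ K] in
theorem Phi_eq (φ : Additive (ClassGroup (𝓞 K)) →+ ZMod p) {I : Ideal (𝓞 K)}
    (h : I ∈ (Ideal (𝓞 K))⁰) : Phi φ I = φ (Additive.ofMul (ClassGroup.mk0 ⟨I, h⟩)) := by
  unfold Phi
  rw [dif_pos h]

omit [IsCyclotomicExtension {p} ℚ K] in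
theorem Phi_mul (φ : Additive (ClassGroup (𝓞 K)) →+ ZMod p) {I J : Ideal (𝓞 K)}
    (hI : I ≠ ⊥) (hJ : J ≠ ⊥) : Phi φ (I * J) = Phi φ I + Phi φ J := by
  have hI' : I ∈ (Ideal (𝓞 K))⁰ := mem_nonZeroDivisors_of_ne_zero hI
  have hJ' : J ∈ (Ideal (𝓞 K))⁰ := mem_nonZeroDivisors_of_ne_zero hJ
  have hIJ' : I * J ∈ (Ideal (𝓞 K))⁰ := mul_mem hI' hJ'
  rw [Phi_eq φ hI', Phi_eq φ hJ', Phi_eq φ hIJ', ← map_add, ← ofMul_mul, ← map_mul]
  rfl

omit [IsCyclotomicExtension {p} ℚ K] in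
theorem Phi_one (φ : Additive (ClassGroup (𝓞 K)) →+ ZMod p) : Phi φ 1 = 0 := by
  have h1 : (1 : Ideal (𝓞 K)) ∈ (Ideal (𝓞 K))⁰ := one_mem _
  rw [Phi_eq φ h1]
  have : ClassGroup.mk0 (⟨1, h1⟩ : (Ideal (𝓞 K))⁰) = 1 := map_one ClassGroup.mk0
  rw [this, ofMul_one, map_zero]

omit [IsCyclotomicExtension {p} ℚ K] in
theorem Phi_span (φ : Additive (ClassGroup (𝓞 K)) →+ ZMod p) {γ : 𝓞 K} (hγ : γ ≠ 0) :
    Phi φ (Ideal.span {γ}) = 0 := by
  have hne : Ideal.span {γ} ≠ (⊥ : Ideal (𝓞 K)) := by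
    rw [Ne, Ideal.span_singleton_eq_bot]; exact hγ
  have h1 : Ideal.span {γ} ∈ (Ideal (𝓞 K))⁰ := mem_nonZeroDivisors_of_ne_zero hne
  rw [Phi_eq φ h1]
  have : ClassGroup.mk0 (⟨Ideal.span {γ}, h1⟩ : (Ideal (𝓞 K))⁰) = 1 :=
    (ClassGroup.mk0_eq_one_iff h1).mpr ⟨⟨γ, rfl⟩⟩
  rw [this, ofMul_one, map_zero]

omit [IsCyclotomicExtension {p} ℚ K] in
theorem Phi_multiset_prod (φ : Additive (ClassGroup (𝓞 K)) →+ ZMod p)
    (S : Multiset (Ideal (𝓞 K))) (hS : ∀ I ∈ S, I ≠ ⊥) :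
    Phi φ S.prod = (S.map (Phi φ)).sum := by
  induction S using Multiset.induction with
  | empty =>
    rw [Multiset.prod_zero, Multiset.map_zero, Multiset.sum_zero]
    exact Phi_one φ
  | cons a S ih =>
    have ha : a ≠ ⊥ := hS a (Multiset.mem_cons_self a S)
    have hS' : ∀ I ∈ S, I ≠ ⊥ := fun I hI => hS I (Multiset.mem_cons_of_mem hI)
    have hprod : S.prod ≠ ⊥ := by
      rw [← Ideal.zero_eq_bot]
      apply Multiset.prod_ne_zero
      intro h0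
      exact hS' 0 h0 rfl
    rw [Multiset.prod_cons, Phi_mul φ ha hprod, ih hS', Multiset.map_cons, Multiset.sum_cons]

omit [IsCyclotomicExtension {p} ℚ K] in
theorem Phi_cls (φ : Additive (ClassGroup (𝓞 K)) →+ ZMod p) (q : HeightOneSpectrum (𝓞 K)) :
    Phi φ q.asIdeal = φ (Additive.ofMul (cls q)) :=
  Phi_eq φ (mem_nonZeroDivisors_of_ne_zero q.ne_bot)

omit [IsCyclotomicExtension {p} ℚ K] in
theorem Phi_conj (φ : Additive (ClassGroup (𝓞 K)) →+ ZMod p) (hφ : IsEigen p ζ φ)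
    (σ : K ≃ₐ[ℚ] K) (n : ℕ) (hσ : σ ζ = ζ ^ n) (q : HeightOneSpectrum (𝓞 K)) :
    Phi φ (conj σ q).asIdeal = (n : ZMod p) ^ 2 * Phi φ q.asIdeal := by
  have h1 : q.asIdeal ∈ (Ideal (𝓞 K))⁰ := mem_nonZeroDivisors_of_ne_zero q.ne_bot
  have h2 : (conj σ q).asIdeal ∈ (Ideal (𝓞 K))⁰ :=
    mem_nonZeroDivisors_of_ne_zero (conj σ q).ne_bot
  rw [Phi_eq φ h1, Phi_eq φ h2]
  exact hφ σ n hσ ⟨q.asIdeal, h1⟩ ⟨(conj σ q).asIdeal, h2⟩ rfl

/-- Bookkeeping step of Thaine's argument: from the factorisation of `(γ)` and the congruences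
at the primes above `l = N(v)` to the `p`-th power residue property of `c2`. -/
theorem thaine_of_core (hp3 : 3 ≤ p) (hζ : IsPrimitiveRoot ζ p)
    (φ : Additive (ClassGroup (𝓞 K)) →+ ZMod p) (hφ : IsEigen p ζ φ)
    (v : HeightOneSpectrum (𝓞 K)) (hv : (Ideal.absNorm v.asIdeal).Prime)
    (hvp : ((p : ℕ) : 𝓞 K) ∉ v.asIdeal)
    (hne : φ (Additive.ofMul (cls v)) ≠ 0)
    (z : 𝓞 K) (hz : (z : K) = ζ) (g : ℤ) (γ : 𝓞 K) (hγ : γ ≠ 0)
    (h1 : ∀ q : HeightOneSpectrum (𝓞 K), ((Ideal.absNorm v.asIdeal : ℕ) : 𝓞 K) ∉ q.asIdeal →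
        p ∣ multiplicity q.asIdeal (Ideal.span {γ}))
    (h2 : ∀ q : HeightOneSpectrum (𝓞 K), ((Ideal.absNorm v.asIdeal : ℕ) : 𝓞 K) ∈ q.asIdeal →
        (1 + z) * (g : 𝓞 K) ^ multiplicity q.asIdeal (Ideal.span {γ}) - 1 ∈ q.asIdeal) :
    ∃ t c : 𝓞 K, (c : K) = c2 p ζ ∧ c - t ^ p ∈ v.asIdeal := by
  classical
  have hp : p.Prime := Fact.out
  have hgal : IsGalois ℚ K := IsCyclotomicExtension.isGalois {p} ℚ K
  set l := Ideal.absNorm v.asIdeal with hl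
  -- automorphisms
  have hex : ∀ a : ℕ, ∃ σ : K ≃ₐ[ℚ] K, a ∈ Finset.Ico 1 p → σ ζ = ζ ^ a := by
    intro a
    by_cases ha : a ∈ Finset.Ico 1 p
    · rw [Finset.mem_Ico] at ha
      have hcop : a.Coprime p := by
        rw [Nat.coprime_comm, hp.coprime_iff_not_dvd]
        intro hdvd
        have := Nat.le_of_dvd (by omega) hdvd
        omega
      obtain ⟨σ, hσ⟩ := exists_aut hζ hcop
      exact ⟨σ, fun _ => hσ⟩
    · exact ⟨1, fun h => absurd h ha⟩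
  choose s hs using hex
  -- the primes above `l`
  let q : ℕ → HeightOneSpectrum (𝓞 K) := fun a => conj (s a)⁻¹ v
  have hq : ∀ a, conj (s a) (q a) = v := by
    intro a
    change conj (s a) (conj (s a)⁻¹ v) = v
    rw [← conj_mul, mul_inv_cancel, conj_one]
  have hlv : ((l : ℕ) : 𝓞 K) ∈ v.asIdeal := Ideal.absNorm_mem v.asIdeal
  have hlq : ∀ a, ((l : ℕ) : 𝓞 K) ∈ (q a).asIdeal := fun a =>
    (natCast_mem_conj _ v l).mpr hlv
  have hqinj : ∀ a ∈ Finset.Ico 1 p, ∀ b ∈ Finset.Ico 1 p, q a = q b → a = b := by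
    intro a ha b hb hab
    have h3 : conj (s b * (s a)⁻¹) v = v := by
      rw [conj_mul]
      change conj (s b) (q a) = v
      rw [hab, hq]
    have h4 := stab_trivial hζ v hv hvp _ h3
    have h5 : s b * (s a)⁻¹ = 1 := aut_ext hζ (by rw [h4]; rfl)
    have h6 : s b = s a := mul_inv_eq_one.mp h5
    have h7 : ζ ^ a = ζ ^ b := by rw [← hs a ha, ← hs b hb, h6]
    exact hζ.pow_inj (Finset.mem_Ico.mp ha).2 (Finset.mem_Ico.mp hb).2 h7
  have hqall : ∀ q' : HeightOneSpectrum (𝓞 K), ((l : ℕ) : 𝓞 K) ∈ q'.asIdeal →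
      ∃ a ∈ Finset.Ico 1 p, q' = q a := by
    intro q' hq'
    obtain ⟨σ, hσ⟩ := exists_conj_eq v q' l hv hlv hq'
    obtain ⟨a, ha, hσa⟩ := exists_pow hζ σ
    have h3 : σ = s a := aut_ext hζ (by rw [hσa, hs a ha])
    refine ⟨a, ha, ?_⟩
    change q' = conj (s a)⁻¹ v
    rw [← hσ, ← conj_mul, h3, inv_mul_cancel, conj_one]
  -- the class group relation
  set S := UniqueFactorizationMonoid.normalizedFactors (Ideal.span {γ}) with hS
  have hspan : Ideal.span {γ} ≠ (⊥ : Ideal (𝓞 K)) := by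
    rw [Ne, Ideal.span_singleton_eq_bot]; exact hγ
  have hSprime : ∀ I ∈ S, Prime I := fun I hI =>
    UniqueFactorizationMonoid.prime_of_normalized_factor I hI
  have hSne : ∀ I ∈ S, I ≠ ⊥ := fun I hI => (hSprime I hI).ne_zero
  have hSprod : S.prod = Ideal.span {γ} := Ideal.prod_normalizedFactors_eq_self hspan
  have hsum0 : ∑ I ∈ S.toFinset, S.count I • Phi φ I = 0 := by
    rw [← Finset.sum_multiset_map_count, ← Phi_multiset_prod φ S hSne, hSprod, Phi_span φ hγ]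
  have hcount : ∀ q' : HeightOneSpectrum (𝓞 K),
      S.count q'.asIdeal = multiplicity q'.asIdeal (Ideal.span {γ}) := by
    intro q'
    rw [UniqueFactorizationMonoid.multiplicity_eq_count_normalizedFactors q'.irreducible
      (by simpa using hspan), normalize_eq]
  let F : Ideal (𝓞 K) → ZMod p := fun I => S.count I • Phi φ I
  let T : Finset (Ideal (𝓞 K)) := (Finset.Ico 1 p).image (fun a => (q a).asIdeal)
  have hsumT : ∑ I ∈ T, F I = 0 := by
    have e1 : ∑ I ∈ S.toFinset, F I = ∑ I ∈ S.toFinset ∪ T, F I := by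
      apply Finset.sum_subset Finset.subset_union_left
      intro I _ hI
      have : S.count I = 0 := Multiset.count_eq_zero.mpr (by simpa using hI)
      simp [F, this]
    have e2 : ∑ I ∈ T, F I = ∑ I ∈ S.toFinset ∪ T, F I := by
      apply Finset.sum_subset Finset.subset_union_right
      intro I hI hIT
      have hIS : I ∈ S := by
        rcases Finset.mem_union.mp hI with h | h
        · exact Multiset.mem_toFinset.mp h
        · exact absurd h hIT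
      let qI : HeightOneSpectrum (𝓞 K) :=
        ⟨I, Ideal.isPrime_of_prime (hSprime I hIS), hSne I hIS⟩
      have hlI : ((l : ℕ) : 𝓞 K) ∉ qI.asIdeal := by
        intro hl'
        apply hIT
        obtain ⟨a, ha, hqa⟩ := hqall qI hl'
        exact Finset.mem_image.mpr ⟨a, ha, by rw [← hqa]⟩
      obtain ⟨m, hm⟩ := h1 qI hlI
      rw [← hcount qI] at hm
      change S.count I • Phi φ I = 0
      have hm' : S.count I = p * m := hm
      rw [hm', nsmul_eq_mul, Nat.cast_mul, ZMod.natCast_self, zero_mul, zero_mul]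
    rw [e2, ← e1]
    exact hsum0
  -- the exponent relation
  set r : ℕ → ℕ := fun a => multiplicity (q a).asIdeal (Ideal.span {γ}) with hr
  have hsum1 : ∑ a ∈ Finset.Ico 1 p, (r a : ZMod p) * Phi φ (q a).asIdeal = 0 := by
    rw [← hsumT]
    rw [Finset.sum_image]
    · apply Finset.sum_congr rfl
      intro a _
      change _ = S.count (q a).asIdeal • Phi φ (q a).asIdeal
      rw [hcount (q a), nsmul_eq_mul]
    · intro a ha b hb hab
      exact hqinj a ha b hb (HeightOneSpectrum.ext hab)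
  have hPhiq : ∀ a ∈ Finset.Ico 1 p,
      Phi φ (q a).asIdeal = (a : ZMod p) ^ (p - 3) * Phi φ v.asIdeal := by
    intro a ha
    have h3 := Phi_conj φ hφ (s a) a (hs a ha) (q a)
    rw [hq a] at h3
    have ha0 : (a : ZMod p) ≠ 0 := by
      rw [Ne, ZMod.natCast_eq_zero_iff]
      intro hdvd
      rw [Finset.mem_Ico] at ha
      have := Nat.le_of_dvd (by omega) hdvd
      omega
    have h4 : (a : ZMod p) ^ (p - 1) = 1 := ZMod.pow_card_sub_one_eq_one ha0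
    have h5 : p - 1 = (p - 3) + 2 := by omega
    rw [h3, ← mul_assoc, ← pow_add, ← h5, h4, one_mul]
  set E : ℕ := ∑ a ∈ Finset.Ico 1 p, r a * a ^ (p - 3) with hE
  have hEp : p ∣ E := by
    rw [← ZMod.natCast_eq_zero_iff]
    have h3 : ((E : ℕ) : ZMod p) * Phi φ v.asIdeal = 0 := by
      rw [← hsum1, hE, Nat.cast_sum, Finset.sum_mul]
      apply Finset.sum_congr rfl
      intro a ha
      rw [hPhiq a ha]
      push_cast
      ring
    rcases mul_eq_zero.mp h3 with h | h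
    · exact h
    · exfalso
      apply hne
      rw [← Phi_cls φ v]
      exact h
  -- the congruences
  have hcong : ∀ a ∈ Finset.Ico 1 p,
      (1 + z ^ a) * (g : 𝓞 K) ^ r a - 1 ∈ v.asIdeal := by
    intro a ha
    have h3 := (mem_conj (s a) (q a) _).mpr (h2 (q a) (hlq a))
    rw [hq a] at h3
    have h4 : sigmaO (s a) ((1 + z) * (g : 𝓞 K) ^ multiplicity (q a).asIdeal (Ideal.span {γ}) - 1)
        = (1 + z ^ a) * (g : 𝓞 K) ^ r a - 1 := by
      rw [map_sub, map_mul, map_add, map_one, map_pow, sigmaO_intCast,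
        sigmaO_of_coe (s a) hz (hs a ha)]
    rw [h4] at h3
    exact h3
  have hprod : c2 p z * (g : 𝓞 K) ^ E - 1 ∈ v.asIdeal := by
    have h3 : c2 p z * (g : 𝓞 K) ^ E =
        ∏ a ∈ Finset.Ico 1 p, ((1 + z ^ a) * (g : 𝓞 K) ^ r a) ^ (a ^ (p - 3)) := by
      simp only [c2, mul_pow, Finset.prod_mul_distrib, ← pow_mul]
      rw [Finset.prod_pow_eq_pow_sum]
    rw [h3, ← Ideal.Quotient.eq_zero_iff_mem, map_sub, map_one, map_prod]
    have h4 : ∀ a ∈ Finset.Ico 1 p,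
        Ideal.Quotient.mk v.asIdeal (((1 + z ^ a) * (g : 𝓞 K) ^ r a) ^ (a ^ (p - 3))) = 1 := by
      intro a ha
      have h5 := hcong a ha
      rw [← Ideal.Quotient.eq_zero_iff_mem, map_sub, map_one, sub_eq_zero] at h5
      rw [map_pow, h5, one_pow]
    rw [Finset.prod_congr rfl h4, Finset.prod_const_one, sub_self]
  -- conclusion
  obtain ⟨k, hk⟩ := hEp
  set G : 𝓞 K := (g : 𝓞 K) ^ k with hG
  have hprod' : c2 p z * G ^ p - 1 ∈ v.asIdeal := by
    have : G ^ p = (g : 𝓞 K) ^ E := by rw [hG, ← pow_mul, hk, mul_comm]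
    rw [this]
    exact hprod
  have hGv : G ∉ v.asIdeal := by
    intro hGv
    have h3 : c2 p z * G ^ p ∈ v.asIdeal :=
      Ideal.mul_mem_left _ _ (Ideal.pow_mem_of_mem _ hGv p hp.pos)
    have h4 : (1 : 𝓞 K) ∈ v.asIdeal := by
      have := v.asIdeal.sub_mem h3 hprod'
      simpa using this
    exact v.isPrime.ne_top ((Ideal.eq_top_iff_one _).mpr h4)
  obtain ⟨y, i, hi, hyi⟩ := v.isMaximal.exists_inv hGv
  refine ⟨y, c2 p z, ?_, ?_⟩
  · simp [c2, hz]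
  · rw [← Ideal.Quotient.eq_zero_iff_mem, map_sub, sub_eq_zero]
    have h3 : Ideal.Quotient.mk v.asIdeal y * Ideal.Quotient.mk v.asIdeal G = 1 := by
      have h4 : Ideal.Quotient.mk v.asIdeal (y * G + i) = 1 := by rw [hyi, map_one]
      rw [map_add, map_mul, Ideal.Quotient.eq_zero_iff_mem.mpr hi, add_zero] at h4
      exact h4
    have h5 : Ideal.Quotient.mk v.asIdeal (c2 p z) * Ideal.Quotient.mk v.asIdeal G ^ p = 1 := by
      have := hprod'
      rw [← Ideal.Quotient.eq_zero_iff_mem, map_sub, map_one, sub_eq_zero, map_mul, map_pow]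
        at this
      exact this
    calc Ideal.Quotient.mk v.asIdeal (c2 p z)
        = Ideal.Quotient.mk v.asIdeal (c2 p z) *
            (Ideal.Quotient.mk v.asIdeal y * Ideal.Quotient.mk v.asIdeal G) ^ p := by
          rw [h3, one_pow, mul_one]
      _ = Ideal.Quotient.mk v.asIdeal y ^ p *
            (Ideal.Quotient.mk v.asIdeal (c2 p z) * Ideal.Quotient.mk v.asIdeal G ^ p) := by
          ring
      _ = Ideal.Quotient.mk v.asIdeal (y ^ p) := by rw [h5, mul_one, map_pow]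

/-- A degree-one prime `v ∤ p` of `ℚ(ζ_p)` has norm `≡ 1` modulo `p`. -/
theorem dvd_absNorm_sub_one (hζ : IsPrimitiveRoot ζ p) (v : HeightOneSpectrum (𝓞 K))
    (hv : (Ideal.absNorm v.asIdeal).Prime) (hvp : ((p : ℕ) : 𝓞 K) ∉ v.asIdeal) :
    p ∣ Ideal.absNorm v.asIdeal - 1 := by
  have hp : p.Prime := Fact.out
  have : NeZero p := ⟨hp.ne_zero⟩
  set l := Ideal.absNorm v.asIdeal with hl
  set z : 𝓞 K := hζ.toInteger with hzdef
  have hz : (z : K) = ζ := rfl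
  have hzp : z ^ p = 1 := by
    apply NumberField.RingOfIntegers.ext
    simp [hz, hζ.pow_eq_one]
  have hlv : ((l : ℕ) : 𝓞 K) ∈ v.asIdeal := Ideal.absNorm_mem v.asIdeal
  have hznot : z ∉ v.asIdeal := by
    intro hzv
    have : z ^ p ∈ v.asIdeal := Ideal.pow_mem_of_mem _ hzv p hp.pos
    rw [hzp] at this
    exact v.isPrime.ne_top ((Ideal.eq_top_iff_one _).mpr this)
  obtain ⟨n, hn⟩ := exists_int_sub_mem v hv z
  have hnl : IsCoprime n (l : ℤ) := by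
    rw [Int.isCoprime_iff_gcd_eq_one, Int.gcd_comm]
    refine (Nat.Prime.coprime_iff_not_dvd hv).mpr ?_
    intro hdvd
    apply hznot
    have h1 : ((l : ℤ)) ∣ n := Int.natCast_dvd.mpr hdvd
    obtain ⟨m, hm⟩ := h1
    have h2 : (n : 𝓞 K) ∈ v.asIdeal := by
      rw [hm]
      push_cast
      exact Ideal.mul_mem_right _ _ hlv
    have := v.asIdeal.add_mem hn h2
    simpa using this
  have hfermat : n ^ (l - 1) ≡ 1 [ZMOD (l : ℤ)] := Int.ModEq.pow_card_sub_one_eq_one hv hnl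
  have h3 : (n : 𝓞 K) ^ (l - 1) - 1 ∈ v.asIdeal := by
    obtain ⟨m, hm⟩ := (Int.modEq_iff_dvd.mp hfermat.symm)
    have h4 : (n : 𝓞 K) ^ (l - 1) - 1 = ((l : ℕ) : 𝓞 K) * (m : 𝓞 K) := by
      have : ((n ^ (l - 1) - 1 : ℤ) : 𝓞 K) = (((l : ℤ) * m : ℤ) : 𝓞 K) := by rw [hm]
      push_cast at this
      exact this
    rw [h4]
    exact Ideal.mul_mem_right _ _ hlv
  have hmk : Ideal.Quotient.mk v.asIdeal z = Ideal.Quotient.mk v.asIdeal (n : 𝓞 K) := by
    rw [← sub_eq_zero, ← map_sub, Ideal.Quotient.eq_zero_iff_mem]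
    exact hn
  have h5 : Ideal.Quotient.mk v.asIdeal z ^ (l - 1) = 1 := by
    rw [hmk, ← map_pow, ← sub_eq_zero, ← map_one (Ideal.Quotient.mk v.asIdeal), ← map_sub,
      Ideal.Quotient.eq_zero_iff_mem]
    exact h3
  have h6 : Ideal.Quotient.mk v.asIdeal z ^ p = 1 := by rw [← map_pow, hzp, map_one]
  have h7 : Ideal.Quotient.mk v.asIdeal z ≠ 1 := by
    intro h
    rw [← sub_eq_zero, ← map_one (Ideal.Quotient.mk v.asIdeal), ← map_sub,
      Ideal.Quotient.eq_zero_iff_mem] at h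
    apply hvp
    have h8 : hζ.toInteger - 1 ∣ ((p : ℤ) : 𝓞 K) :=
      (IsCyclotomicExtension.Rat.zeta_sub_one_dvd_intCast_iff' p hζ).mpr dvd_rfl
    have : ((p : ℤ) : 𝓞 K) ∈ v.asIdeal := Ideal.mem_of_dvd _ h8 h
    simpa using this
  have h9 : orderOf (Ideal.Quotient.mk v.asIdeal z) = p := orderOf_eq_prime h6 h7
  rw [← h9]
  exact orderOf_dvd_of_pow_eq_one h5

/-- Variant of `thaine_of_core` with the hypothesis `(l - 1) ∣ v_q(γ)` away from `l`. -/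
theorem thaine_of_core_sub_one (hp3 : 3 ≤ p) (hζ : IsPrimitiveRoot ζ p)
    (φ : Additive (ClassGroup (𝓞 K)) →+ ZMod p) (hφ : IsEigen p ζ φ)
    (v : HeightOneSpectrum (𝓞 K)) (hv : (Ideal.absNorm v.asIdeal).Prime)
    (hvp : ((p : ℕ) : 𝓞 K) ∉ v.asIdeal)
    (hne : φ (Additive.ofMul (cls v)) ≠ 0)
    (z : 𝓞 K) (hz : (z : K) = ζ)
    (core : ∃ (g : ℤ) (γ : 𝓞 K), γ ≠ 0 ∧
      (∀ q : HeightOneSpectrum (𝓞 K), ((Ideal.absNorm v.asIdeal : ℕ) : 𝓞 K) ∉ q.asIdeal →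
        (Ideal.absNorm v.asIdeal - 1) ∣ multiplicity q.asIdeal (Ideal.span {γ})) ∧
      (∀ q : HeightOneSpectrum (𝓞 K), ((Ideal.absNorm v.asIdeal : ℕ) : 𝓞 K) ∈ q.asIdeal →
        (1 + z) * (g : 𝓞 K) ^ multiplicity q.asIdeal (Ideal.span {γ}) - 1 ∈ q.asIdeal)) :
    ∃ t c : 𝓞 K, (c : K) = c2 p ζ ∧ c - t ^ p ∈ v.asIdeal := by
  obtain ⟨g, γ, hγ, h1, h2⟩ := core
  exact thaine_of_core hp3 hζ φ hφ v hv hvp hne z hz g γ hγ
    (fun q hq => (dvd_absNorm_sub_one hζ v hv hvp).trans (h1 q hq)) h2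

end Fermat.Agent.S14.ThaineBook
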