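import Fermat.Agent.S14.Defs
import Fermat.Agent.S14.ThaineBook
import Fermat.Agent.S14.Thaine.Core

/-! S14 package T (root file): Thaine's relation.

Assembly (T0, helper249): `thaine = ThaineBook.thaine_of_core_sub_one ∘ Thaine.Core.thaine_core`
at `l = N(v)`.
* `Thaine.Core.thaine_core` (helper100, on top of `Thaine/Norm`, `Thaine/TrivAct`, `Thaine/Ram`
  by helper100, `Thaine/Ramification` by helper282, `Thaine/Valuations` by helper162):
  Thaine's element `γ = N_{K(ζ_l)/K}(β)` with `(l - 1) ∣ v_q(γ)` off `l` and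
  `(1 + ζ) g ^ v_q(γ) ≡ 1 mod q` for `q ∣ l`.
* `ThaineBook.thaine_of_core_sub_one` (helper11): class-group relation + residue bookkeeping. -/

set_option autoImplicit false

open scoped NumberField nonZeroDivisors
open IsDedekindDomain Fermat.Agent.S14.Defs

namespace Fermat.Agent.S14.Thaine

variable {p : ℕ} [Fact p.Prime] {K : Type} [Field K] [NumberField K]
  [IsCyclotomicExtension {p} ℚ K] {ζ : K}

/-- PACKAGE T (Thaine's relation, `ω²`-component). For a degree-one prime `v ∤ p` of `K = ℚ(ζ_p)`: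
if an `ω²`-eigenfunctional `φ` of the class group does not vanish on the class of `v`, then the
cyclotomic unit `c2` is a `p`-th power residue modulo `v`. -/
theorem thaine (hp5 : 5 ≤ p) (hζ : IsPrimitiveRoot ζ p)
    (φ : Additive (ClassGroup (𝓞 K)) →+ ZMod p) (hφ : IsEigen p ζ φ)
    (v : HeightOneSpectrum (𝓞 K)) (hv : (Ideal.absNorm v.asIdeal).Prime)
    (hvp : ((p : ℕ) : 𝓞 K) ∉ v.asIdeal)
    (hne : φ (Additive.ofMul (cls v)) ≠ 0) :
    ∃ t c : 𝓞 K, (c : K) = c2 p ζ ∧ c - t ^ p ∈ v.asIdeal := by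
  have : NeZero p := ⟨(Fact.out : p.Prime).ne_zero⟩
  have : Fact (Ideal.absNorm v.asIdeal).Prime := ⟨hv⟩
  exact ThaineBook.thaine_of_core_sub_one (by omega) hζ φ hφ v hv hvp hne hζ.toInteger rfl
    (Core.thaine_core (by omega) hζ (ThaineBook.dvd_absNorm_sub_one hζ v hv hvp))

end Fermat.Agent.S14.Thaine
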