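import Mathlib

set_option autoImplicit false
set_option linter.unusedSectionVars false
set_option linter.style.haveILetI false

/-!
# Eigenspaces of the unit group of a cyclotomic field modulo `p`-th powers

For an odd prime `p`, `K` a `p`-th cyclotomic extension of `ℚ`, and `σ` a generator of
`Gal(K/ℚ)`: every eigenspace of `σ` on `E / (μ · E ^ p)` (units modulo roots of unity and
`p`-th powers) has dimension at most one.  See `exists_eq_zpow_mul_pow_mul_torsion`.

The proof computes the characteristic polynomial of `σ` on the lattice `E / μ`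
(it is `1 + X + ... + X ^ (m - 1)`, `m = (p - 1) / 2`) using Cayley-Hamilton and a
Minkowski unit, and then reduces modulo `p`.
-/

namespace Fermat.Agent.S14.UnitEigen

open NumberField NumberField.Units NumberField.InfinitePlace Polynomial Finset

variable {K : Type*} [Field K] [NumberField K]

/-! ### The Galois action on units -/

/-- The action of a field automorphism on the unit group of the ring of integers. -/
noncomputable def unitsMap (σ : K ≃ₐ[ℚ] K) : (𝓞 K)ˣ →* (𝓞 K)ˣ :=
  Units.map ((RingOfIntegers.mapRingEquiv σ.toRingEquiv : 𝓞 K →+* 𝓞 K) : 𝓞 K →* 𝓞 K)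

@[simp]
theorem coe_unitsMap (σ : K ≃ₐ[ℚ] K) (u : (𝓞 K)ˣ) :
    (((unitsMap σ u : (𝓞 K)ˣ) : 𝓞 K) : K) = σ ((u : 𝓞 K) : K) := rfl

theorem unitsMap_one (u : (𝓞 K)ˣ) : unitsMap (1 : K ≃ₐ[ℚ] K) u = u := by
  apply Units.ext
  apply RingOfIntegers.ext
  simp

theorem unitsMap_mul (σ τ : K ≃ₐ[ℚ] K) (u : (𝓞 K)ˣ) :
    unitsMap (σ * τ) u = unitsMap σ (unitsMap τ u) := by
  apply Units.ext
  apply RingOfIntegers.ext
  simp

theorem unitsMap_mem_torsion (σ : K ≃ₐ[ℚ] K) {u : (𝓞 K)ˣ} (hu : u ∈ torsion K) :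
    unitsMap σ u ∈ torsion K := by
  rw [torsion, CommGroup.mem_torsion] at hu ⊢
  exact (unitsMap σ).isOfFinOrder hu

/-! ### A general lemma on additive maps out of `Additive G` -/

theorem map_ofMul_prod_zpow {G A ι : Type*} [CommGroup G] [AddCommGroup A]
    (f : Additive G →+ A) (s : Finset ι) (x : ι → G) (n : ι → ℤ) :
    f (Additive.ofMul (∏ i ∈ s, x i ^ n i)) = ∑ i ∈ s, n i • f (Additive.ofMul (x i)) := by
  rw [ofMul_prod, map_sum]
  refine Finset.sum_congr rfl fun i _ => ?_
  rw [ofMul_zpow, map_zsmul]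

/-! ### Exponent vectors with respect to a fundamental system of units -/

variable (K) in
/-- The exponent vector of a unit with respect to Mathlib's fundamental system of units. -/
noncomputable def expo (u : (𝓞 K)ˣ) : Fin (rank K) → ℤ :=
  (exist_unique_eq_mul_prod K u).choose.2

theorem expo_spec (u : (𝓞 K)ˣ) :
    ∃ t : (𝓞 K)ˣ, t ∈ torsion K ∧ u = t * ∏ i, fundSystem K i ^ expo K u i :=
  ⟨_, (exist_unique_eq_mul_prod K u).choose.1.2, (exist_unique_eq_mul_prod K u).choose_spec.1⟩

theorem expo_eq {u t : (𝓞 K)ˣ} (ht : t ∈ torsion K) {f : Fin (rank K) → ℤ}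
    (h : u = t * ∏ i, fundSystem K i ^ f i) : expo K u = f := by
  have h2 := (exist_unique_eq_mul_prod K u).choose_spec.2 (⟨⟨t, ht⟩, f⟩) h
  exact (congrArg Prod.snd h2).symm

theorem expo_mul (u v : (𝓞 K)ˣ) : expo K (u * v) = expo K u + expo K v := by
  obtain ⟨t, ht, hu⟩ := expo_spec u
  obtain ⟨s, hs, hv⟩ := expo_spec v
  refine expo_eq (mul_mem ht hs) ?_
  conv_lhs => rw [hu, hv]
  simp only [Pi.add_apply, zpow_add, Finset.prod_mul_distrib]
  exact mul_mul_mul_comm _ _ _ _

theorem expo_of_mem_torsion {t : (𝓞 K)ˣ} (ht : t ∈ torsion K) : expo K t = 0 :=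
  expo_eq ht (by simp)

theorem expo_eq_zero_iff {u : (𝓞 K)ˣ} : expo K u = 0 ↔ u ∈ torsion K := by
  constructor
  · intro h
    obtain ⟨t, ht, hu⟩ := expo_spec u
    rw [h] at hu
    simp only [Pi.zero_apply, zpow_zero, Finset.prod_const_one, mul_one] at hu
    rw [hu]
    exact ht
  · exact expo_of_mem_torsion

/-- The exponent vector as an additive homomorphism. -/
noncomputable def expoHom : Additive (𝓞 K)ˣ →+ (Fin (rank K) → ℤ) :=
  AddMonoidHom.mk' (fun u => expo K (Additive.toMul u)) (fun _ _ => expo_mul _ _)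

theorem expoHom_apply (u : (𝓞 K)ˣ) : expoHom (Additive.ofMul u) = expo K u := rfl

theorem expo_prod_zpow {ι : Type*} (s : Finset ι) (x : ι → (𝓞 K)ˣ) (n : ι → ℤ) :
    expo K (∏ i ∈ s, x i ^ n i) = ∑ i ∈ s, n i • expo K (x i) :=
  map_ofMul_prod_zpow expoHom s x n

theorem expo_zpow (u : (𝓞 K)ˣ) (n : ℤ) : expo K (u ^ n) = n • expo K u :=
  map_zsmul expoHom n (Additive.ofMul u)

theorem expo_pow (u : (𝓞 K)ˣ) (n : ℕ) : expo K (u ^ n) = n • expo K u :=
  map_nsmul expoHom n (Additive.ofMul u)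

theorem expo_inv (u : (𝓞 K)ˣ) : expo K u⁻¹ = - expo K u :=
  map_neg expoHom (Additive.ofMul u)

/-- A unit whose exponent vector is divisible by `p` is a `p`-th power times a root of unity. -/
theorem exists_eq_pow_mul_of_dvd_expo {p : ℕ} {u : (𝓞 K)ˣ} (h : ∀ i, (p : ℤ) ∣ expo K u i) :
    ∃ v t : (𝓞 K)ˣ, t ∈ torsion K ∧ u = v ^ p * t := by
  choose f hf using h
  obtain ⟨t, ht, hu⟩ := expo_spec u
  refine ⟨∏ i, fundSystem K i ^ f i, t, ht, ?_⟩
  rw [mul_comm, ← Finset.prod_pow]
  conv_lhs => rw [hu]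
  congr 1
  refine Finset.prod_congr rfl fun i _ => ?_
  rw [hf i, mul_comm, zpow_mul, zpow_natCast]

/-! ### The matrix of the Galois action -/

/-- The matrix of `σ` acting on units modulo torsion, in the fundamental system. -/
noncomputable def actMatrix (σ : K ≃ₐ[ℚ] K) : Matrix (Fin (rank K)) (Fin (rank K)) ℤ :=
  Matrix.of fun i j => expo K (unitsMap σ (fundSystem K j)) i

theorem expo_unitsMap (σ : K ≃ₐ[ℚ] K) (u : (𝓞 K)ˣ) :
    expo K (unitsMap σ u) = (actMatrix σ).mulVec (expo K u) := by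
  obtain ⟨t, ht, hu⟩ := expo_spec u
  conv_lhs => rw [hu]
  rw [map_mul, map_prod, expo_mul, expo_of_mem_torsion (unitsMap_mem_torsion σ ht), zero_add]
  simp_rw [map_zpow]
  rw [expo_prod_zpow]
  ext i
  simp [Matrix.mulVec, dotProduct, actMatrix, mul_comm]

theorem expo_unitsMap_pow (σ : K ≃ₐ[ℚ] K) (n : ℕ) (u : (𝓞 K)ˣ) :
    expo K (unitsMap (σ ^ n) u) = ((actMatrix σ) ^ n).mulVec (expo K u) := by
  induction n with
  | zero => simp [unitsMap_one]
  | succ n ih =>
    rw [pow_succ', unitsMap_mul, expo_unitsMap, ih, Matrix.mulVec_mulVec, ← pow_succ']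

/-- Cayley-Hamilton for the Galois action on units. -/
theorem relation_mem_torsion (σ : K ≃ₐ[ℚ] K) (u : (𝓞 K)ˣ) :
    ∏ i ∈ range ((actMatrix σ).charpoly.natDegree + 1),
      unitsMap (σ ^ i) u ^ ((actMatrix σ).charpoly.coeff i) ∈ torsion K := by
  rw [← expo_eq_zero_iff, expo_prod_zpow]
  simp_rw [expo_unitsMap_pow]
  have h := Matrix.aeval_self_charpoly (actMatrix σ)
  rw [Polynomial.aeval_eq_sum_range] at h
  have h2 := congrArg (fun M => M.mulVec (expo K u)) h
  simp only [Matrix.zero_mulVec, Matrix.sum_mulVec, Matrix.smul_mulVec] at h2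
  exact h2

/-! ### Logarithms of absolute values -/

/-- `u ↦ log (w u)` as an additive homomorphism. -/
noncomputable def logAt (w : InfinitePlace K) : Additive (𝓞 K)ˣ →+ ℝ :=
  AddMonoidHom.mk' (fun u => Real.log (w (((Additive.toMul u : (𝓞 K)ˣ) : 𝓞 K) : K))) (by
    intro u v
    simp only [toMul_add, Units.val_mul, map_mul]
    rw [Real.log_mul]
    · exact (map_ne_zero w).mpr (coe_ne_zero _)
    · exact (map_ne_zero w).mpr (coe_ne_zero _))

theorem logAt_apply (w : InfinitePlace K) (u : (𝓞 K)ˣ) :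
    logAt w (Additive.ofMul u) = Real.log (w ((u : 𝓞 K) : K)) := rfl

theorem logAt_of_mem_torsion (w : InfinitePlace K) {t : (𝓞 K)ˣ} (ht : t ∈ torsion K) :
    logAt w (Additive.ofMul t) = 0 := by
  rw [logAt_apply, (mem_torsion K).mp ht w, Real.log_one]

/-! ### Places twisted by powers of `σ` -/

theorem modEq_of_mk_eq (φ : K →+* ℂ) (σ : K ≃ₐ[ℚ] K) {m : ℕ} (hord : orderOf σ = 2 * m)
    {a b : ℕ}
    (h : InfinitePlace.mk (φ.comp (σ ^ a).toRingEquiv.toRingHom) =
      InfinitePlace.mk (φ.comp (σ ^ b).toRingEquiv.toRingHom)) : a ≡ b [MOD m] := by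
  rw [InfinitePlace.mk_eq_iff] at h
  rcases h with h | h
  · have h1 : σ ^ a = σ ^ b := by
      ext x
      exact φ.injective (by simpa using RingHom.congr_fun h x)
    rw [pow_eq_pow_iff_modEq, hord] at h1
    exact h1.of_mul_left 2
  · have h' : ∀ x, (starRingEnd ℂ) (φ ((σ ^ a) x)) = φ ((σ ^ b) x) := fun x => by
      simpa using RingHom.congr_fun h x
    have h1 : σ ^ (2 * a) = σ ^ (2 * b) := by
      ext x
      apply φ.injective
      have e1 := h' ((σ ^ a) x)
      have e2 := h' ((σ ^ b) x)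
      have e3 : (σ ^ b) ((σ ^ a) x) = (σ ^ a) ((σ ^ b) x) := by
        rw [← AlgEquiv.mul_apply, ← AlgEquiv.mul_apply, ← pow_add, ← pow_add, add_comm]
      rw [two_mul, two_mul, pow_add, pow_add, AlgEquiv.mul_apply, AlgEquiv.mul_apply]
      rw [← e2, ← e3, ← e1, Complex.conj_conj]
    rw [pow_eq_pow_iff_modEq, hord] at h1
    exact Nat.ModEq.mul_left_cancel' two_ne_zero h1

/-! ### A maximum principle -/

theorem const_of_relations {m : ℕ} (g : ℕ → ℝ) (b : ℕ → ℕ → ℝ)
    (hneg : ∀ i₀ < m, ∀ i < m, i ≠ i₀ → b i₀ i < 0)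
    (hsum : ∀ i₀ < m, ∑ i ∈ range m, b i₀ i = 0)
    (hrel : ∀ i₀ < m, ∑ i ∈ range m, g i * b i₀ i = 0) :
    ∀ i < m, ∀ j < m, g i = g j := by
  rcases Nat.eq_zero_or_pos m with rfl | hm
  · intro i hi
    exact absurd hi (Nat.not_lt_zero _)
  obtain ⟨i₀, hi₀, hmax⟩ := Finset.exists_max_image (range m) g ⟨0, mem_range.mpr hm⟩
  have hi₀' := mem_range.mp hi₀
  have key : ∀ i < m, g i = g i₀ := by
    have hs : ∑ i ∈ range m, (g i₀ - g i) * (-(b i₀ i)) = 0 := by
      have : ∑ i ∈ range m, (g i₀ - g i) * (-(b i₀ i))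
          = - (g i₀ * ∑ i ∈ range m, b i₀ i) + ∑ i ∈ range m, g i * b i₀ i := by
        rw [Finset.mul_sum, ← Finset.sum_neg_distrib, ← Finset.sum_add_distrib]
        exact Finset.sum_congr rfl (fun i _ => by ring)
      rw [this, hsum i₀ hi₀', hrel i₀ hi₀']
      ring
    have hnn : ∀ i ∈ range m, 0 ≤ (g i₀ - g i) * (-(b i₀ i)) := by
      intro i hi
      by_cases hii : i = i₀
      · subst hii
        simp
      · exact mul_nonneg (sub_nonneg.mpr (hmax i hi))
          (neg_nonneg.mpr (hneg i₀ hi₀' i (mem_range.mp hi) hii).le)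
    have hz := (Finset.sum_eq_zero_iff_of_nonneg hnn).mp hs
    intro i hi
    by_cases hii : i = i₀
    · rw [hii]
    · have h0 := hz i (mem_range.mpr hi)
      have hb := hneg i₀ hi₀' i hi hii
      rcases mul_eq_zero.mp h0 with h | h
      · linarith
      · linarith
  intro i hi j hj
  rw [key i hi, key j hj]

/-! ### The characteristic polynomial of the Galois action on units -/

/-- If `σ` has order `2 * m` in `Gal(K/ℚ)`, `K` is totally complex with `m` infinite places,
then the characteristic polynomial of `σ` on units modulo torsion is `1 + X + ... + X ^ (m - 1)`. -/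
theorem charpoly_actMatrix [IsTotallyComplex K] (σ : K ≃ₐ[ℚ] K) {m : ℕ} (hm : 0 < m)
    (hord : orderOf σ = 2 * m) (hcard : Fintype.card (InfinitePlace K) = m) :
    (actMatrix σ).charpoly = ∑ i ∈ range m, (X : ℤ[X]) ^ i := by
  classical
  have hdeg : (actMatrix σ).charpoly.natDegree = m - 1 := by
    rw [Matrix.charpoly_natDegree_eq_dim, Fintype.card_fin, NumberField.Units.rank, hcard]
  have hmonic : (actMatrix σ).charpoly.Monic := Matrix.charpoly_monic _
  obtain ⟨φ₀⟩ : Nonempty (K →+* ℂ) := inferInstance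
  obtain ⟨u₀, hu₀⟩ := dirichletUnitTheorem.exists_unit K (InfinitePlace.mk φ₀)
  have hW0 : InfinitePlace.mk φ₀ =
      InfinitePlace.mk (φ₀.comp (σ ^ 0).toRingEquiv.toRingHom) := by
    congr 1
  have hall : ∀ i < m, ∀ j < m, (((actMatrix σ).charpoly.coeff i : ℤ) : ℝ)
      = (((actMatrix σ).charpoly.coeff j : ℤ) : ℝ) := by
    apply const_of_relations (fun i => (((actMatrix σ).charpoly.coeff i : ℤ) : ℝ))
      (fun i₀ i => Real.log (InfinitePlace.mk
        (φ₀.comp (σ ^ (2 * m - i₀ + i)).toRingEquiv.toRingHom) ((u₀ : 𝓞 K) : K)))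
    · -- negativity off the diagonal
      intro i₀ hi₀ i hi hne
      apply hu₀
      intro h
      rw [hW0] at h
      have h1 := modEq_of_mk_eq φ₀ σ hord h
      rw [Nat.modEq_zero_iff_dvd] at h1
      obtain ⟨c, hc⟩ := h1
      have hc1 : 1 < c := by
        by_contra hcon
        have : c ≤ 1 := by omega
        have : m * c ≤ m * 1 := Nat.mul_le_mul_left m this
        omega
      have hc3 : c < 3 := by
        by_contra hcon
        have : 3 ≤ c := by omega
        have : m * 3 ≤ m * c := Nat.mul_le_mul_left m this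
        omega
      have hc2 : c = 2 := by omega
      subst hc2
      omega
    · -- the sum over a full set of places vanishes
      intro i₀ hi₀
      have hinj : Set.InjOn (fun i : ℕ => InfinitePlace.mk
          (φ₀.comp (σ ^ (2 * m - i₀ + i)).toRingEquiv.toRingHom)) (range m : Finset ℕ) := by
        intro i hi j hj hij
        have h1 := modEq_of_mk_eq φ₀ σ hord hij
        have h2 := Nat.ModEq.add_left_cancel' _ h1
        exact Nat.ModEq.eq_of_lt_of_lt h2 (mem_range.mp hi) (mem_range.mp hj)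
      have himg : (range m).image (fun i : ℕ => InfinitePlace.mk
          (φ₀.comp (σ ^ (2 * m - i₀ + i)).toRingEquiv.toRingHom)) = Finset.univ := by
        apply Finset.eq_univ_of_card
        rw [Finset.card_image_of_injOn hinj, Finset.card_range, hcard]
      have hprod := sum_mult_mul_log u₀
      simp_rw [IsTotallyComplex.mult_eq] at hprod
      rw [← Finset.mul_sum] at hprod
      have hprod' : ∑ w : InfinitePlace K, Real.log (w ((u₀ : 𝓞 K) : K)) = 0 := by
        rcases mul_eq_zero.mp hprod with h | h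
        · norm_num at h
        · exact h
      rw [← hprod', ← himg, Finset.sum_image hinj]
    · -- the Cayley-Hamilton relation, evaluated at a twisted place
      intro i₀ hi₀
      have hrel := relation_mem_torsion σ u₀
      rw [hdeg, Nat.sub_add_cancel hm] at hrel
      have h0 := logAt_of_mem_torsion
        (InfinitePlace.mk (φ₀.comp (σ ^ (2 * m - i₀)).toRingEquiv.toRingHom)) hrel
      rw [map_ofMul_prod_zpow] at h0
      rw [← h0]
      refine Finset.sum_congr rfl fun i _ => ?_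
      rw [logAt_apply, zsmul_eq_mul]
      congr 2
      simp only [InfinitePlace.apply, RingHom.comp_apply, coe_unitsMap, pow_add]
      rfl
  have hcoeff : ∀ i < m, (actMatrix σ).charpoly.coeff i = 1 := by
    intro i hi
    have h1 := hall i hi (m - 1) (by omega)
    have h2 : (actMatrix σ).charpoly.coeff (m - 1) = 1 := by
      rw [← hdeg]
      exact hmonic.coeff_natDegree
    rw [h2] at h1
    exact_mod_cast h1
  ext n
  rw [Polynomial.finsetSum_coeff]
  simp only [Polynomial.coeff_X_pow]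
  by_cases hn : n < m
  · rw [hcoeff n hn, Finset.sum_ite_eq (range m) n (fun _ => (1 : ℤ)), if_pos (mem_range.mpr hn)]
  · rw [Polynomial.coeff_eq_zero_of_natDegree_lt (by omega),
      Finset.sum_ite_eq (range m) n (fun _ => (1 : ℤ)), if_neg (by simpa using hn)]

/-! ### Reduction modulo `p` -/

/-- The reduction modulo `p` of the exponent vector. -/
noncomputable def expoBar (p : ℕ) (u : (𝓞 K)ˣ) : Fin (rank K) → ZMod p :=
  fun i => ((expo K u i : ℤ) : ZMod p)

theorem expoBar_eq_zero_iff {p : ℕ} {u : (𝓞 K)ˣ} :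
    expoBar p u = 0 ↔ ∀ i, (p : ℤ) ∣ expo K u i := by
  rw [funext_iff]
  exact forall_congr' fun i => ZMod.intCast_zmod_eq_zero_iff_dvd _ _

theorem mulVec_expoBar (p : ℕ) (σ : K ≃ₐ[ℚ] K) (u : (𝓞 K)ˣ) :
    ((actMatrix σ).map (Int.castRingHom (ZMod p))).mulVec (expoBar p u)
      = expoBar p (unitsMap σ u) := by
  ext i
  simp only [expoBar, expo_unitsMap, Matrix.mulVec, dotProduct, Matrix.map_apply,
    Int.coe_castRingHom]
  push_cast
  rfl

/-- Every eigenspace of `σ` on units modulo torsion and `p`-th powers is at most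
one-dimensional. -/
theorem finrank_eigenspace_le_one (p : ℕ) [Fact p.Prime] [IsTotallyComplex K]
    (σ : K ≃ₐ[ℚ] K) {m : ℕ} (hm : 0 < m) (hord : orderOf σ = 2 * m)
    (hcard : Fintype.card (InfinitePlace K) = m) (hpm : ¬ p ∣ m) (μ : ZMod p) :
    Module.finrank (ZMod p) (Module.End.eigenspace
      (Matrix.toLin' ((actMatrix σ).map (Int.castRingHom (ZMod p)))) μ) ≤ 1 := by
  refine (LinearMap.finrank_eigenspace_le _ μ).trans ?_
  rw [Matrix.charpoly_toLin', Matrix.charpoly_map, charpoly_actMatrix σ hm hord hcard]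
  have h1 : (X ^ m - C 1 : (ZMod p)[X]).Separable :=
    Polynomial.separable_X_pow_sub_C' p m (1 : ZMod p) hpm one_ne_zero
  have h2 : (∑ i ∈ range m, (X : ℤ[X]) ^ i).map (Int.castRingHom (ZMod p)) * (X - 1)
      = X ^ m - C 1 := by
    rw [Polynomial.map_sum]
    simp only [Polynomial.map_pow, Polynomial.map_X, map_one]
    exact geom_sum_mul X m
  rw [← h2] at h1
  exact Polynomial.rootMultiplicity_le_one_of_separable h1.of_mul_left μ

/-- **Eigenspaces of units are at most one-dimensional** (general form).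
If `σ` has order `2 * m`, `K` is totally complex with `m` infinite places and `p ∤ m`, then two
units `u`, `c` that are both `σ`-eigenvectors of the same eigenvalue `k` modulo `p`-th powers and
roots of unity are dependent: if `c` is not a `p`-th power times a root of unity, then `u` is a
power of `c` times a `p`-th power times a root of unity. -/
theorem exists_eq_zpow_mul_pow_mul_torsion_aux (p : ℕ) [Fact p.Prime] [IsTotallyComplex K]
    (σ : K ≃ₐ[ℚ] K) {m : ℕ} (hm : 0 < m) (hord : orderOf σ = 2 * m)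
    (hcard : Fintype.card (InfinitePlace K) = m) (hpm : ¬ p ∣ m) (k : ℤ) (u c : (𝓞 K)ˣ)
    (hu : ∃ v t : (𝓞 K)ˣ, t ∈ torsion K ∧ unitsMap σ u = u ^ k * v ^ p * t)
    (hc : ∃ v t : (𝓞 K)ˣ, t ∈ torsion K ∧ unitsMap σ c = c ^ k * v ^ p * t)
    (hc' : ¬ ∃ v t : (𝓞 K)ˣ, t ∈ torsion K ∧ c = v ^ p * t) :
    ∃ (j : ℤ) (v t : (𝓞 K)ˣ), t ∈ torsion K ∧ u = c ^ j * v ^ p * t := by
  classical
  set A := (actMatrix σ).map (Int.castRingHom (ZMod p)) with hA
  -- eigenvector property
  have heig : ∀ x : (𝓞 K)ˣ, (∃ v t : (𝓞 K)ˣ, t ∈ torsion K ∧ unitsMap σ x = x ^ k * v ^ p * t) →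
      expoBar p x ∈ Module.End.eigenspace (Matrix.toLin' A) (k : ZMod p) := by
    rintro x ⟨v, t, ht, hx⟩
    rw [Module.End.mem_eigenspace_iff, Matrix.toLin'_apply, hA, mulVec_expoBar, hx]
    ext i
    simp only [expoBar, expo_mul, expo_zpow, expo_pow, expo_of_mem_torsion ht, Pi.add_apply,
      Pi.smul_apply, Pi.zero_apply, add_zero, smul_eq_mul, nsmul_eq_mul]
    push_cast
    simp
  have hdim := finrank_eigenspace_le_one p σ hm hord hcard hpm (k : ZMod p)
  rw [finrank_le_one_iff] at hdim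
  obtain ⟨w, hw⟩ := hdim
  obtain ⟨a, ha⟩ := hw ⟨expoBar p u, heig u hu⟩
  obtain ⟨b, hb⟩ := hw ⟨expoBar p c, heig c hc⟩
  have ha' : a • (w : Fin (rank K) → ZMod p) = expoBar p u := congrArg Subtype.val ha
  have hb' : b • (w : Fin (rank K) → ZMod p) = expoBar p c := congrArg Subtype.val hb
  have hcne : expoBar p c ≠ 0 := by
    intro h0
    exact hc' (exists_eq_pow_mul_of_dvd_expo (expoBar_eq_zero_iff.mp h0))
  have hb0 : b ≠ 0 := by
    rintro rfl
    rw [zero_smul] at hb'
    exact hcne hb'.symm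
  -- `expoBar u = (a / b) • expoBar c`
  obtain ⟨j, hj⟩ := ZMod.intCast_surjective (a * b⁻¹)
  have hkey : expoBar p (u * (c ^ j)⁻¹) = 0 := by
    ext i
    have h1 := congrFun ha' i
    have h2 := congrFun hb' i
    simp only [Pi.smul_apply, smul_eq_mul] at h1 h2
    simp only [expoBar, expo_mul, expo_inv, expo_zpow, Pi.add_apply, Pi.neg_apply,
      Pi.smul_apply, smul_eq_mul, Pi.zero_apply] at h1 h2 ⊢
    push_cast
    rw [hj, ← h1, ← h2]
    field_simp
    ring
  obtain ⟨v, t, ht, hvt⟩ := exists_eq_pow_mul_of_dvd_expo (expoBar_eq_zero_iff.mp hkey)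
  refine ⟨j, v, t, ht, ?_⟩
  rw [mul_assoc, ← hvt, mul_comm, inv_mul_cancel_right]

/-! ### The cyclotomic case -/

/-- **Eigenspaces of cyclotomic units modulo `p`-th powers are at most one-dimensional.**
Let `p` be an odd prime, `K` the `p`-th cyclotomic field and `σ` a generator of `Gal(K/ℚ)`
(an element of order `p - 1`).  If two units `u`, `c` are both `σ`-eigenvectors for the same
eigenvalue `k` modulo `p`-th powers and roots of unity, and `c` is not a `p`-th power times a
root of unity, then `u = c ^ j * v ^ p * t` with `t` a root of unity. -/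
theorem exists_eq_zpow_mul_pow_mul_torsion (p : ℕ) [Fact p.Prime] (hp2 : p ≠ 2)
    [IsCyclotomicExtension {p} ℚ K] (σ : K ≃ₐ[ℚ] K) (hσ : orderOf σ = p - 1) (k : ℤ)
    (u c : (𝓞 K)ˣ)
    (hu : ∃ v t : (𝓞 K)ˣ, t ∈ torsion K ∧ unitsMap σ u = u ^ k * v ^ p * t)
    (hc : ∃ v t : (𝓞 K)ˣ, t ∈ torsion K ∧ unitsMap σ c = c ^ k * v ^ p * t)
    (hc' : ¬ ∃ v t : (𝓞 K)ˣ, t ∈ torsion K ∧ c = v ^ p * t) :
    ∃ (j : ℤ) (v t : (𝓞 K)ˣ), t ∈ torsion K ∧ u = c ^ j * v ^ p * t := by
  have hp := (Fact.out : p.Prime)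
  have hp3 : 2 < p := lt_of_le_of_ne hp.two_le (Ne.symm hp2)
  have hodd : p % 2 = 1 := by
    rcases hp.eq_two_or_odd with h | h
    · exact absurd h hp2
    · exact h
  haveI : NeZero p := ⟨hp.ne_zero⟩
  haveI : IsTotallyComplex K := IsCyclotomicExtension.Rat.isTotallyComplex K hp3
  have hcard : Fintype.card (InfinitePlace K) = (p - 1) / 2 := by
    rw [card_eq_nrRealPlaces_add_nrComplexPlaces, IsCyclotomicExtension.Rat.nrRealPlaces_eq_zero K hp3,
      IsCyclotomicExtension.Rat.nrComplexPlaces_eq_totient_div_two p K, Nat.totient_prime hp,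
      zero_add]
  have hm : 0 < (p - 1) / 2 := by omega
  have hord : orderOf σ = 2 * ((p - 1) / 2) := by
    rw [hσ]
    omega
  have hpm : ¬ p ∣ (p - 1) / 2 := by
    intro h
    have := Nat.le_of_dvd hm h
    omega
  exact exists_eq_zpow_mul_pow_mul_torsion_aux p σ hm hord hcard hpm k u c hu hc hc'

end Fermat.Agent.S14.UnitEigen
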