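import Fermat.Agent.S14.Defs
import Fermat.Agent.S14.C2
import Fermat.Agent.S14.UnitEigen
import Fermat.Agent.S14.Units.Torsion

set_option autoImplicit false

open scoped NumberField nonZeroDivisors
open IsDedekindDomain Fermat.Agent.S14.Defs

namespace Fermat.Agent.S14.Units

section LocalPowLemmas

variable {p : ℕ} {K : Type*} [Field K] [NumberField K]

theorem exp_neg_three_lt_one : (WithZero.exp (-3 : ℤ) : WithZero (Multiplicative ℤ)) < 1 := by
  rw [← WithZero.exp_zero]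
  exact WithZero.exp_lt_exp.mpr (by norm_num)

theorem val_eq_one_of_sub_one_le (v : HeightOneSpectrum (𝓞 K)) {y : K}
    (h : v.valuation K (y - 1) ≤ WithZero.exp (-3 : ℤ)) : v.valuation K y = 1 := by
  have h1 : v.valuation K (y - 1) < 1 := lt_of_le_of_lt h exp_neg_three_lt_one
  have h2 := (v.valuation K).map_one_add_of_lt h1
  rwa [add_sub_cancel] at h2

theorem localPow_mul {α β : K} (hα : LocalPow p α) (hβ : LocalPow p β) :
    LocalPow p (α * β) := by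
  intro v hv
  obtain ⟨x, hx⟩ := hα v hv
  obtain ⟨y, hy⟩ := hβ v hv
  refine ⟨x * y, ?_⟩
  have e : α * β * (x * y) ^ p - 1 = (α * x ^ p - 1) * (β * y ^ p) + (β * y ^ p - 1) := by ring
  rw [e]
  apply Valuation.map_add_le
  · rw [map_mul, val_eq_one_of_sub_one_le v hy, mul_one]; exact hx
  · exact hy

theorem localPow_one : LocalPow p (1 : K) := by
  intro v _
  exact ⟨1, by simp⟩

theorem localPow_pow {α : K} (hα : LocalPow p α) (n : ℕ) : LocalPow p (α ^ n) := by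
  induction n with
  | zero => simpa using (localPow_one (p := p) (K := K))
  | succ n ih => rw [pow_succ]; exact localPow_mul ih hα

theorem localPow_of_mul_pow {α a : K} (h : LocalPow p (α * a ^ p)) : LocalPow p α := by
  intro v hv
  obtain ⟨x, hx⟩ := h v hv
  refine ⟨a * x, ?_⟩
  have e : α * (a * x) ^ p - 1 = α * a ^ p * x ^ p - 1 := by ring
  rw [e]; exact hx

theorem localPow_pow_self {a : K} (ha : a ≠ 0) : LocalPow p (a ^ p) := by
  intro v _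
  refine ⟨a⁻¹, ?_⟩
  have e : a ^ p * a⁻¹ ^ p - 1 = 0 := by
    rw [← mul_pow, mul_inv_cancel₀ ha, one_pow, sub_self]
  rw [e, map_zero]; exact zero_le

/-- If `m` is prime to `p` and `w ^ m` is locally a `p`-th power, so is `w`. -/
theorem localPow_of_pow {p : ℕ} (hp : p.Prime) {w : K} {m : ℕ} (hm : ¬ p ∣ m)
    (hL : LocalPow p (w ^ m)) : LocalPow p w := by
  have hcop : Nat.Coprime m p := ((Nat.Prime.coprime_iff_not_dvd hp).mpr hm).symm
  obtain ⟨a, -, ha⟩ := Nat.exists_mul_mod_eq_one_of_coprime hcop hp.one_lt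
  obtain ⟨b, hab⟩ : ∃ b, m * a = 1 + p * b := ⟨m * a / p, by
    have := Nat.div_add_mod (m * a) p
    omega⟩
  have h3 : LocalPow p ((w ^ m) ^ a) := localPow_pow hL a
  have h5 : (w ^ m) ^ a = w * (w ^ b) ^ p := by
    rw [← pow_mul, hab, pow_add, pow_one, ← pow_mul, mul_comm p]
  rw [h5] at h3
  exact localPow_of_mul_pow h3

end LocalPowLemmas

/-- In a commutative group, if `u ^ j` is a `p`-th power with `j` prime to `p`, then `u` is a
`p`-th power. -/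
theorem exists_pow_eq_of_pow_eq_pow {G : Type*} [CommGroup G] {p j : ℕ} (hp : p.Prime)
    (hj : ¬ p ∣ j) {u δ : G} (h : u ^ j = δ ^ p) : ∃ γ : G, u = γ ^ p := by
  have hcop : Nat.Coprime j p := ((Nat.Prime.coprime_iff_not_dvd hp).mpr hj).symm
  have h1 : (1 : ℤ) = (j : ℤ) * Nat.gcdA j p + (p : ℤ) * Nat.gcdB j p := by
    have h2 := Nat.gcd_eq_gcd_ab j p
    rw [hcop.gcd_eq_one] at h2
    exact_mod_cast h2
  refine ⟨δ ^ (Nat.gcdA j p) * u ^ (Nat.gcdB j p), ?_⟩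
  calc u = u ^ (1 : ℤ) := (zpow_one u).symm
    _ = u ^ ((j : ℤ) * Nat.gcdA j p + (p : ℤ) * Nat.gcdB j p) := by rw [← h1]
    _ = (u ^ j) ^ (Nat.gcdA j p) * (u ^ (Nat.gcdB j p)) ^ p := by
        rw [zpow_add, zpow_mul, zpow_natCast, mul_comm (p : ℤ), zpow_mul, zpow_natCast]
    _ = (δ ^ (Nat.gcdA j p) * u ^ (Nat.gcdB j p)) ^ p := by
        rw [h, mul_pow, ← zpow_natCast (δ ^ (Nat.gcdA j p)) p, ← zpow_natCast δ p,
          ← zpow_mul, ← zpow_mul, mul_comm (p : ℤ)]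

variable {p : ℕ} [Fact p.Prime] {K : Type} [Field K] [NumberField K]
  [IsCyclotomicExtension {p} ℚ K] {ζ : K}

/-- `Gal(ℚ(ζ_p)/ℚ)` has an element of order `p - 1`. -/
theorem exists_gal_orderOf_eq (p : ℕ) [Fact p.Prime] (K : Type) [Field K] [NumberField K]
    [IsCyclotomicExtension {p} ℚ K] : ∃ σ : K ≃ₐ[ℚ] K, orderOf σ = p - 1 := by
  have hpr : p.Prime := Fact.out
  have : NeZero p := ⟨hpr.ne_zero⟩
  have hirr : Irreducible (Polynomial.cyclotomic p ℚ) :=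
    Polynomial.cyclotomic.irreducible_rat hpr.pos
  let e : (K ≃ₐ[ℚ] K) ≃* (ZMod p)ˣ := IsCyclotomicExtension.autEquivPow K hirr
  obtain ⟨g, hg⟩ := IsCyclic.exists_generator (α := (ZMod p)ˣ)
  refine ⟨e.symm g, ?_⟩
  rw [MulEquiv.orderOf_eq, orderOf_eq_card_of_forall_mem_zpowers hg, Nat.card_eq_fintype_card,
    ZMod.card_units_eq_totient, Nat.totient_prime hpr]

/-- The `ω²`-eigenspace of `E/E^p` is at most one-dimensional: two eigen-units are
multiplicatively dependent modulo `p`-th powers.  (Glue of `UnitEigen` — the eigenspaces of a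
generator of the Galois group on units modulo `p`-th powers and torsion are at most
one-dimensional — with the torsion bookkeeping of `Units.Torsion`.) -/
theorem eigenspace_le_one (hp5 : 5 ≤ p) (hζ : IsPrimitiveRoot ζ p) (η₁ η₂ : (𝓞 K)ˣ)
    (h₁ : EigenElt p ζ ((η₁ : 𝓞 K) : K)) (h₂ : EigenElt p ζ ((η₂ : 𝓞 K) : K)) :
    ∃ (i j : ℕ) (ε : (𝓞 K)ˣ), (¬ (p ∣ i) ∨ ¬ (p ∣ j)) ∧ η₁ ^ i = η₂ ^ j * ε ^ p := by
  have hpr : p.Prime := Fact.out
  have hp2 : p ≠ 2 := by omega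
  obtain ⟨σ, hσord⟩ := exists_gal_orderOf_eq p K
  obtain ⟨n, -, hn⟩ := hζ.eq_pow_of_pow_eq_one (ξ := σ ζ)
    (by rw [← map_pow, hζ.pow_eq_one, map_one])
  refine Torsion.eigenspace_le_one_of hp2 hζ σ n hn.symm (UnitEigen.unitsMap σ)
    (fun u => UnitEigen.coe_unitsMap σ u) ?_ η₁ η₂ h₁ h₂
  intro u c hu hc
  by_cases hc' : ∃ v t : (𝓞 K)ˣ, t ∈ NumberField.Units.torsion K ∧ c = v ^ p * t
  · obtain ⟨v, t, ht, hvt⟩ := hc'
    refine ⟨0, 1, v⁻¹, t⁻¹, inv_mem ht, Or.inr (by simpa using hpr.one_lt.ne'), ?_⟩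
    rw [hvt, pow_zero, pow_one, inv_pow]
    simp [mul_comm]
  · obtain ⟨v₁, t₁, ht₁, hu'⟩ := hu
    obtain ⟨v₂, t₂, ht₂, hc''⟩ := hc
    obtain ⟨j, v, t, ht, huc⟩ := UnitEigen.exists_eq_zpow_mul_pow_mul_torsion p hp2 σ hσord
      ((n ^ 2 : ℕ) : ℤ) u c ⟨v₁, t₁, ht₁, hu'⟩ ⟨v₂, t₂, ht₂, hc''⟩ hc'
    have hp0 : (p : ℤ) ≠ 0 := by exact_mod_cast hpr.ne_zero
    have hj0 : 0 ≤ j % (p : ℤ) := Int.emod_nonneg j hp0
    refine ⟨1, (j % (p : ℤ)).toNat, c ^ (j / (p : ℤ)) * v, t, ht, Or.inl ?_, ?_⟩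
    · intro h
      exact hpr.one_lt.ne' (Nat.dvd_one.mp h)
    · rw [pow_one, huc, mul_pow, ← zpow_natCast (c ^ (j / (p : ℤ))) p, ← zpow_mul,
        ← zpow_natCast c (j % (p : ℤ)).toNat, Int.toNat_of_nonneg hj0, ← mul_assoc, ← zpow_add]
      have e : j % (p : ℤ) + j / (p : ℤ) * (p : ℤ) = j := by
        have := Int.emod_add_mul_ediv j (p : ℤ)
        linarith
      rw [e]

/-- PACKAGE U (unit case). An `ω²`-eigen-unit which is locally a `p`-th power at `(1-ζ)`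
(mod `π³`) is a `p`-th power. -/
theorem units_case (hp5 : 5 ≤ p) (hζ : IsPrimitiveRoot ζ p) (η : (𝓞 K)ˣ)
    (h2 : EigenElt p ζ ((η : 𝓞 K) : K)) (h4 : LocalPow p ((η : 𝓞 K) : K)) :
    ∃ ε : K, ((η : 𝓞 K) : K) = ε ^ p := by
  have hpp : p.Prime := Fact.out
  obtain ⟨u, hu⟩ := C2.c2_isUnit (p := p) (K := K) (by omega) hζ
  have hue : EigenElt p ζ ((u : 𝓞 K) : K) := by rw [hu]; exact C2.c2_eigen hp5 hζ
  have hnl : ¬ LocalPow p ((u : 𝓞 K) : K) := by rw [hu]; exact C2.c2_not_localPow hp5 hζ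
  obtain ⟨i, j, ε, hij, heq⟩ := eigenspace_le_one hp5 hζ η u h2 hue
  have heqK : ((η : 𝓞 K) : K) ^ i = ((u : 𝓞 K) : K) ^ j * ((ε : 𝓞 K) : K) ^ p := by
    have h := congrArg (fun x : (𝓞 K)ˣ => ((x : 𝓞 K) : K)) heq
    simpa using h
  have hε0 : ((ε : 𝓞 K) : K) ≠ 0 := by
    have : (ε : 𝓞 K) ≠ 0 := ε.ne_zero
    exact_mod_cast this
  have hη0 : ((η : 𝓞 K) : K) ≠ 0 := by
    have : (η : 𝓞 K) ≠ 0 := η.ne_zero
    exact_mod_cast this
  by_cases hi : p ∣ i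
  · have hj : ¬ p ∣ j := by tauto
    exfalso
    apply hnl
    apply localPow_of_pow hpp hj
    obtain ⟨i', rfl⟩ := hi
    have e : ((u : 𝓞 K) : K) ^ j = (((η : 𝓞 K) : K) ^ i' * (((ε : 𝓞 K) : K))⁻¹) ^ p := by
      rw [mul_pow, ← pow_mul, mul_comm i' p, heqK, inv_pow, mul_assoc,
        mul_inv_cancel₀ (pow_ne_zero _ hε0), mul_one]
    rw [e]
    exact localPow_pow_self (mul_ne_zero (pow_ne_zero _ hη0) (inv_ne_zero hε0))
  · by_cases hj : p ∣ j
    · obtain ⟨j', rfl⟩ := hj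
      have h' : η ^ i = (u ^ j' * ε) ^ p := by
        rw [heq, mul_pow, ← pow_mul, mul_comm j' p]
      obtain ⟨γ, hγ⟩ := exists_pow_eq_of_pow_eq_pow hpp hi h'
      exact ⟨((γ : 𝓞 K) : K), by rw [hγ]; simp⟩
    · exfalso
      apply hnl
      apply localPow_of_pow hpp hj
      have h6 : LocalPow p (((u : 𝓞 K) : K) ^ j * ((ε : 𝓞 K) : K) ^ p) := by
        rw [← heqK]; exact localPow_pow h4 i
      exact localPow_of_mul_pow h6

end Fermat.Agent.S14.Units
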