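import Fermat.Agent.S14.Defs
import Fermat.Agent.S14.C2
import Fermat.Agent.S14.Units
import Fermat.Agent.S14.ClassAlg
import Fermat.Agent.S14.Thaine
import Fermat.Agent.S14.Analytic
import Fermat.Agent.S14.PThree

set_option autoImplicit false

open scoped NumberField nonZeroDivisors
open IsDedekindDomain Fermat.Agent.S14.Defs

namespace Fermat.Agent.S14.Core

set_option linter.unusedSectionVars false

variable {p : ℕ} [Fact p.Prime] {K : Type} [Field K] [NumberField K]
  [IsCyclotomicExtension {p} ℚ K] {ζ : K}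

/-- Transfer of the eigen-property from `η * a^p` to `η`. -/
theorem eigenElt_of_mul_pow (η a : K) (ha : a ≠ 0) (h : EigenElt p ζ (η * a ^ p)) :
    EigenElt p ζ η := by
  intro σ n hn
  obtain ⟨β, hβ⟩ := h σ n hn
  have hσa : σ a ≠ 0 := by simpa using ha
  refine ⟨β * a ^ (n ^ 2) / σ a, ?_⟩
  have h1 : σ η * σ a ^ p = η ^ (n ^ 2) * (a ^ (n ^ 2)) ^ p * β ^ p := by
    have := hβ
    rw [map_mul, map_pow] at this
    rw [this]; ring
  have h2 : σ η = η ^ (n ^ 2) * (a ^ (n ^ 2)) ^ p * β ^ p / σ a ^ p := by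
    rw [← h1]; field_simp
  rw [h2, div_pow, mul_pow]; ring

/-- Transfer of the local condition from `η * a^p` to `η`. -/
theorem localPow_of_mul_pow (η a : K) (h : LocalPow p (η * a ^ p)) : LocalPow p η := by
  intro v hv
  obtain ⟨x, hx⟩ := h v hv
  refine ⟨a * x, ?_⟩
  have : η * (a * x) ^ p - 1 = η * a ^ p * x ^ p - 1 := by ring
  rw [this]; exact hx

/-- The arithmetic core for `p ≥ 5`. -/
theorem core_ge_five (hp5 : 5 ≤ p) (hζ : IsPrimitiveRoot ζ p) (α : K) (hα : α ≠ 0)
    (h2 : EigenElt p ζ α) (h3 : ValDivisible p α) (h4 : LocalPow p α) : ∃ γ : K, α = γ ^ p := by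
  rcases ClassAlg.class_dichotomy (by omega) hζ α hα h2 h3 with ⟨η, a, ha, rfl⟩ | ⟨φ, hφ, hφe⟩
  · have h2η : EigenElt p ζ ((η : 𝓞 K) : K) := eigenElt_of_mul_pow _ a ha h2
    have h4η : LocalPow p ((η : 𝓞 K) : K) := localPow_of_mul_pow _ a h4
    obtain ⟨ε, hε⟩ := Units.units_case hp5 hζ η h2η h4η
    exact ⟨ε * a, by rw [hε, mul_pow]⟩
  · exfalso
    obtain ⟨u, hu⟩ := C2.c2_isUnit (p := p) (by omega) hζ
    refine Analytic.analytic_core (by omega) hζ u ?_ φ hφ ?_
    · rintro ⟨t, ht⟩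
      apply C2.c2_not_localPow hp5 hζ
      intro v _
      have ht0 : t ≠ 0 := by
        rintro rfl
        have h0 : ((u : 𝓞 K) : K) = 0 := by
          rw [ht, zero_pow (Fact.out : p.Prime).ne_zero]
        have : (u : 𝓞 K) = 0 := by exact_mod_cast h0
        exact u.ne_zero this
      refine ⟨t⁻¹, ?_⟩
      have : c2 p ζ * t⁻¹ ^ p - 1 = 0 := by
        rw [← hu, ht, inv_pow, mul_inv_cancel₀ (pow_ne_zero _ ht0), sub_self]
      rw [this, map_zero]; exact zero_le'
    · intro v hv hvp hne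
      obtain ⟨t, c, hc, hmem⟩ := Thaine.thaine hp5 hζ φ hφe v hv hvp hne
      have hcu : c = (u : 𝓞 K) := by
        apply NumberField.RingOfIntegers.ext
        rw [hc, hu]
      exact ⟨t, hcu ▸ hmem⟩

/-- The arithmetic core: an `ω²`-eigen-element of `ℚ(ζ_p)` all of whose valuations are divisible
by `p` and which is locally a `p`-th power at `(1-ζ)` is a `p`-th power. -/
theorem core (hp : 3 ≤ p) (hζ : IsPrimitiveRoot ζ p) (α : K) (hα : α ≠ 0)
    (h2 : EigenElt p ζ α) (h3 : ValDivisible p α) (h4 : LocalPow p α) : ∃ γ : K, α = γ ^ p := by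
  by_cases hp5 : 5 ≤ p
  · exact core_ge_five hp5 hζ α hα h2 h3 h4
  · have hp3 : p = 3 := by
      have hpr : p.Prime := Fact.out
      have h4' : p ≠ 4 := by
        rintro rfl
        exact absurd hpr (by norm_num)
      omega
    subst hp3
    exact PThree.core_three hζ α hα h2 h3

end Fermat.Agent.S14.Core
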