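import Fermat.Agent.S14.Defs
import Fermat.Agent.S14.Wiring.Interface
import Fermat.Agent.S14.Wiring.Glue
import Fermat.Agent.S14.Wiring.Split

set_option autoImplicit false

open scoped NumberField nonZeroDivisors
open IsDedekindDomain Fermat.Agent.S14.Defs

namespace Fermat.Agent.S14.Wiring

/-- PACKAGE W (wiring). From a non-split admissible extension produce a Kummer generator
`α ∈ K = ℚ(ζ_p)` of the kernel field, with the four arithmetic properties. -/
theorem wiring {p : ℕ} [Fact p.Prime] (hp : 3 ≤ p) (V : Type) [AddCommGroup V] [Module (ZMod p) V]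
    [DistribMulAction (AlgebraicClosure ℚ ≃ₐ[ℚ] AlgebraicClosure ℚ) V]
    [SMulCommClass (AlgebraicClosure ℚ ≃ₐ[ℚ] AlgebraicClosure ℚ) (ZMod p) V]
    (C : Submodule (ZMod p) V) (hadm : ExtCitation.IsAdmissibleExtensionCts p V C)
    (hns : ¬ ExtCitation.SplitsGlobally C)
    (K : IntermediateField ℚ (AlgebraicClosure ℚ)) [NumberField K]
    [IsCyclotomicExtension {p} ℚ K] :
    ∃ (ζ α : K), IsPrimitiveRoot ζ p ∧ α ≠ 0 ∧ (¬ ∃ γ : K, α = γ ^ p) ∧
      EigenElt p ζ α ∧ ValDivisible p α ∧ LocalPow p α :=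
  Interface.wiring_of Glue.kummerGenStmt Glue.unramStmt (Split.atPStmt p) hp V C hadm hns K

end Fermat.Agent.S14.Wiring
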