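import Fermat.Agent.S14.Defs
import Fermat.Agent.S14.Base
import Fermat.Agent.S14.Wiring
import Fermat.Agent.S14.Core

set_option autoImplicit false

open scoped NumberField nonZeroDivisors
open IsDedekindDomain Fermat.Agent.S14.Defs

namespace Fermat.Agent.S14.Top

/-- Assembly: the statement S14 from the wiring and the arithmetic core. -/
theorem extVanishingCts {p : ℕ} [Fact p.Prime] (h3 : 3 ≤ p) :
    ExtCitation.ExtVanishingCts p := by
  intro V _ _ _ _ C hadm
  by_contra hns
  obtain ⟨K, hK1, hK2⟩ := Base.exists_cyclotomic_subfield p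
  obtain ⟨ζ, α, hζ, hα, hnp, h2, h3', h4⟩ := Wiring.wiring h3 V C hadm hns K
  exact hnp (Core.core h3 hζ α hα h2 h3' h4)

end Fermat.Agent.S14.Top
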