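import Mathlib
import Fermat.Agent.S14.KummerSplit

set_option autoImplicit false

open scoped NumberField nonZeroDivisors
open IsDedekindDomain Polynomial

namespace Fermat.Agent.S14.KummerSplit

variable {p : ℕ} [hp : Fact p.Prime] {K : Type} [Field K] [NumberField K]

/-- Sum form of `exists_kummer_field` (the interface of task N4): the field `M = K(c^(1/p))` is
fixed first; for every finite set `T` of primes `v ∤ p` of `K` modulo which `c` is a `p`-th power
there is a finite set `T'` of primes of `M` such that `∑_{w ∈ T'} f (N w) = p ∑_{v ∈ T} f (N v)`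
for every `f`. -/
theorem exists_kummer_field_sum {ζ : K} (hζ : IsPrimitiveRoot ζ p) (c : (𝓞 K)ˣ)
    (hc : ¬ ∃ t : K, ((c : 𝓞 K) : K) = t ^ p) :
    ∃ (M : Type) (_ : Field M) (_ : NumberField M),
      ∀ T : Finset (HeightOneSpectrum (𝓞 K)),
        (∀ v ∈ T, ((p : ℕ) : 𝓞 K) ∉ v.asIdeal ∧ ∃ t : 𝓞 K, (c : 𝓞 K) - t ^ p ∈ v.asIdeal) →
        ∃ T' : Finset (HeightOneSpectrum (𝓞 M)), ∀ f : ℕ → ℝ,
          ∑ w ∈ T', f (Ideal.absNorm w.asIdeal) = p * ∑ v ∈ T, f (Ideal.absNorm v.asIdeal) := by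
  classical
  obtain ⟨M, iF, iN, iA, -, hM⟩ := exists_kummer_field hζ c hc
  refine ⟨M, iF, iN, ?_⟩
  intro T hT
  have hex : ∀ v : HeightOneSpectrum (𝓞 K), ∃ S : Finset (HeightOneSpectrum (𝓞 M)),
      v ∈ T → (S.card = p ∧ ∀ w ∈ S,
        Ideal.absNorm w.asIdeal = Ideal.absNorm v.asIdeal ∧
        w.asIdeal.comap (algebraMap (𝓞 K) (𝓞 M)) = v.asIdeal) := by
    intro v
    by_cases hv : v ∈ T
    · obtain ⟨S, hS⟩ := hM v (hT v hv).1 (hT v hv).2
      exact ⟨S, fun _ => hS⟩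
    · exact ⟨∅, fun h => absurd h hv⟩
  choose S hS using hex
  have hdisj : (T : Set (HeightOneSpectrum (𝓞 K))).PairwiseDisjoint S := by
    intro v hv v' hv' hne
    rw [Function.onFun, Finset.disjoint_left]
    intro w hw hw'
    apply hne
    have h1 := ((hS v hv).2 w hw).2
    have h2 := ((hS v' hv').2 w hw').2
    exact HeightOneSpectrum.ext (h1.symm.trans h2)
  refine ⟨T.biUnion S, fun f => ?_⟩
  rw [Finset.sum_biUnion hdisj, Finset.mul_sum]
  refine Finset.sum_congr rfl fun v hv => ?_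
  rw [Finset.sum_congr rfl fun w hw => by rw [((hS v hv).2 w hw).1], Finset.sum_const,
    (hS v hv).1, nsmul_eq_mul]

end Fermat.Agent.S14.KummerSplit
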