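import Fermat.Agent.S14.Defs

set_option autoImplicit false

open scoped NumberField nonZeroDivisors
open IsDedekindDomain Fermat.Agent.S14.Defs

namespace Fermat.Agent.S14.ClassAlgAlt

section Abstract

open Finset

theorem exists_dual_ne_zero_aux {p : ℕ} [Fact p.Prime] {Q : Type*} [AddCommGroup Q]
    [Module (ZMod p) Q] (q : Q) (hq : q ≠ 0) : ∃ f : Q →+ ZMod p, f q ≠ 0 := by
  obtain ⟨f, hf⟩ := Module.Projective.exists_dual_ne_zero (ZMod p) hq
  exact ⟨f.toAddMonoidHom, hf⟩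

/-- Separation: an element not in a subgroup `H ⊇ pA` is detected by a functional to `ZMod p`
vanishing on `H`. -/
theorem exists_functional_of_not_mem {A : Type*} [AddCommGroup A] {p : ℕ} [Fact p.Prime]
    (H : AddSubgroup A) (hH : ∀ x : A, p • x ∈ H) (x₀ : A) (hx₀ : x₀ ∉ H) :
    ∃ φ : A →+ ZMod p, φ x₀ ≠ 0 ∧ ∀ x ∈ H, φ x = 0 := by
  let _ : Module (ZMod p) (A ⧸ H) := QuotientAddGroup.zmodModule hH
  have hq : (QuotientAddGroup.mk' H x₀) ≠ 0 := by
    intro h
    exact hx₀ ((QuotientAddGroup.eq_zero_iff x₀).1 h)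
  obtain ⟨f, hf⟩ := exists_dual_ne_zero_aux (p := p) _ hq
  refine ⟨f.comp (QuotientAddGroup.mk' H), hf, ?_⟩
  intro x hx
  have : (QuotientAddGroup.mk' H x) = 0 := (QuotientAddGroup.eq_zero_iff x).2 hx
  simp only [AddMonoidHom.coe_comp, Function.comp_apply, this]
  exact map_zero f

theorem end_sum_apply {A : Type*} [AddCommGroup A] (S : Finset ℕ) (f : ℕ → AddMonoid.End A)
    (x : A) : (∑ i ∈ S, f i) x = ∑ i ∈ S, f i x := by
  induction S using Finset.cons_induction with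
  | empty => simp
  | cons i S hi ih =>
    rw [Finset.sum_cons, Finset.sum_cons, ← ih]
    rfl

/-- Abstract eigen-functional lemma. -/
theorem exists_eigen_functional {A : Type*} [AddCommGroup A] [Finite A] {p : ℕ} [Fact p.Prime]
    (s : AddMonoid.End A) (hs : s ^ (p - 1) = 1) (a : ℕ) (ha : ¬ p ∣ a) (c : A) (hc0 : c ≠ 0)
    (hcp : p • c = 0) (hsc : s c = a • c) :
    ∃ φ : A →+ ZMod p, φ ≠ 0 ∧ ∀ x, φ (s x) = (a : ZMod p) * φ x := by
  have hp : p.Prime := Fact.out
  obtain ⟨N, m, hm, hcard⟩ := Nat.exists_eq_pow_mul_and_not_dvd (n := Nat.card A)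
    Nat.card_pos.ne' p hp.ne_one
  -- the lift
  set t : ℕ := a ^ (p ^ N) with ht
  have ht1 : (t : ZMod p) = a := by
    rw [ht, Nat.cast_pow, ZMod.pow_card_pow]
  have ht2 : ((p ^ N : ℕ) : ℤ) ∣ 1 - (t : ℤ) ^ (p - 1) := by
    have hcop : Nat.Coprime a (p ^ (N + 1)) :=
      Nat.Coprime.pow_right _ ((Nat.coprime_comm.1 ((Nat.Prime.coprime_iff_not_dvd hp).2 ha)))
    have h1 := Nat.ModEq.pow_totient hcop
    rw [Nat.totient_prime_pow_succ hp] at h1
    have h2 : t ^ (p - 1) ≡ 1 [MOD p ^ N] := by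
      rw [ht, ← pow_mul]
      exact h1.of_dvd (pow_dvd_pow p (Nat.le_succ N))
    have h3 := (Nat.modEq_iff_dvd.1 h2)
    push_cast at h3 ⊢
    exact h3
  -- the operator
  set T : AddMonoid.End A := (t : AddMonoid.End A) with hT
  have hTapp : ∀ (k : ℕ) (x : A), (T ^ k) x = (t ^ k) • x := by
    intro k x
    rw [hT, ← Nat.cast_pow, AddMonoid.End.natCast_apply]
  set h : AddMonoid.End A := ∑ i ∈ range (p - 1), s ^ i * T ^ (p - 1 - 1 - i) with hh
  have hcomm : Commute s T := (Nat.cast_commute t s).symm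
  have hmul : h * (s - T) = 1 - T ^ (p - 1) := by
    rw [hh, hcomm.geom_sum₂_mul, hs]
  set θ : AddMonoid.End A := (m : AddMonoid.End A) * h with hθ
  have hθapp : ∀ x, θ x = m • h x := by
    intro x
    rw [hθ, AddMonoid.End.coe_mul, Function.comp_apply, AddMonoid.End.natCast_apply]
  have hcardE : ((Nat.card A : ℕ) : AddMonoid.End A) = 0 := by
    ext x
    rw [AddMonoid.End.natCast_apply]
    exact card_nsmul_eq_zero'
  have hθ1 : θ * (s - T) = 0 := by
    rw [hθ, mul_assoc, hmul]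
    obtain ⟨k, hk⟩ := ht2
    have : (m : AddMonoid.End A) * (1 - T ^ (p - 1))
        = ((Nat.card A : ℕ) : AddMonoid.End A) * ((k : ℤ) : AddMonoid.End A) := by
      have h1 : ((m : ℤ) * (1 - (t : ℤ) ^ (p - 1)) : ℤ) = (Nat.card A : ℤ) * k := by
        rw [hk, hcard]; push_cast; ring
      have h2 := congrArg (Int.cast : ℤ → AddMonoid.End A) h1
      push_cast at h2
      rw [hT]
      exact h2
    rw [this, hcardE, zero_mul]
  have hθ2 : ∀ x, (p ^ N) • θ x = 0 := by
    intro x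
    rw [hθapp, ← mul_nsmul, mul_comm, ← hcard]
    exact card_nsmul_eq_zero'
  -- the value at `c`
  have hsi : ∀ i : ℕ, (s ^ i) c = (a ^ i) • c := by
    intro i
    induction i with
    | zero => simp
    | succ i ih =>
      rw [pow_succ, AddMonoid.End.coe_mul, Function.comp_apply, hsc, map_nsmul, ih, ← mul_nsmul,
        pow_succ]
  have hord : addOrderOf c = p := addOrderOf_eq_prime hcp hc0
  have hθc : θ c ≠ 0 := by
    have h1 : h c = (∑ i ∈ range (p - 1), t ^ (p - 1 - 1 - i) * a ^ i) • c := by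
      rw [hh, end_sum_apply, Finset.sum_smul]
      refine Finset.sum_congr rfl (fun i _ => ?_)
      rw [AddMonoid.End.coe_mul, Function.comp_apply, hTapp, map_nsmul, hsi, ← mul_nsmul, mul_comm]
    intro h0
    rw [hθapp, h1, ← mul_nsmul, mul_comm, ← addOrderOf_dvd_iff_nsmul_eq_zero, hord] at h0
    have h2 : ((m * ∑ i ∈ range (p - 1), t ^ (p - 1 - 1 - i) * a ^ i : ℕ) : ZMod p) = 0 :=
      (ZMod.natCast_eq_zero_iff _ _).2 h0
    have h3 : ((∑ i ∈ range (p - 1), t ^ (p - 1 - 1 - i) * a ^ i : ℕ) : ZMod p)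
        = ((p - 1 : ℕ) : ZMod p) * (a : ZMod p) ^ (p - 1 - 1) := by
      push_cast
      rw [ht1]
      rw [Finset.sum_congr rfl (fun i hi => by
        rw [← pow_add, Nat.sub_add_cancel (by have := Finset.mem_range.1 hi; omega)] :
        ∀ i ∈ range (p - 1), (a : ZMod p) ^ (p - 1 - 1 - i) * (a : ZMod p) ^ i
          = (a : ZMod p) ^ (p - 1 - 1))]
      rw [Finset.sum_const, Finset.card_range, nsmul_eq_mul]
    rw [Nat.cast_mul, h3] at h2
    have hm0 : (m : ZMod p) ≠ 0 := fun h => hm ((ZMod.natCast_eq_zero_iff _ _).1 h)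
    have ha0 : (a : ZMod p) ≠ 0 := fun h => ha ((ZMod.natCast_eq_zero_iff _ _).1 h)
    have hp1 : ((p - 1 : ℕ) : ZMod p) ≠ 0 := by
      intro h
      have := (ZMod.natCast_eq_zero_iff _ _).1 h
      have := Nat.le_of_dvd (by have := hp.two_le; omega) this
      have := hp.two_le
      omega
    exact mul_ne_zero hm0 (mul_ne_zero hp1 (pow_ne_zero _ ha0)) h2
  -- the subgroup
  let H : AddSubgroup A :=
    { carrier := {x | ∃ y z : A, x = (s y - T y) + p • z}
      zero_mem' := ⟨0, 0, by simp⟩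
      add_mem' := by
        rintro _ _ ⟨y, z, rfl⟩ ⟨y', z', rfl⟩
        exact ⟨y + y', z + z', by rw [map_add, map_add, nsmul_add]; abel⟩
      neg_mem' := by
        rintro _ ⟨y, z, rfl⟩
        exact ⟨-y, -z, by rw [map_neg, map_neg, smul_neg]; abel⟩ }
  have hHp : ∀ x : A, p • x ∈ H := fun x => ⟨0, x, by simp⟩
  have hHs : ∀ x : A, s x - T x ∈ H := fun x => ⟨x, 0, by simp⟩
  by_cases hex : ∃ x₀ : A, x₀ ∉ H
  · obtain ⟨x₀, hx₀⟩ := hex
    obtain ⟨φ, hφ1, hφ2⟩ := exists_functional_of_not_mem H hHp x₀ hx₀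
    refine ⟨φ, fun h => hφ1 (by rw [h]; rfl), fun x => ?_⟩
    have h1 := hφ2 _ (hHs x)
    rw [map_sub, sub_eq_zero] at h1
    rw [h1, hT, AddMonoid.End.natCast_apply, map_nsmul, nsmul_eq_mul, ht1]
  · exfalso
    have hall : ∀ x : A, x ∈ H := fun x => by
      by_contra hx
      exact hex ⟨x, hx⟩
    have key : ∀ x, ∃ z, θ x = p • θ z := by
      intro x
      obtain ⟨y, z, rfl⟩ := hall x
      refine ⟨z, ?_⟩
      have h1 : θ (s y - T y) = 0 := by
        have h2 : (θ * (s - T)) y = 0 := by rw [hθ1]; rfl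
        exact h2
      rw [map_add, h1, zero_add, map_nsmul]
    have key2 : ∀ (j : ℕ) (x : A), ∃ z, θ x = (p ^ j) • θ z := by
      intro j
      induction j with
      | zero => intro x; exact ⟨x, by simp⟩
      | succ j ih =>
        intro x
        obtain ⟨z, hz⟩ := ih x
        obtain ⟨z', hz'⟩ := key z
        exact ⟨z', by rw [hz, hz', ← mul_nsmul, pow_succ, mul_comm]⟩
    obtain ⟨z, hz⟩ := key2 N c
    exact hθc (by rw [hz, hθ2])

end Abstract

section Action

variable {R : Type*} [CommRing R] [IsDedekindDomain R]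

/-- The image of a nonzero ideal under a ring automorphism. -/
noncomputable def mapI (g : R ≃+* R) : (Ideal R)⁰ →* (Ideal R)⁰ where
  toFun I := ⟨Ideal.map g (I : Ideal R), mem_nonZeroDivisors_of_ne_zero (by
      rw [Ne, Ideal.zero_eq_bot, Ideal.map_eq_bot_iff_of_injective g.injective]
      exact nonZeroDivisors.coe_ne_zero I)⟩
  map_one' := Subtype.ext (by simp [Ideal.one_eq_top, Ideal.map_top])
  map_mul' I J := Subtype.ext (by simp [Ideal.map_mul])

theorem coe_mapI (g : R ≃+* R) (I : (Ideal R)⁰) :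
    ((mapI g I : (Ideal R)⁰) : Ideal R) = Ideal.map g (I : Ideal R) := rfl

theorem mk0_mapI_congr (g : R ≃+* R) {I J : (Ideal R)⁰}
    (h : ClassGroup.mk0 I = ClassGroup.mk0 J) :
    ClassGroup.mk0 (mapI g I) = ClassGroup.mk0 (mapI g J) := by
  rw [ClassGroup.mk0_eq_mk0_iff] at h ⊢
  obtain ⟨x, y, hx, hy, hxy⟩ := h
  refine ⟨g x, g y, by simpa using hx, by simpa using hy, ?_⟩
  have := congrArg (Ideal.map g) hxy
  rw [Ideal.map_mul, Ideal.map_mul, Ideal.map_span, Ideal.map_span, Set.image_singleton,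
    Set.image_singleton] at this
  exact this

/-- The action of a ring automorphism on the class group, as a function. -/
noncomputable def actFun (g : R ≃+* R) (c : ClassGroup R) : ClassGroup R :=
  ClassGroup.mk0 (mapI g (Classical.choose (ClassGroup.mk0_surjective c)))

theorem actFun_mk0 (g : R ≃+* R) (I : (Ideal R)⁰) :
    actFun g (ClassGroup.mk0 I) = ClassGroup.mk0 (mapI g I) :=
  mk0_mapI_congr g (Classical.choose_spec (ClassGroup.mk0_surjective (ClassGroup.mk0 I)))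

/-- The action of a ring automorphism on the class group. -/
noncomputable def act (g : R ≃+* R) : ClassGroup R →* ClassGroup R where
  toFun := actFun g
  map_one' := by
    have : (1 : ClassGroup R) = ClassGroup.mk0 1 := (map_one _).symm
    rw [this, actFun_mk0, map_one, map_one]
  map_mul' c c' := by
    obtain ⟨I, rfl⟩ := ClassGroup.mk0_surjective c
    obtain ⟨I', rfl⟩ := ClassGroup.mk0_surjective c'
    rw [← map_mul, actFun_mk0, actFun_mk0, actFun_mk0, map_mul, map_mul]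

theorem act_mk0 (g : R ≃+* R) (I : (Ideal R)⁰) :
    act g (ClassGroup.mk0 I) = ClassGroup.mk0 (mapI g I) := actFun_mk0 g I

theorem act_trans (g g' : R ≃+* R) (c : ClassGroup R) :
    act (g.trans g') c = act g' (act g c) := by
  obtain ⟨I, rfl⟩ := ClassGroup.mk0_surjective c
  rw [act_mk0, act_mk0, act_mk0]
  congr 1
  apply Subtype.ext
  rw [coe_mapI, coe_mapI, coe_mapI]
  change Ideal.map ((g.trans g' : R ≃+* R) : R →+* R) _ =
    Ideal.map (g' : R →+* R) (Ideal.map (g : R →+* R) _)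
  rw [Ideal.map_map]
  rfl

theorem act_refl (c : ClassGroup R) : act (RingEquiv.refl R) c = c := by
  obtain ⟨I, rfl⟩ := ClassGroup.mk0_surjective c
  rw [act_mk0]
  congr 1
  apply Subtype.ext
  rw [coe_mapI]
  exact Ideal.map_id _

end Action

section Roots

variable {K : Type*} [Field K] [NumberField K]

/-- An integer all of whose prime valuations are divisible by `p` generates a `p`-th power
ideal. -/
theorem exists_ideal_pow_eq {p : ℕ} (α : 𝓞 K) (hα : α ≠ 0)
    (h : ∀ v : HeightOneSpectrum (𝓞 K),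
      ∃ x : K, x ≠ 0 ∧ v.valuation K ((α : K) * x ^ p) = 1) :
    ∃ J : Ideal (𝓞 K), Ideal.span {α} = J ^ p := by
  classical
  have hspan : (Ideal.span {α} : Ideal (𝓞 K)) ≠ 0 := by
    rw [Ne, Ideal.zero_eq_bot, Ideal.span_singleton_eq_bot]; exact hα
  have ha : Associates.mk (Ideal.span {α} : Ideal (𝓞 K)) ≠ 0 := Associates.mk_ne_zero.2 hspan
  have hk : ∀ q : Associates (Ideal (𝓞 K)), Irreducible q →
      p ∣ q.count (Associates.mk (Ideal.span {α} : Ideal (𝓞 K))).factors := by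
    intro q hq
    obtain ⟨P, rfl⟩ := Associates.mk_surjective q
    have hP : Irreducible P := Associates.irreducible_mk.1 hq
    have hPprime : Prime P := UniqueFactorizationMonoid.irreducible_iff_prime.1 hP
    let v : HeightOneSpectrum (𝓞 K) := ⟨P, Ideal.isPrime_of_prime hPprime, hP.ne_zero⟩
    obtain ⟨x, hx0, hx⟩ := h v
    rw [map_mul, map_pow] at hx
    have h1 : v.valuation K (α : K) = WithZero.exp
        (-(((Associates.mk v.asIdeal).count
          (Associates.mk (Ideal.span {α} : Ideal (𝓞 K))).factors : ℕ) : ℤ)) := by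
      rw [HeightOneSpectrum.valuation_of_algebraMap, HeightOneSpectrum.intValuation_if_neg _ hα]
    have hvx : v.valuation K x ≠ 0 := (Valuation.ne_zero_iff _).2 hx0
    have h2 := congrArg WithZero.log hx
    rw [WithZero.log_mul (by rw [h1]; exact WithZero.exp_ne_zero) (pow_ne_zero _ hvx), h1,
      WithZero.log_exp, WithZero.log_pow, WithZero.log_one] at h2
    have h3 : (((Associates.mk P).count
        (Associates.mk (Ideal.span {α} : Ideal (𝓞 K))).factors : ℕ) : ℤ)
        = (p : ℤ) * WithZero.log (v.valuation K x) := by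
      have h4 : -(((Associates.mk P).count
        (Associates.mk (Ideal.span {α} : Ideal (𝓞 K))).factors : ℕ) : ℤ)
          + p • WithZero.log (v.valuation K x) = 0 := h2
      rw [nsmul_eq_mul] at h4
      linarith
    exact Int.natCast_dvd_natCast.1 ⟨_, h3⟩
  obtain ⟨b, hb⟩ := Associates.is_pow_of_dvd_count ha hk
  obtain ⟨J, rfl⟩ := Associates.mk_surjective b
  refine ⟨J, ?_⟩
  rw [← Associates.mk_pow, Associates.mk_eq_mk_iff_associated] at hb
  exact associated_iff_eq.1 hb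

/-- `p`-th powers of ideals are injective. -/
theorem ideal_pow_inj {p : ℕ} (hp : p ≠ 0) {I J : Ideal (𝓞 K)} (h : I ^ p = J ^ p) : I = J := by
  have h1 : I ∣ J := (UniqueFactorizationMonoid.pow_dvd_pow_iff_dvd hp).1 (by rw [h])
  have h2 : J ∣ I := (UniqueFactorizationMonoid.pow_dvd_pow_iff_dvd hp).1 (by rw [h])
  exact dvd_antisymm h1 h2

end Roots

section Galois

variable {K : Type} [Field K] [NumberField K]

theorem sigmaO_apply (σ : K ≃ₐ[ℚ] K) (x : 𝓞 K) : ((sigmaO σ x : 𝓞 K) : K) = σ (x : K) := rfl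

theorem sigmaO_mul (σ τ : K ≃ₐ[ℚ] K) : sigmaO (σ * τ) = (sigmaO τ).trans (sigmaO σ) := by
  ext x
  rfl

theorem sigmaO_one : sigmaO (1 : K ≃ₐ[ℚ] K) = RingEquiv.refl (𝓞 K) := by
  ext x
  rfl

/-- The Galois action on the additive class group, as a monoid homomorphism. -/
noncomputable def sHom : (K ≃ₐ[ℚ] K) →* AddMonoid.End (Additive (ClassGroup (𝓞 K))) where
  toFun σ := MonoidHom.toAdditive (act (sigmaO σ))
  map_one' := by
    ext x
    change Additive.ofMul (act (sigmaO (1 : K ≃ₐ[ℚ] K)) x.toMul) = x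
    rw [sigmaO_one, act_refl]
    rfl
  map_mul' σ τ := by
    ext x
    change Additive.ofMul (act (sigmaO (σ * τ)) x.toMul) =
      Additive.ofMul (act (sigmaO σ) (act (sigmaO τ) x.toMul))
    rw [sigmaO_mul, act_trans]

theorem sHom_apply (σ : K ≃ₐ[ℚ] K) (x : ClassGroup (𝓞 K)) :
    sHom σ (Additive.ofMul x) = Additive.ofMul (act (sigmaO σ) x) := rfl

variable {p : ℕ} [Fact p.Prime] [IsCyclotomicExtension {p} ℚ K] {ζ : K}

theorem exists_generator (hζ : IsPrimitiveRoot ζ p) :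
    ∃ (σ₀ : K ≃ₐ[ℚ] K) (g : ℕ), σ₀ ζ = ζ ^ g ∧ ¬ p ∣ g ∧ σ₀ ^ (p - 1) = 1 ∧
      ∀ σ : K ≃ₐ[ℚ] K, ∃ k : ℕ, σ₀ ^ k = σ := by
  have hp : p.Prime := Fact.out
  have hirr : Irreducible (Polynomial.cyclotomic p ℚ) :=
    Polynomial.cyclotomic.irreducible_rat hp.pos
  let e : (K ≃ₐ[ℚ] K) ≃* (ZMod p)ˣ := IsCyclotomicExtension.autEquivPow K hirr
  have : IsCyclic (K ≃ₐ[ℚ] K) := isCyclic_of_surjective e.symm e.symm.surjective
  obtain ⟨σ₀, hσ₀⟩ := IsCyclic.exists_monoid_generator (α := K ≃ₐ[ℚ] K)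
  obtain ⟨g, -, hg⟩ := hζ.eq_pow_of_pow_eq_one (ξ := σ₀ ζ)
    (by rw [← map_pow, hζ.pow_eq_one, map_one])
  refine ⟨σ₀, g, hg.symm, ?_, ?_, ?_⟩
  · rintro ⟨k, rfl⟩
    have h1 : σ₀ ζ = 1 := by rw [← hg, pow_mul, hζ.pow_eq_one, one_pow]
    have h2 : ζ = 1 := by
      have := congrArg σ₀.symm h1
      simpa using this
    exact hζ.ne_one hp.one_lt h2
  · apply e.injective
    rw [map_pow, map_one]
    exact ZMod.units_pow_card_sub_one_eq_one p _
  · intro σ
    obtain ⟨k, hk⟩ := (Submonoid.mem_powers_iff _ _).1 (hσ₀ σ)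
    exact ⟨k, hk⟩

end Galois

section Main

variable {p : ℕ} [Fact p.Prime] {K : Type} [Field K] [NumberField K]
  [IsCyclotomicExtension {p} ℚ K] {ζ : K}

/-- PACKAGE A (class-group algebra). If all valuations of the eigen-element `α` are divisible
by `p`, then `(α) = I^p`; either `I` is principal (so `α` is a unit times a `p`-th power) or the
class of `I` yields a nonzero `ω²`-eigenfunctional on the class group. -/
theorem class_dichotomy (hp : 3 ≤ p) (hζ : IsPrimitiveRoot ζ p) (α : K) (hα : α ≠ 0)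
    (h2 : EigenElt p ζ α) (h3 : ValDivisible p α) :
    (∃ (η : (𝓞 K)ˣ) (a : K), a ≠ 0 ∧ α = ((η : 𝓞 K) : K) * a ^ p) ∨
    (∃ φ : Additive (ClassGroup (𝓞 K)) →+ ZMod p, φ ≠ 0 ∧ IsEigen p ζ φ) := by
  have _ := hp
  have hpr : p.Prime := Fact.out
  have hp0 : p ≠ 0 := hpr.ne_zero
  -- integralize
  obtain ⟨a₀, d, hd, hαd'⟩ := IsFractionRing.div_surjective (𝓞 K) α
  have hαd : (a₀ : K) / (d : K) = α := hαd'
  have hd0 : d ≠ 0 := nonZeroDivisors.ne_zero hd
  have hdK : (d : K) ≠ 0 := by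
    intro h
    exact hd0 (NumberField.RingOfIntegers.ext (by rw [h]; rfl))
  obtain ⟨α', hα'⟩ : ∃ α' : 𝓞 K, α' = a₀ * d ^ (p - 1) := ⟨_, rfl⟩
  have hα'K : (α' : K) = α * (d : K) ^ p := by
    have hpp : (d : K) ^ p = (d : K) ^ (p - 1) * d := by
      rw [← pow_succ, Nat.sub_add_cancel hpr.one_le]
    rw [hα', ← hαd, hpp]
    push_cast
    field_simp
  have hα'K0 : (α' : K) ≠ 0 := by
    rw [hα'K]; exact mul_ne_zero hα (pow_ne_zero _ hdK)
  have hα'0 : α' ≠ 0 := by
    intro h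
    exact hα'K0 (by rw [h]; rfl)
  obtain ⟨J, hJ⟩ := exists_ideal_pow_eq (p := p) α' hα'0 (fun v => by
    obtain ⟨x, hx0, hx⟩ := h3 v
    refine ⟨x / d, div_ne_zero hx0 hdK, ?_⟩
    have : (α' : K) * (x / d) ^ p = α * x ^ p := by
      rw [hα'K, div_pow, mul_assoc, mul_div_cancel₀ _ (pow_ne_zero _ hdK)]
    rw [this]; exact hx)
  have hJ0 : J ≠ ⊥ := by
    rintro rfl
    rw [← Ideal.zero_eq_bot, zero_pow hp0, Ideal.zero_eq_bot, Ideal.span_singleton_eq_bot] at hJ
    exact hα'0 hJ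
  by_cases hprin : J.IsPrincipal
  · left
    obtain ⟨b, hb⟩ := hprin.principal
    have hb' : J = Ideal.span {b} := hb
    have hb0 : b ≠ 0 := by
      rintro rfl
      exact hJ0 (by rw [hb']; simp)
    rw [hb', Ideal.span_singleton_pow, Ideal.span_singleton_eq_span_singleton] at hJ
    obtain ⟨u, hu⟩ := hJ.symm
    have hbK : (b : K) ≠ 0 := by
      intro h
      exact hb0 (NumberField.RingOfIntegers.ext (by rw [h]; rfl))
    refine ⟨u, (b : K) / d, div_ne_zero hbK hdK, ?_⟩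
    have h4 : (α' : K) = (b : K) ^ p * ((u : 𝓞 K) : K) := by
      rw [← hu]; push_cast; rfl
    rw [hα'K] at h4
    rw [div_pow, mul_div_assoc', eq_div_iff (pow_ne_zero _ hdK), h4]
    ring
  · right
    obtain ⟨σ₀, g, hσ₀ζ, hg, hσ₀pow, hgen⟩ := exists_generator (K := K) hζ
    have hJmem : J ∈ (Ideal (𝓞 K))⁰ := mem_nonZeroDivisors_of_ne_zero hJ0
    set Jc : (Ideal (𝓞 K))⁰ := ⟨J, hJmem⟩ with hJc
    set c : Additive (ClassGroup (𝓞 K)) := Additive.ofMul (ClassGroup.mk0 Jc) with hc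
    have hc0 : c ≠ 0 := by
      intro h
      exact hprin ((ClassGroup.mk0_eq_one_iff hJmem).1 (ofMul_eq_zero.1 h))
    have hspanmem : (Ideal.span {α'} : Ideal (𝓞 K)) ∈ (Ideal (𝓞 K))⁰ :=
      mem_nonZeroDivisors_of_ne_zero (by
        rw [Ne, Ideal.zero_eq_bot, Ideal.span_singleton_eq_bot]; exact hα'0)
    have hcp : p • c = 0 := by
      rw [hc, ← ofMul_pow, ofMul_eq_zero, ← map_pow]
      have : Jc ^ p = ⟨Ideal.span {α'}, hspanmem⟩ := Subtype.ext (by
        rw [SubmonoidClass.coe_pow]; exact hJ.symm)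
      rw [this, ClassGroup.mk0_eq_one_iff]
      exact ⟨⟨α', rfl⟩⟩
    -- the eigen-relation for the class
    have hsc : sHom σ₀ c = (g ^ 2) • c := by
      obtain ⟨β, hβ⟩ := h2 σ₀ g hσ₀ζ
      have hσd : σ₀ (d : K) ≠ 0 := by simpa using hdK
      set β' : K := β * σ₀ (d : K) / (d : K) ^ (g ^ 2) with hβ'
      have h5 : σ₀ (α' : K) = (α' : K) ^ (g ^ 2) * β' ^ p := by
        rw [hα'K, map_mul, map_pow, hβ, hβ', div_pow, mul_pow, mul_pow, ← pow_mul, ← pow_mul,
          mul_comm p (g ^ 2)]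
        field_simp
      obtain ⟨b₁, b₂, hb₂, hb12'⟩ := IsFractionRing.div_surjective (𝓞 K) β'
      have hb12 : (b₁ : K) / (b₂ : K) = β' := hb12'
      have hb₂0 : b₂ ≠ 0 := nonZeroDivisors.ne_zero hb₂
      have hb₂K : (b₂ : K) ≠ 0 := by
        intro h
        exact hb₂0 (NumberField.RingOfIntegers.ext (by rw [h]; rfl))
      have hσα' : σ₀ (α' : K) ≠ 0 := by simpa using hα'K0
      have hb₁0 : b₁ ≠ 0 := by
        rintro rfl
        apply hσα'
        rw [h5, ← hb12]
        simp [hp0]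
      have h6K : (b₂ : K) ^ p * σ₀ (α' : K) = (b₁ : K) ^ p * (α' : K) ^ (g ^ 2) := by
        rw [h5, ← hb12, div_pow]
        field_simp
      have h6 : b₂ ^ p * sigmaO σ₀ α' = b₁ ^ p * α' ^ (g ^ 2) := by
        refine NumberField.RingOfIntegers.ext ?_
        push_cast
        exact h6K
      rw [hc, sHom_apply, ← ofMul_pow, act_mk0, ← map_pow]
      congr 1
      rw [ClassGroup.mk0_eq_mk0_iff]
      refine ⟨b₂, b₁, hb₂0, hb₁0, ?_⟩
      apply ideal_pow_inj hp0
      rw [coe_mapI, SubmonoidClass.coe_pow, mul_pow, mul_pow, ← Ideal.map_pow, ← pow_mul,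
        mul_comm (g ^ 2) p, pow_mul]
      change Ideal.span {b₂} ^ p * Ideal.map (sigmaO σ₀) (J ^ p) =
        Ideal.span {b₁} ^ p * (J ^ p) ^ (g ^ 2)
      rw [← hJ, Ideal.map_span, Set.image_singleton, Ideal.span_singleton_pow,
        Ideal.span_singleton_pow, Ideal.span_singleton_pow,
        Ideal.span_singleton_mul_span_singleton, Ideal.span_singleton_mul_span_singleton, h6]
    have hg2 : ¬ p ∣ g ^ 2 := fun h => hg (hpr.dvd_of_dvd_pow h)
    obtain ⟨φ, hφ0, hφ⟩ := exists_eigen_functional (sHom σ₀)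
      (by rw [← map_pow, hσ₀pow, map_one]) (g ^ 2) hg2 c hc0 hcp hsc
    refine ⟨φ, hφ0, ?_⟩
    obtain ⟨A, hA⟩ : ∃ A : ZMod p, A = ((g ^ 2 : ℕ) : ZMod p) := ⟨_, rfl⟩
    rw [← hA] at hφ
    have hφpow : ∀ (k : ℕ) (x : Additive (ClassGroup (𝓞 K))),
        φ ((sHom σ₀ ^ k) x) = A ^ k * φ x := by
      intro k
      induction k with
      | zero => intro x; simp
      | succ k ih =>
        intro x
        rw [pow_succ (sHom σ₀), AddMonoid.End.coe_mul, Function.comp_apply, ih, hφ, pow_succ A,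
          mul_assoc]
    have hζ0 : ζ ≠ 0 := hζ.ne_zero hp0
    have hσpow : ∀ k : ℕ, (σ₀ ^ k) ζ = ζ ^ (g ^ k) := by
      intro k
      induction k with
      | zero => simp
      | succ k ih =>
        rw [pow_succ σ₀, AlgEquiv.mul_apply, hσ₀ζ, map_pow, ih, ← pow_mul, pow_succ g]
    intro σ n hσn I J' hJ'
    obtain ⟨k, rfl⟩ := hgen σ
    have hn : (n : ZMod p) = (g : ZMod p) ^ k := by
      have h7 : ζ ^ n = ζ ^ (g ^ k) := by rw [← hσn, hσpow]
      have h8 : ζ ^ (((g ^ k : ℕ) : ℤ) - (n : ℤ)) = 1 := by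
        rw [zpow_sub₀ hζ0, zpow_natCast, zpow_natCast, h7, div_self (pow_ne_zero _ hζ0)]
      have h9 := (hζ.zpow_eq_one_iff_dvd _).1 h8
      have h10 := (ZMod.intCast_eq_intCast_iff_dvd_sub (n : ℤ) ((g ^ k : ℕ) : ℤ) p).2 h9
      push_cast at h10
      exact h10
    have hJ'eq : ClassGroup.mk0 J' = act (sigmaO (σ₀ ^ k)) (ClassGroup.mk0 I) := by
      rw [act_mk0]; congr 1; exact Subtype.ext hJ'
    have h11 : Additive.ofMul (ClassGroup.mk0 J') =
        (sHom σ₀ ^ k) (Additive.ofMul (ClassGroup.mk0 I)) := by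
      rw [← map_pow, sHom_apply, hJ'eq]
    rw [h11, hφpow, hn, hA]
    push_cast
    ring

end Main

end Fermat.Agent.S14.ClassAlgAlt
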