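import Mathlib

set_option autoImplicit false

open scoped NumberField nonZeroDivisors
open Finset

namespace Fermat.Agent.S14.ClassZetaBound

/-- Layer-cake (Abel summation) identity for a finite family with "sizes" `ν i ≤ N`. -/
theorem sum_comp_eq_layer {ι : Type*} (F : Finset ι) (ν : ι → ℕ) (f : ℕ → ℝ) (N : ℕ)
    (hν : ∀ i ∈ F, ν i ≤ N) :
    ∑ i ∈ F, f (ν i) = f N * (F.card : ℝ) +
      ∑ k ∈ range N, (f k - f (k + 1)) * ((F.filter (fun i => ν i ≤ k)).card : ℝ) := by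
  classical
  have h1 : ∀ i ∈ F, f (ν i) =
      f N + ∑ k ∈ range N, if ν i ≤ k then (f k - f (k + 1)) else 0 := by
    intro i hi
    rw [← Finset.sum_filter]
    have hfil : (range N).filter (fun k => ν i ≤ k) = Ico (ν i) N := by
      ext k; simp [and_comm]
    rw [hfil, Finset.sum_Ico_eq_sum_range]
    have := Finset.sum_range_sub' (fun j => f (ν i + j)) (N - ν i)
    simp only [add_assoc] at this ⊢
    rw [this, add_zero, Nat.add_sub_cancel' (hν i hi)]; ring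
  rw [Finset.sum_congr rfl h1, Finset.sum_add_distrib, Finset.sum_const, nsmul_eq_mul,
    Finset.sum_comm]
  congr 1
  · ring
  · refine Finset.sum_congr rfl fun k _ => ?_
    rw [← Finset.sum_filter, Finset.sum_const, nsmul_eq_mul]; ring

/-- Elementary bound `|k^(-s) - (k+1)^(-s)| ≤ s k^(-s-1)` (Bernoulli). -/
theorem rpow_neg_sub_le (k : ℕ) (hk : 1 ≤ k) (s : ℝ) (hs : 1 ≤ s) :
    |(k : ℝ) ^ (-s) - ((k + 1 : ℕ) : ℝ) ^ (-s)| ≤ s * (k : ℝ) ^ (-s - 1) := by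
  have hk0 : (0 : ℝ) < k := by exact_mod_cast hk
  have hk1 : (0 : ℝ) < (k : ℝ) + 1 := by positivity
  have e1 : (((k + 1 : ℕ) : ℝ)) ^ (-s) = (k : ℝ) ^ (-s) * ((k : ℝ) / ((k : ℝ) + 1)) ^ s := by
    push_cast
    rw [Real.div_rpow hk0.le hk1.le, Real.rpow_neg hk0.le, Real.rpow_neg hk1.le]
    have := (Real.rpow_pos_of_pos hk0 s).ne'
    field_simp
  have e2 : 1 - s / ((k : ℝ) + 1) ≤ ((k : ℝ) / ((k : ℝ) + 1)) ^ s := by
    have hb : (-1 : ℝ) ≤ -1 / ((k : ℝ) + 1) := by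
      rw [le_div_iff₀ hk1]; linarith
    have := one_add_mul_self_le_rpow_one_add hb hs
    have e3 : 1 + -1 / ((k : ℝ) + 1) = (k : ℝ) / ((k : ℝ) + 1) := by field_simp; ring
    rw [e3] at this
    calc 1 - s / ((k : ℝ) + 1) = 1 + s * (-1 / ((k : ℝ) + 1)) := by ring
      _ ≤ _ := this
  have e4 : ((k : ℝ) / ((k : ℝ) + 1)) ^ s ≤ 1 :=
    Real.rpow_le_one (by positivity) (by rw [div_le_one hk1]; linarith) (by linarith)
  have hpos : 0 < (k : ℝ) ^ (-s) := Real.rpow_pos_of_pos hk0 _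
  have e5 : (k : ℝ) ^ (-s - 1) = (k : ℝ) ^ (-s) / k := by rw [Real.rpow_sub_one hk0.ne']
  have e6 : s / ((k : ℝ) + 1) ≤ s / k := by
    apply div_le_div_of_nonneg_left (by linarith) hk0 (by linarith)
  rw [e1, abs_of_nonneg (by nlinarith), e5]
  calc (k : ℝ) ^ (-s) - (k : ℝ) ^ (-s) * ((k : ℝ) / ((k : ℝ) + 1)) ^ s
      = (k : ℝ) ^ (-s) * (1 - ((k : ℝ) / ((k : ℝ) + 1)) ^ s) := by ring
    _ ≤ (k : ℝ) ^ (-s) * (s / k) := by
        apply mul_le_mul_of_nonneg_left _ hpos.le; linarith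
    _ = s * ((k : ℝ) ^ (-s) / k) := by ring

/-- Bound for the Abel-summed expression when `|D k| ≤ c k^θ`. -/
theorem layer_bound (D : ℕ → ℝ) (c θ s e : ℝ) (hc : 0 ≤ c) (hs : 1 ≤ s) (he1 : θ - s - 1 ≤ e)
    (he : e < -1) (hD0 : D 0 = 0) (hD : ∀ k : ℕ, 1 ≤ k → |D k| ≤ c * (k : ℝ) ^ θ) (N : ℕ)
    (hN : 1 ≤ N) :
    |(N : ℝ) ^ (-s) * D N + ∑ k ∈ range N, ((k : ℝ) ^ (-s) - ((k + 1 : ℕ) : ℝ) ^ (-s)) * D k|
      ≤ c * (1 + s * ∑' k : ℕ, (k : ℝ) ^ e) := by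
  have hsum : Summable (fun k : ℕ => (k : ℝ) ^ e) := Real.summable_nat_rpow.mpr he
  have hN0 : (0 : ℝ) < N := by exact_mod_cast hN
  have hs0 : (0 : ℝ) ≤ s := by linarith
  have h1 : |(N : ℝ) ^ (-s) * D N| ≤ c := by
    rw [abs_mul, abs_of_nonneg (Real.rpow_nonneg hN0.le _)]
    calc (N : ℝ) ^ (-s) * |D N| ≤ (N : ℝ) ^ (-s) * (c * (N : ℝ) ^ θ) := by
          gcongr; exact hD N hN
      _ = c * (N : ℝ) ^ (θ - s) := by rw [sub_eq_add_neg, Real.rpow_add hN0]; ring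
      _ ≤ c * 1 := by
          gcongr
          exact Real.rpow_le_one_of_one_le_of_nonpos (by exact_mod_cast hN) (by linarith)
      _ = c := mul_one c
  have h2 : ∀ k ∈ range N,
      |((k : ℝ) ^ (-s) - ((k + 1 : ℕ) : ℝ) ^ (-s)) * D k| ≤ c * s * (k : ℝ) ^ e := by
    intro k _
    rcases Nat.eq_zero_or_pos k with rfl | hk
    · simp only [hD0, mul_zero, abs_zero]
      have : (0 : ℝ) ≤ ((0 : ℕ) : ℝ) ^ e := Real.rpow_nonneg (by simp) _
      positivity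
    · have hk0 : (0 : ℝ) < k := by exact_mod_cast hk
      have hk1 : (1 : ℝ) ≤ k := by exact_mod_cast hk
      rw [abs_mul]
      calc |(k : ℝ) ^ (-s) - ((k + 1 : ℕ) : ℝ) ^ (-s)| * |D k|
          ≤ (s * (k : ℝ) ^ (-s - 1)) * (c * (k : ℝ) ^ θ) := by
            gcongr
            · exact rpow_neg_sub_le k hk s hs
            · exact hD k hk
        _ = c * s * (k : ℝ) ^ (θ - s - 1) := by
            rw [show θ - s - 1 = (-s - 1) + θ by ring, Real.rpow_add hk0]; ring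
        _ ≤ c * s * (k : ℝ) ^ e := by
            gcongr
  calc |(N : ℝ) ^ (-s) * D N + ∑ k ∈ range N, ((k : ℝ) ^ (-s) - ((k + 1 : ℕ) : ℝ) ^ (-s)) * D k|
      ≤ |(N : ℝ) ^ (-s) * D N|
        + |∑ k ∈ range N, ((k : ℝ) ^ (-s) - ((k + 1 : ℕ) : ℝ) ^ (-s)) * D k| := abs_add_le _ _
    _ ≤ c + ∑ k ∈ range N, c * s * (k : ℝ) ^ e := by
        gcongr
        exact (Finset.abs_sum_le_sum_abs _ _).trans (Finset.sum_le_sum h2)
    _ = c + c * s * ∑ k ∈ range N, (k : ℝ) ^ e := by rw [Finset.mul_sum]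
    _ ≤ c + c * s * ∑' k : ℕ, (k : ℝ) ^ e := by
        gcongr
        exact hsum.sum_le_tsum _ (fun k _ => Real.rpow_nonneg (Nat.cast_nonneg k) _)
    _ = c * (1 + s * ∑' k : ℕ, (k : ℝ) ^ e) := by ring


section ideals

variable (K : Type*) [Field K] [NumberField K]

/-- Finiteness of the set of ideals of norm `≤ N` in a class. -/
theorem finite_classIdeals_le (C : ClassGroup (𝓞 K)) (N : ℕ) :
    {I : {I : (Ideal (𝓞 K))⁰ // ClassGroup.mk0 I = C} |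
      Ideal.absNorm (I.1 : Ideal (𝓞 K)) ≤ N}.Finite :=
  (Ideal.finite_setOfPred_absNorm_le₀ (S := 𝓞 K) N).preimage Subtype.val_injective.injOn

/-- The counting function of a class, at natural arguments, as a finset cardinality. -/
theorem card_filter_eq (C : ClassGroup (𝓞 K)) (N k : ℕ) (hk : k ≤ N) :
    (((finite_classIdeals_le K C N).toFinset.filter
      (fun I => Ideal.absNorm (I.1 : Ideal (𝓞 K)) ≤ k)).card : ℝ) =
    (Nat.card {I : (Ideal (𝓞 K))⁰ // (Ideal.absNorm (I : Ideal (𝓞 K)) : ℝ) ≤ (k : ℝ) ∧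
      ClassGroup.mk0 I = C} : ℝ) := by
  classical
  congr 1
  rw [← Nat.card_eq_finsetCard]
  refine Nat.card_congr ?_
  refine ⟨fun I => ⟨I.1.1, ?_, I.1.2⟩, fun I => ⟨⟨I.1, I.2.2⟩, ?_⟩, fun I => rfl, fun I => rfl⟩
  · have := I.2
    simp only [Finset.mem_filter, Set.Finite.mem_toFinset, Set.mem_ofPred_eq] at this
    exact_mod_cast this.2
  · simp only [Finset.mem_filter, Set.Finite.mem_toFinset, Set.mem_ofPred_eq]
    have h := I.2.1
    have h' : Ideal.absNorm (I.1 : Ideal (𝓞 K)) ≤ k := by exact_mod_cast h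
    exact ⟨h'.trans hk, h'⟩

/-- Counting function of the nonzero ideals of norm `≤ x` in the class `C`
(literally the count of Mathlib's `NumberField.Ideal.tendsto_norm_le_and_mk_eq_div_atTop`). -/
noncomputable def cnt (C : ClassGroup (𝓞 K)) (x : ℝ) : ℝ :=
  (Nat.card {I : (Ideal (𝓞 K))⁰ // (Ideal.absNorm (I : Ideal (𝓞 K)) : ℝ) ≤ x ∧
    ClassGroup.mk0 I = C} : ℝ)

theorem cnt_zero (C : ClassGroup (𝓞 K)) : cnt K C 0 = 0 := by
  unfold cnt
  have : IsEmpty {I : (Ideal (𝓞 K))⁰ // (Ideal.absNorm (I : Ideal (𝓞 K)) : ℝ) ≤ 0 ∧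
      ClassGroup.mk0 I = C} := by
    refine ⟨fun I => ?_⟩
    have h1 := Ideal.absNorm_pos_of_nonZeroDivisors I.1
    have h2 := I.2.1
    have h3 : Ideal.absNorm (I.1 : Ideal (𝓞 K)) ≤ 0 := by exact_mod_cast h2
    omega
  rw [Nat.card_of_isEmpty, Nat.cast_zero]

theorem cnt_nonneg (C : ClassGroup (𝓞 K)) (x : ℝ) : 0 ≤ cnt K C x := Nat.cast_nonneg _

/-- Abel summation formula for the partial sums of a class zeta function. -/
theorem partial_sum_eq (C : ClassGroup (𝓞 K)) (s : ℝ) (N : ℕ) :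
    ∑ I ∈ (finite_classIdeals_le K C N).toFinset, (Ideal.absNorm (I.1 : Ideal (𝓞 K)) : ℝ) ^ (-s)
      = (N : ℝ) ^ (-s) * cnt K C N
        + ∑ k ∈ range N, ((k : ℝ) ^ (-s) - ((k + 1 : ℕ) : ℝ) ^ (-s)) * cnt K C k := by
  classical
  have hmem : ∀ I ∈ (finite_classIdeals_le K C N).toFinset,
      Ideal.absNorm (I.1 : Ideal (𝓞 K)) ≤ N := by
    intro I hI; simpa using hI
  have h := sum_comp_eq_layer (finite_classIdeals_le K C N).toFinset
    (fun I => Ideal.absNorm (I.1 : Ideal (𝓞 K))) (fun k : ℕ => (k : ℝ) ^ (-s)) N hmem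
  rw [h]
  congr 1
  · congr 1
    have := card_filter_eq K C N N le_rfl
    rw [Finset.filter_true_of_mem hmem] at this
    exact this
  · refine Finset.sum_congr rfl fun k hk => ?_
    rw [card_filter_eq K C N k (Finset.mem_range.mp hk).le]; rfl

/-- Uniform bound for the difference of the partial sums of two class zeta functions. -/
theorem partial_sub_le (C C' : ClassGroup (𝓞 K)) (κ δ B B' : ℝ) (hδ : 0 < δ)
    (hB : ∀ k : ℕ, 1 ≤ k → |cnt K C k - κ * k| ≤ B * (k : ℝ) ^ (1 - δ))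
    (hB' : ∀ k : ℕ, 1 ≤ k → |cnt K C' k - κ * k| ≤ B' * (k : ℝ) ^ (1 - δ))
    (s : ℝ) (hs1 : 1 ≤ s) (hs2 : s ≤ 2) (N : ℕ) (hN : 1 ≤ N) :
    |∑ I ∈ (finite_classIdeals_le K C N).toFinset, (Ideal.absNorm (I.1 : Ideal (𝓞 K)) : ℝ) ^ (-s)
      - ∑ I ∈ (finite_classIdeals_le K C' N).toFinset,
          (Ideal.absNorm (I.1 : Ideal (𝓞 K)) : ℝ) ^ (-s)|
      ≤ (B + B') * (1 + 2 * ∑' k : ℕ, (k : ℝ) ^ (-1 - δ)) := by
  have hB0 : 0 ≤ B := by
    have := (abs_nonneg _).trans (hB 1 le_rfl); simpa using this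
  have hB0' : 0 ≤ B' := by
    have := (abs_nonneg _).trans (hB' 1 le_rfl); simpa using this
  have hZ : 0 ≤ ∑' k : ℕ, (k : ℝ) ^ (-1 - δ) :=
    tsum_nonneg fun k => Real.rpow_nonneg (Nat.cast_nonneg k) _
  have key := layer_bound (fun k : ℕ => cnt K C k - cnt K C' k) (B + B') (1 - δ) s (-1 - δ)
    (by linarith) hs1 (by linarith) (by linarith) (by simp [cnt_zero])
    (fun k hk => by
      have e : cnt K C k - cnt K C' k = (cnt K C k - κ * k) - (cnt K C' k - κ * k) := by ring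
      rw [e, add_mul]
      exact (abs_sub _ _).trans (add_le_add (hB k hk) (hB' k hk))) N hN
  rw [partial_sum_eq, partial_sum_eq]
  have e : (N : ℝ) ^ (-s) * cnt K C N
        + ∑ k ∈ range N, ((k : ℝ) ^ (-s) - ((k + 1 : ℕ) : ℝ) ^ (-s)) * cnt K C k
      - ((N : ℝ) ^ (-s) * cnt K C' N
        + ∑ k ∈ range N, ((k : ℝ) ^ (-s) - ((k + 1 : ℕ) : ℝ) ^ (-s)) * cnt K C' k)
      = (N : ℝ) ^ (-s) * (cnt K C N - cnt K C' N)
        + ∑ k ∈ range N, ((k : ℝ) ^ (-s) - ((k + 1 : ℕ) : ℝ) ^ (-s))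
            * (cnt K C k - cnt K C' k) := by
    simp only [mul_sub, Finset.sum_sub_distrib]; ring
  rw [e]
  refine key.trans ?_
  have : s * ∑' k : ℕ, (k : ℝ) ^ (-1 - δ) ≤ 2 * ∑' k : ℕ, (k : ℝ) ^ (-1 - δ) :=
    mul_le_mul_of_nonneg_right hs2 hZ
  have hBB : 0 ≤ B + B' := by linarith
  nlinarith

/-- The partial sums over ideals of norm `≤ N` converge to the class zeta value. -/
theorem tendsto_partial (C : ClassGroup (𝓞 K)) (s : ℝ)
    (hsum : Summable (fun I : {I : (Ideal (𝓞 K))⁰ // ClassGroup.mk0 I = C} =>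
      (Ideal.absNorm (I.1 : Ideal (𝓞 K)) : ℝ) ^ (-s))) :
    Filter.Tendsto (fun N : ℕ => ∑ I ∈ (finite_classIdeals_le K C N).toFinset,
        (Ideal.absNorm (I.1 : Ideal (𝓞 K)) : ℝ) ^ (-s)) Filter.atTop
      (nhds (∑' I : {I : (Ideal (𝓞 K))⁰ // ClassGroup.mk0 I = C},
        (Ideal.absNorm (I.1 : Ideal (𝓞 K)) : ℝ) ^ (-s))) := by
  refine hsum.hasSum.comp (Filter.tendsto_atTop_finset_of_monotone ?_ ?_)
  · intro M N hMN I hI
    simp only [Set.Finite.mem_toFinset, Set.mem_ofPred_eq] at hI ⊢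
    exact hI.trans hMN
  · intro I
    exact ⟨Ideal.absNorm (I.1 : Ideal (𝓞 K)), by simp⟩

/-- Linear upper bound for the counting function (from Mathlib's asymptotics). -/
theorem exists_cnt_le (C : ClassGroup (𝓞 K)) :
    ∃ c : ℝ, 0 ≤ c ∧ ∀ k : ℕ, 1 ≤ k → cnt K C k ≤ c * k := by
  have h := (NumberField.Ideal.tendsto_norm_le_and_mk_eq_div_atTop K C).comp
    tendsto_natCast_atTop_atTop
  obtain ⟨c, hc⟩ := h.bddAbove_range
  refine ⟨max c 0, le_max_right _ _, fun k hk => ?_⟩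
  have hk0 : (0 : ℝ) < k := by exact_mod_cast hk
  have h1 : cnt K C k / k ≤ c := hc ⟨k, rfl⟩
  rw [div_le_iff₀ hk0] at h1
  exact h1.trans (mul_le_mul_of_nonneg_right (le_max_left _ _) hk0.le)

/-- **Summability of the class zeta functions** for real `s > 1` (unconditional). -/
theorem classZeta_summable (C : ClassGroup (𝓞 K)) (s : ℝ) (hs : 1 < s) :
    Summable (fun I : {I : (Ideal (𝓞 K))⁰ // ClassGroup.mk0 I = C} =>
      (Ideal.absNorm (I.1 : Ideal (𝓞 K)) : ℝ) ^ (-s)) := by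
  classical
  obtain ⟨c, hc0, hc⟩ := exists_cnt_le K C
  refine summable_of_sum_le (c := c * (1 + s * ∑' k : ℕ, (k : ℝ) ^ (-s)))
    (fun I => Real.rpow_nonneg (Nat.cast_nonneg _) _) (fun u => ?_)
  set N := max 1 (u.sup (fun I => Ideal.absNorm (I.1 : Ideal (𝓞 K)))) with hNdef
  have hsub : u ⊆ (finite_classIdeals_le K C N).toFinset := by
    intro I hI
    simp only [Set.Finite.mem_toFinset, Set.mem_ofPred_eq]
    exact le_max_of_le_right
      (Finset.le_sup (f := fun I : {I : (Ideal (𝓞 K))⁰ // ClassGroup.mk0 I = C} =>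
        Ideal.absNorm (I.1 : Ideal (𝓞 K))) hI)
  calc ∑ I ∈ u, (Ideal.absNorm (I.1 : Ideal (𝓞 K)) : ℝ) ^ (-s)
      ≤ ∑ I ∈ (finite_classIdeals_le K C N).toFinset,
          (Ideal.absNorm (I.1 : Ideal (𝓞 K)) : ℝ) ^ (-s) :=
        Finset.sum_le_sum_of_subset_of_nonneg hsub
          (fun _ _ _ => Real.rpow_nonneg (Nat.cast_nonneg _) _)
    _ = (N : ℝ) ^ (-s) * cnt K C N
        + ∑ k ∈ range N, ((k : ℝ) ^ (-s) - ((k + 1 : ℕ) : ℝ) ^ (-s)) * cnt K C k :=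
        partial_sum_eq K C s N
    _ ≤ |(N : ℝ) ^ (-s) * cnt K C N
        + ∑ k ∈ range N, ((k : ℝ) ^ (-s) - ((k + 1 : ℕ) : ℝ) ^ (-s)) * cnt K C k| :=
        le_abs_self _
    _ ≤ c * (1 + s * ∑' k : ℕ, (k : ℝ) ^ (-s)) :=
        layer_bound (fun k : ℕ => cnt K C k) c 1 s (-s) hc0 hs.le (by linarith) (by linarith)
          (by simp [cnt_zero])
          (fun k hk => by
            rw [abs_of_nonneg (cnt_nonneg K C _), Real.rpow_one]; exact hc k hk)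
          N (le_max_left _ _)

/-- **(N4), natural-number form.** If all ideal classes have the same counting asymptotics
`#{I ∈ C : N I ≤ k} = κ k + O(k^(1-δ))`, then the class zeta functions differ by `O(1)` on
`(1, 2]`. -/
theorem classZeta_sub_bounded_nat (κ δ : ℝ) (hδ : 0 < δ)
    (hcount : ∀ C : ClassGroup (𝓞 K), ∃ B : ℝ, ∀ k : ℕ, 1 ≤ k →
      |(Nat.card {I : (Ideal (𝓞 K))⁰ // (Ideal.absNorm (I : Ideal (𝓞 K)) : ℝ) ≤ (k : ℝ) ∧
        ClassGroup.mk0 I = C} : ℝ) - κ * k| ≤ B * (k : ℝ) ^ (1 - δ))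
    (C C' : ClassGroup (𝓞 K)) :
    ∃ B : ℝ, ∀ s : ℝ, 1 < s → s ≤ 2 →
      |(∑' I : {I : (Ideal (𝓞 K))⁰ // ClassGroup.mk0 I = C},
          (Ideal.absNorm (I.1 : Ideal (𝓞 K)) : ℝ) ^ (-s))
        - (∑' I : {I : (Ideal (𝓞 K))⁰ // ClassGroup.mk0 I = C'},
          (Ideal.absNorm (I.1 : Ideal (𝓞 K)) : ℝ) ^ (-s))| ≤ B := by
  obtain ⟨B, hB⟩ := hcount C
  obtain ⟨B', hB'⟩ := hcount C'
  refine ⟨(B + B') * (1 + 2 * ∑' k : ℕ, (k : ℝ) ^ (-1 - δ)), fun s hs1 hs2 => ?_⟩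
  have ht := ((tendsto_partial K C s (classZeta_summable K C s hs1)).sub
    (tendsto_partial K C' s (classZeta_summable K C' s hs1))).abs
  refine le_of_tendsto ht ?_
  filter_upwards [Filter.eventually_ge_atTop 1] with N hN
  exact partial_sub_le K C C' κ δ B B' hδ hB hB' s hs1.le hs2 N hN

/-- **(N4).** If all ideal classes have the same counting asymptotics
`#{I ∈ C : N I ≤ x} = κ x + O(x^(1-δ))` (`x ≥ 1` real), then the class zeta functions differ by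
`O(1)` on `(1, 2]`. -/
theorem classZeta_sub_bounded (κ δ : ℝ) (hδ : 0 < δ)
    (hcount : ∀ C : ClassGroup (𝓞 K), ∃ B : ℝ, ∀ x : ℝ, 1 ≤ x →
      |(Nat.card {I : (Ideal (𝓞 K))⁰ // (Ideal.absNorm (I : Ideal (𝓞 K)) : ℝ) ≤ x ∧
        ClassGroup.mk0 I = C} : ℝ) - κ * x| ≤ B * x ^ (1 - δ))
    (C C' : ClassGroup (𝓞 K)) :
    ∃ B : ℝ, ∀ s : ℝ, 1 < s → s ≤ 2 →
      |(∑' I : {I : (Ideal (𝓞 K))⁰ // ClassGroup.mk0 I = C},
          (Ideal.absNorm (I.1 : Ideal (𝓞 K)) : ℝ) ^ (-s))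
        - (∑' I : {I : (Ideal (𝓞 K))⁰ // ClassGroup.mk0 I = C'},
          (Ideal.absNorm (I.1 : Ideal (𝓞 K)) : ℝ) ^ (-s))| ≤ B :=
  classZeta_sub_bounded_nat K κ δ hδ
    (fun C => by
      obtain ⟨B, hB⟩ := hcount C
      exact ⟨B, fun k hk => hB k (by exact_mod_cast hk)⟩) C C'

end ideals

end Fermat.Agent.S14.ClassZetaBound
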