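import Mathlib

set_option autoImplicit false

open scoped NumberField

namespace Fermat.Agent.S14.CycloSub

/-- There is a copy of `ℚ(ζ_p)` inside `AlgebraicClosure ℚ`. -/
theorem exists_cyclotomic_subfield (p : ℕ) [Fact p.Prime] :
    ∃ K : IntermediateField ℚ (AlgebraicClosure ℚ),
      NumberField K ∧ IsCyclotomicExtension {p} ℚ K := by
  have hp : p.Prime := Fact.out
  have : NeZero p := ⟨hp.ne_zero⟩
  have : NeZero ((p : ℕ) : ℚ) := ⟨by exact_mod_cast hp.ne_zero⟩
  have : Algebra.IsAlgebraic ℚ (AlgebraicClosure ℚ) := AlgebraicClosure.isAlgebraic ℚ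
  have : Algebra.IsIntegral ℚ (AlgebraicClosure ℚ) := Algebra.IsAlgebraic.isIntegral
  obtain ⟨ζ, hζ⟩ := HasEnoughRootsOfUnity.exists_primitiveRoot (AlgebraicClosure ℚ) p
  have hcyc : IsCyclotomicExtension {p} ℚ (IntermediateField.adjoin ℚ {ζ}) :=
    hζ.intermediateField_adjoin_isCyclotomicExtension ℚ
  refine ⟨IntermediateField.adjoin ℚ {ζ}, ?_, hcyc⟩
  exact IsCyclotomicExtension.numberField {p} ℚ _

end Fermat.Agent.S14.CycloSub
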