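import Fermat.Agent.S14.LipschitzCover
import Fermat.Agent.S14.ClassZetaBound

set_option autoImplicit false

/-!
Quantitative version of `NumberField.Ideal.tendsto_norm_le_and_mk_eq_div_atTop`: the number of
integral ideals of norm `≤ x` in a fixed ideal class is `κ x + O(x ^ (1 - 1/n))`, assuming that
the frontier of `normLeOne K` is Lipschitz coverable in dimension `n - 1`.
-/

noncomputable section

namespace Fermat.Agent.S14.IdealCount

open Ideal NumberField
open scoped nonZeroDivisors Real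
open Filter InfinitePlace mixedEmbedding euclidean fundamentalCone Submodule Topology
open NumberField.Units
open Fermat.Agent.S14.LipschitzCount

variable (K : Type*) [Field K] [NumberField K]

/-- The density of ideals in a class (the constant of
`NumberField.Ideal.tendsto_norm_le_and_mk_eq_div_atTop`). -/
def kappa : ℝ :=
  (2 ^ nrRealPlaces K * (2 * π) ^ nrComplexPlaces K * regulator K) /
    (torsionOrder K * Real.sqrt |discr K|)

variable {C : ClassGroup (𝓞 K)} {J : (Ideal (𝓞 K))⁰} {s : ℝ}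

theorem card_class_eq_card_dvd (hJ : ClassGroup.mk0 J = C⁻¹) :
    Nat.card {I : (Ideal (𝓞 K))⁰ // absNorm (I : Ideal (𝓞 K)) ≤ s ∧ ClassGroup.mk0 I = C}
      = Nat.card {I : (Ideal (𝓞 K))⁰ // (J : Ideal (𝓞 K)) ∣ I ∧ IsPrincipal (I : Ideal (𝓞 K)) ∧
        absNorm (I : Ideal (𝓞 K)) ≤ s * absNorm (J : Ideal (𝓞 K))} := by
  simp_rw [← nonZeroDivisors_dvd_iff_dvd_coe]
  refine Nat.card_congr ?_
  refine ((Equiv.dvd J).subtypeEquiv fun I ↦ ?_).trans
    (Equiv.subtypeSubtypeEquivSubtypeInter (fun I : (Ideal (𝓞 K))⁰ ↦ J ∣ I) _)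
  rw [← ClassGroup.mk0_eq_one_iff (SetLike.coe_mem _)]
  simp_rw [Equiv.dvd_apply, Submonoid.coe_mul, ← Submonoid.mul_def, _root_.map_mul, hJ,
    inv_mul_eq_one, Nat.cast_mul, mul_comm s, eq_comm, and_comm, and_congr_left_iff]
  exact fun _ ↦
    (mul_le_mul_iff_of_pos_left (Nat.cast_pos.mpr (absNorm_pos_of_nonZeroDivisors J))).symm

open scoped Classical in
def coneLatticeEquiv :
    ↑({x | x ∈ (toMixed K) ⁻¹' fundamentalCone K ∧ mixedEmbedding.norm ((toMixed K) x) ≤ s} ∩
      (ZLattice.comap ℝ (idealLattice K ((FractionalIdeal.mk0 K) J)) (toMixed K).toLinearMap))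
        ≃ {a : idealSet K J // mixedEmbedding.norm (a : mixedSpace K) ≤ s} := by
  rw [ZLattice.coe_comap]
  refine (((toMixed K).toEquiv.image _).trans (Equiv.subtypeEquivProp ?_)).trans
    (Equiv.subtypeSubtypeEquivSubtypeInter _ (mixedEmbedding.norm · ≤ s)).symm
  ext
  simp_rw [mem_idealSet, Set.mem_image, Set.mem_inter_iff, Set.mem_preimage, SetLike.mem_coe,
    mem_idealLattice, FractionalIdeal.coe_mk0]
  constructor
  · rintro ⟨_, ⟨⟨hx₁, hx₂⟩, _, ⟨x, hx₃, rfl⟩, h⟩, rfl⟩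
    exact ⟨⟨hx₁, x, hx₃, h⟩, hx₂⟩
  · rintro ⟨⟨hx₁, ⟨x, hx₂, rfl⟩⟩, hx₃⟩
    exact ⟨(toMixed K).symm (mixedEmbedding K x), ⟨⟨hx₁, hx₃⟩, ⟨(x : K), by simp [hx₂], rfl⟩⟩, rfl⟩

open scoped Classical in
variable (J) in
theorem volume_div_covolume_mul :
    MeasureTheory.volume.real
        {x | x ∈ toMixed K ⁻¹' fundamentalCone K ∧ mixedEmbedding.norm (toMixed K x) ≤ 1} /
      ZLattice.covolume (ZLattice.comap ℝ (mixedEmbedding.idealLattice K (FractionalIdeal.mk0 K J))
        (toMixed K).toLinearMap) * ((absNorm (J : Ideal (𝓞 K)) : ℝ) * (torsionOrder K : ℝ)⁻¹) =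
      kappa K := by
  classical
  have h₁ : ∀ s : ℝ,
    {x | x ∈ toMixed K ⁻¹' fundamentalCone K ∧ mixedEmbedding.norm (toMixed K x) ≤ s} =
      toMixed K ⁻¹' {x | x ∈ fundamentalCone K ∧ mixedEmbedding.norm x ≤ s} := fun _ ↦ rfl
  have h₂ : {x | x ∈ fundamentalCone K ∧ mixedEmbedding.norm x ≤ 1} = normLeOne K := by ext; simp
  have h₃ : (absNorm J.1 : ℝ) ≠ 0 := (Nat.cast_ne_zero.mpr (absNorm_ne_zero_of_nonZeroDivisors J))
  unfold kappa
  rw [h₁, h₂, MeasureTheory.measureReal_def, (volumePreserving_toMixed K).measure_preimage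
      (measurableSet_normLeOne K).nullMeasurableSet, volume_normLeOne, ZLattice.covolume_comap
      _ _ _ (volumePreserving_toMixed K), covolume_idealLattice, ENNReal.toReal_mul,
      ENNReal.toReal_mul, ENNReal.toReal_pow, ENNReal.toReal_pow, ENNReal.toReal_ofNat,
      ENNReal.coe_toReal, NNReal.coe_real_pi, ENNReal.toReal_ofReal (regulator_pos K).le,
      FractionalIdeal.coe_mk0, FractionalIdeal.coeIdeal_absNorm, Rat.cast_natCast, div_eq_mul_inv,
      div_eq_mul_inv, mul_inv, mul_inv, mul_inv, inv_pow, inv_inv]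
  ring_nf
  rw [mul_inv_cancel_right₀ h₃]

open scoped Classical in
/-- **Ideal counting with error term.** If the frontier of `normLeOne K` is Lipschitz coverable
in dimension `n - 1`, the number of integral ideals of norm `≤ x` in the class `C` is
`kappa K * x + O(x ^ (1 - 1/n))`. -/
theorem exists_abs_card_sub_le
    (hfr : LipschitzCoverable (Module.finrank ℚ K - 1) (frontier (normLeOne K)))
    (C : ClassGroup (𝓞 K)) :
    ∃ B : ℝ, ∀ x : ℝ, 1 ≤ x →
      |(Nat.card {I : (Ideal (𝓞 K))⁰ // (absNorm (I : Ideal (𝓞 K)) : ℝ) ≤ x ∧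
        ClassGroup.mk0 I = C} : ℝ) - kappa K * x| ≤
          B * x ^ (1 - 1 / (Module.finrank ℚ K : ℝ)) := by
  classical
  have h₁ : ∀ s : ℝ,
    {x | x ∈ toMixed K ⁻¹' fundamentalCone K ∧ mixedEmbedding.norm (toMixed K x) ≤ s} =
      toMixed K ⁻¹' {x | x ∈ fundamentalCone K ∧ mixedEmbedding.norm x ≤ s} := fun _ ↦ rfl
  have h₂ : {x | x ∈ fundamentalCone K ∧ mixedEmbedding.norm x ≤ 1} = normLeOne K := by ext; simp
  obtain ⟨J, hJ⟩ := ClassGroup.mk0_surjective C⁻¹
  have hJpos : (0 : ℝ) < absNorm (J : Ideal (𝓞 K)) :=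
    Nat.cast_pos.mpr (absNorm_pos_of_nonZeroDivisors J)
  have hJ1 : (1 : ℝ) ≤ absNorm (J : Ideal (𝓞 K)) := by
    exact_mod_cast Nat.succ_le_of_lt (absNorm_pos_of_nonZeroDivisors J)
  have hw : (0 : ℝ) < torsionOrder K := Nat.cast_pos.mpr (Nat.pos_of_ne_zero (torsionOrder_ne_zero K))
  have hn : (0 : ℝ) < Module.finrank ℚ K := Nat.cast_pos.mpr Module.finrank_pos
  -- the frontier hypothesis transported to the euclidean mixed space
  have h₄ : LipschitzCoverable (Module.finrank ℚ K - 1) (frontier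
      {x | x ∈ toMixed K ⁻¹' fundamentalCone K ∧ mixedEmbedding.norm (toMixed K x) ≤ 1}) := by
    rw [h₁, h₂, ← (toMixed K).coe_toHomeomorph, ← Homeomorph.preimage_frontier,
      (toMixed K).coe_toHomeomorph, ← (toMixed K).image_symm_eq_preimage]
    exact hfr.image (toMixed K).symm.lipschitz
  obtain ⟨C₀, hC₀, hC⟩ := exists_abs_card_le_sub_le'
    (ZLattice.comap ℝ (mixedEmbedding.idealLattice K (FractionalIdeal.mk0 K J))
      (toMixed K).toLinearMap)
    (F := fun x ↦ mixedEmbedding.norm (toMixed K x)) (X := (toMixed K) ⁻¹' (fundamentalCone K))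
    (fun _ _ _ h ↦ by rwa [Set.mem_preimage, map_smul, smul_mem_iff_mem h.ne'])
    (fun _ _ h ↦ by rw [map_smul, mixedEmbedding.norm_smul, euclidean.finrank, abs_of_nonneg h])
    ((toMixed K).antilipschitz.isBounded_preimage (isBounded_normLeOne K))
    ((toMixed K).continuous.measurable (measurableSet_normLeOne K)) h₄
  rw [euclidean.finrank] at hC
  set e : ℝ := 1 - 1 / (Module.finrank ℚ K : ℝ) with he
  have hexp : ((Module.finrank ℚ K - 1 : ℕ) : ℝ) / (Module.finrank ℚ K : ℝ) = e := by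
    rw [he, Nat.cast_sub (Module.finrank_pos), Nat.cast_one]
    field_simp
  rw [hexp] at hC
  refine ⟨C₀ * (absNorm (J : Ideal (𝓞 K)) : ℝ) ^ e / torsionOrder K, fun x hx => ?_⟩
  have hx0 : 0 < x := by linarith
  have hc1 : 1 ≤ x * absNorm (J : Ideal (𝓞 K)) := by nlinarith
  have key := hC (x * absNorm (J : Ideal (𝓞 K))) hc1
  -- the count
  have hcount : (Nat.card {I : (Ideal (𝓞 K))⁰ // (absNorm (I : Ideal (𝓞 K)) : ℝ) ≤ x ∧
      ClassGroup.mk0 I = C} : ℝ) * torsionOrder K =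
      (Nat.card ↑({y | y ∈ toMixed K ⁻¹' fundamentalCone K ∧
        mixedEmbedding.norm (toMixed K y) ≤ x * absNorm (J : Ideal (𝓞 K))} ∩
          (ZLattice.comap ℝ (mixedEmbedding.idealLattice K (FractionalIdeal.mk0 K J))
            (toMixed K).toLinearMap : Set (euclidean.mixedSpace K))) : ℝ) := by
    rw [card_class_eq_card_dvd K hJ, Nat.card_congr (coneLatticeEquiv K),
      ← card_isPrincipal_dvd_norm_le, Nat.cast_mul]
  have hvol := volume_div_covolume_mul K J
  set V : ℝ := MeasureTheory.volume.real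
        {x | x ∈ toMixed K ⁻¹' fundamentalCone K ∧ mixedEmbedding.norm (toMixed K x) ≤ 1} /
      ZLattice.covolume (ZLattice.comap ℝ (mixedEmbedding.idealLattice K (FractionalIdeal.mk0 K J))
        (toMixed K).toLinearMap) with hV
  rw [← hcount] at key
  set A : ℝ := (Nat.card {I : (Ideal (𝓞 K))⁰ // (absNorm (I : Ideal (𝓞 K)) : ℝ) ≤ x ∧
      ClassGroup.mk0 I = C} : ℝ) with hA
  have hkey2 : A - kappa K * x =
      (A * torsionOrder K - x * absNorm (J : Ideal (𝓞 K)) * V) / torsionOrder K := by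
    rw [← hvol]
    field_simp
  rw [hkey2, abs_div, abs_of_pos hw, div_le_iff₀ hw]
  refine key.trans (le_of_eq ?_)
  rw [Real.mul_rpow hx0.le hJpos.le]
  field_simp

open scoped Classical in
/-- **Partial zeta functions of two ideal classes differ by `O(1)` on `(1, 2]`**, assuming that
the frontier of `normLeOne K` is Lipschitz coverable in dimension `n - 1`. -/
theorem classZeta_sub_bounded_of_frontier
    (hfr : LipschitzCoverable (Module.finrank ℚ K - 1) (frontier (normLeOne K)))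
    (C C' : ClassGroup (𝓞 K)) :
    ∃ B : ℝ, ∀ s : ℝ, 1 < s → s ≤ 2 →
      |(∑' I : {I : (Ideal (𝓞 K))⁰ // ClassGroup.mk0 I = C},
          (Ideal.absNorm (I.1 : Ideal (𝓞 K)) : ℝ) ^ (-s))
        - (∑' I : {I : (Ideal (𝓞 K))⁰ // ClassGroup.mk0 I = C'},
          (Ideal.absNorm (I.1 : Ideal (𝓞 K)) : ℝ) ^ (-s))| ≤ B :=
  Fermat.Agent.S14.ClassZetaBound.classZeta_sub_bounded K (kappa K)
    (1 / (Module.finrank ℚ K : ℝ))
    (one_div_pos.mpr (Nat.cast_pos.mpr Module.finrank_pos))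
    (fun C => exists_abs_card_sub_le K hfr C) C C'

end Fermat.Agent.S14.IdealCount
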