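import Mathlib

set_option autoImplicit false

/-!
Lattice point counting with an error term, for bounded sets whose frontier is covered by
finitely many Lipschitz images of a cube (Davenport / Marcus "Lipschitz principle").
-/

namespace Fermat.Agent.S14.LipschitzCount

open MeasureTheory Bornology Fintype BoxIntegral BoxIntegral.unitPartition Submodule Set
open scoped Pointwise NNReal

variable {ι : Type*} [Fintype ι]

/-- The unit cube `(ν, ν + 1]` as a set. -/
def ucube (ν : ι → ℤ) : Set (ι → ℝ) := (box 1 ν : Set (ι → ℝ))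

omit [Fintype ι] in
lemma mem_ucube {ν : ι → ℤ} {x : ι → ℝ} :
    x ∈ ucube ν ↔ ∀ i, (ν i : ℝ) < x i ∧ x i ≤ ν i + 1 := by
  unfold ucube
  rw [Box.mem_coe, mem_box_iff]
  simp

/-- The integer point `ν + 1`, the "tag" of the cube. -/
def utag (ν : ι → ℤ) : ι → ℝ := fun i => (ν i : ℝ) + 1

omit [Fintype ι] in
lemma utag_mem (ν : ι → ℤ) : utag ν ∈ ucube ν := by
  rw [mem_ucube]
  intro i
  simp [utag]

omit [Fintype ι] in
lemma mem_ucube_iff_index {ν : ι → ℤ} {x : ι → ℝ} :
    x ∈ ucube ν ↔ (fun i => ⌈x i⌉ - 1) = ν := by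
  rw [mem_ucube, funext_iff]
  refine forall_congr' fun i => ?_
  rw [sub_eq_iff_eq_add, Int.ceil_eq_iff]
  simp

omit [Fintype ι] in
lemma exists_mem_ucube (x : ι → ℝ) : ∃ ν : ι → ℤ, x ∈ ucube ν :=
  ⟨_, mem_ucube_iff_index.mpr rfl⟩

omit [Fintype ι] in
lemma ucube_disjoint {ν ν' : ι → ℤ} (h : ν ≠ ν') : Disjoint (ucube ν) (ucube ν') := by
  rw [Set.disjoint_left]
  intro x hx hx'
  exact h ((mem_ucube_iff_index.mp hx).symm.trans (mem_ucube_iff_index.mp hx'))

lemma measurableSet_ucube (ν : ι → ℤ) : MeasurableSet (ucube ν) :=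
  (box 1 ν).measurableSet_coe

lemma volume_ucube (ν : ι → ℤ) : volume (ucube ν) = 1 := by
  unfold ucube
  rw [volume_box]
  simp

omit [Fintype ι] in
lemma isPreconnected_ucube (ν : ι → ℤ) : IsPreconnected (ucube ν) := by
  unfold ucube
  rw [Box.coe_eq_pi]
  exact isPreconnected_univ_pi fun i => isPreconnected_Ioc

omit [Fintype ι] in
/-- A cube that does not meet the frontier of `S` but meets `S` is contained in `S`. -/
lemma ucube_subset_of_disjoint_frontier {S : Set (ι → ℝ)} {ν : ι → ℤ}
    (h : Disjoint (ucube ν) (frontier S)) (hne : (ucube ν ∩ S).Nonempty) : ucube ν ⊆ S := by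
  have hsub : ucube ν ⊆ interior S ∪ interior Sᶜ := by
    rw [← compl_frontier_eq_union_interior]
    exact fun x hx hx' => Set.disjoint_left.mp h hx hx'
  have hdisj : Disjoint (interior S) (interior Sᶜ) :=
    (disjoint_compl_right (a := S)).mono interior_subset interior_subset
  rcases (isPreconnected_ucube ν).subset_or_subset isOpen_interior isOpen_interior hdisj hsub
    with h1 | h2
  · exact h1.trans interior_subset
  · obtain ⟨x, hx, hxS⟩ := hne
    exact absurd hxS (interior_subset (h2 hx))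


/-- Indices of cubes meeting a bounded set form a finite set. -/
lemma finite_setOf_ucube_inter_nonempty {S : Set (ι → ℝ)} (hS : IsBounded S) :
    {ν : ι → ℤ | (ucube ν ∩ S).Nonempty}.Finite := by
  classical
  obtain ⟨R, hR⟩ := hS.exists_norm_le
  obtain ⟨M, hM⟩ := exists_nat_ge (R + 1)
  refine (Finset.finite_toSet (Fintype.piFinset fun _ : ι => Finset.Icc (-(M : ℤ)) M)).subset ?_
  rintro ν ⟨x, hx, hxS⟩
  rw [Finset.mem_coe, Fintype.mem_piFinset]
  intro i
  have h1 := (mem_ucube.mp hx i)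
  have h2 : |x i| ≤ R := (norm_le_pi_norm x i).trans (hR x hxS)
  rw [abs_le] at h2
  rw [Finset.mem_Icc]
  constructor
  · have : (-(M : ℝ)) ≤ (ν i : ℝ) := by linarith [h1.2, h2.1]
    exact_mod_cast this
  · have : (ν i : ℝ) ≤ (M : ℝ) := by linarith [h1.1, h2.2]
    exact_mod_cast this

lemma volume_inter_ucube_ne_top (S : Set (ι → ℝ)) (ν : ι → ℤ) : volume (S ∩ ucube ν) ≠ ⊤ :=
  ((measure_mono Set.inter_subset_right).trans_lt (by rw [volume_ucube]; exact ENNReal.one_lt_top)).ne

lemma volumeReal_inter_ucube_le_one (S : Set (ι → ℝ)) (ν : ι → ℤ) :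
    volume.real (S ∩ ucube ν) ≤ 1 := by
  have h := measureReal_mono (μ := volume) (Set.inter_subset_right : S ∩ ucube ν ⊆ ucube ν)
    (by rw [volume_ucube]; exact ENNReal.one_ne_top)
  have h1 : volume.real (ucube ν) = 1 := by
    rw [measureReal_def, volume_ucube, ENNReal.toReal_one]
  rwa [h1] at h

/-- **Counting principle**: the number of integer points in `S` differs from the volume of `S`
by at most the number of unit cubes meeting the frontier of `S`. -/
theorem abs_card_sub_volume_le (S : Set (ι → ℝ)) (hS₁ : IsBounded S) (hS₂ : MeasurableSet S) :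
    |(Nat.card {ν : ι → ℤ // utag ν ∈ S} : ℝ) - volume.real S| ≤
      Nat.card {ν : ι → ℤ // (ucube ν ∩ frontier S).Nonempty} := by
  classical
  have hfin := finite_setOf_ucube_inter_nonempty (hS₁.closure)
  set F : Finset (ι → ℤ) := hfin.toFinset with hF
  have hFmem : ∀ ν, ν ∈ F ↔ (ucube ν ∩ closure S).Nonempty := fun ν => by
    rw [hF, Set.Finite.mem_toFinset]; rfl
  -- the count as a sum over `F`
  have hcard : (Nat.card {ν : ι → ℤ // utag ν ∈ S} : ℝ) =
      ∑ ν ∈ F, (if utag ν ∈ S then (1 : ℝ) else 0) := by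
    rw [Finset.sum_ite, Finset.sum_const_zero, add_zero, Finset.sum_const, nsmul_eq_mul, mul_one]
    congr 1
    refine Nat.subtype_card (F.filter fun ν => utag ν ∈ S) fun ν => ?_
    rw [Finset.mem_filter, hFmem]
    exact ⟨fun h => h.2, fun h => ⟨⟨utag ν, utag_mem ν, subset_closure h⟩, h⟩⟩
  -- the volume as a sum over `F`
  have hvol : volume.real S = ∑ ν ∈ F, volume.real (S ∩ ucube ν) := by
    have hU : S = ⋃ ν ∈ F, S ∩ ucube ν := by
      ext x
      simp only [Set.mem_iUnion, Set.mem_inter_iff, exists_and_left, exists_prop]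
      refine ⟨fun hx => ⟨hx, ?_⟩, fun h => h.1⟩
      obtain ⟨ν, hν⟩ := exists_mem_ucube x
      exact ⟨ν, (hFmem ν).mpr ⟨x, hν, subset_closure hx⟩, hν⟩
    conv_lhs => rw [hU]
    refine measureReal_biUnion_finset ?_ (fun ν _ => hS₂.inter (measurableSet_ucube ν))
      (fun ν _ => volume_inter_ucube_ne_top S ν)
    intro ν _ ν' _ hne
    exact (ucube_disjoint hne).mono Set.inter_subset_right Set.inter_subset_right
  -- the frontier cubes
  have hbfin : {ν : ι → ℤ | (ucube ν ∩ frontier S).Nonempty}.Finite :=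
    hfin.subset fun ν ⟨x, hx, hxS⟩ => ⟨x, hx, frontier_subset_closure hxS⟩
  have hbcard : Nat.card {ν : ι → ℤ // (ucube ν ∩ frontier S).Nonempty} =
      (F.filter fun ν => (ucube ν ∩ frontier S).Nonempty).card := by
    refine Nat.subtype_card _ fun ν => ?_
    rw [Finset.mem_filter, hFmem]
    exact ⟨fun h => h.2, fun ⟨x, hx, hxS⟩ => ⟨⟨x, hx, frontier_subset_closure hxS⟩, ⟨x, hx, hxS⟩⟩⟩
  rw [hcard, hvol, ← Finset.sum_sub_distrib, hbcard]
  refine (Finset.abs_sum_le_sum_abs _ _).trans ?_
  rw [Finset.card_filter, Nat.cast_sum]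
  refine Finset.sum_le_sum fun ν _ => ?_
  have hv0 : 0 ≤ volume.real (S ∩ ucube ν) := measureReal_nonneg
  have hv1 := volumeReal_inter_ucube_le_one S ν
  by_cases hb : (ucube ν ∩ frontier S).Nonempty
  · rw [if_pos hb, Nat.cast_one, abs_le]
    constructor <;> split_ifs <;> linarith
  · rw [if_neg hb, Nat.cast_zero]
    have hdisj : Disjoint (ucube ν) (frontier S) := Set.not_nonempty_iff_eq_empty.mp hb |>
      Set.disjoint_iff_inter_eq_empty.mpr
    by_cases hne : (ucube ν ∩ S).Nonempty
    · have hsub := ucube_subset_of_disjoint_frontier hdisj hne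
      rw [if_pos (hsub (utag_mem ν)), Set.inter_eq_right.mpr hsub, measureReal_def, volume_ucube]
      simp
    · have hempty : S ∩ ucube ν = ∅ := by
        rw [Set.inter_comm]; exact Set.not_nonempty_iff_eq_empty.mp hne
      have : utag ν ∉ S := fun h => hne ⟨utag ν, utag_mem ν, h⟩
      rw [if_neg this, hempty]
      simp

end Fermat.Agent.S14.LipschitzCount
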