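import Fermat.Agent.S14.LipschitzCount

set_option autoImplicit false

/-!
Lipschitz-coverable sets and the lattice point count with a power-saving error term
(quantitative version of `ZLattice.covolume.tendsto_card_le_div'`).
-/

namespace Fermat.Agent.S14.LipschitzCount

open MeasureTheory Bornology Fintype Submodule Set Module
open scoped Pointwise NNReal

/-- `T` is covered by finitely many Lipschitz images of bounded subsets of `ℝ^d`. -/
def LipschitzCoverable {E : Type*} [PseudoEMetricSpace E] (d : ℕ) (T : Set E) : Prop :=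
  ∃ (m : ℕ) (K : ℝ≥0) (Φ : Fin m → (Fin d → ℝ) → E) (s : Fin m → Set (Fin d → ℝ)),
    (∀ i, IsBounded (s i)) ∧ (∀ i, LipschitzOnWith K (Φ i) (s i)) ∧ T ⊆ ⋃ i, Φ i '' s i

section Basic

variable {E : Type*} [PseudoEMetricSpace E] {d : ℕ}

lemma LipschitzCoverable.mono {S T : Set E} (h : LipschitzCoverable d T) (hST : S ⊆ T) :
    LipschitzCoverable d S := by
  obtain ⟨m, K, Φ, s, h1, h2, h3⟩ := h
  exact ⟨m, K, Φ, s, h1, h2, hST.trans h3⟩

lemma lipschitzCoverable_empty : LipschitzCoverable d (∅ : Set E) :=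
  ⟨0, 0, fun i => Fin.elim0 i, fun i => Fin.elim0 i, fun i => Fin.elim0 i, fun i => Fin.elim0 i,
    Set.empty_subset _⟩

lemma LipschitzCoverable.union {S T : Set E} (hS : LipschitzCoverable d S)
    (hT : LipschitzCoverable d T) : LipschitzCoverable d (S ∪ T) := by
  obtain ⟨m, K, Φ, s, h1, h2, h3⟩ := hS
  obtain ⟨m', K', Φ', s', h1', h2', h3'⟩ := hT
  refine ⟨m + m', max K K', Fin.append Φ Φ', Fin.append s s', ?_, ?_, ?_⟩
  · intro i
    refine Fin.addCases (fun j => ?_) (fun j => ?_) i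
    · rw [Fin.append_left]; exact h1 j
    · rw [Fin.append_right]; exact h1' j
  · intro i
    refine Fin.addCases (fun j => ?_) (fun j => ?_) i
    · rw [Fin.append_left, Fin.append_left]; exact (h2 j).weaken (le_max_left _ _)
    · rw [Fin.append_right, Fin.append_right]; exact (h2' j).weaken (le_max_right _ _)
  · rintro x (hx | hx)
    · obtain ⟨i, hi⟩ := Set.mem_iUnion.mp (h3 hx)
      refine Set.mem_iUnion.mpr ⟨Fin.castAdd m' i, ?_⟩
      rw [Fin.append_left, Fin.append_left]; exact hi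
    · obtain ⟨i, hi⟩ := Set.mem_iUnion.mp (h3' hx)
      refine Set.mem_iUnion.mpr ⟨Fin.natAdd m i, ?_⟩
      rw [Fin.append_right, Fin.append_right]; exact hi

lemma lipschitzCoverable_iUnion_fin {n : ℕ} {T : Fin n → Set E}
    (h : ∀ i, LipschitzCoverable d (T i)) : LipschitzCoverable d (⋃ i, T i) := by
  induction n with
  | zero =>
    have : (⋃ i, T i) = ∅ := by
      ext x; simp only [Set.mem_iUnion, Set.mem_empty_iff_false, iff_false]
      rintro ⟨i, -⟩; exact Fin.elim0 i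
    rw [this]; exact lipschitzCoverable_empty
  | succ n ih =>
    have : (⋃ i, T i) = T 0 ∪ ⋃ i : Fin n, T i.succ := by
      ext x
      simp only [Set.mem_iUnion, Set.mem_union]
      constructor
      · rintro ⟨i, hi⟩
        refine Fin.cases (fun h0 => Or.inl h0) (fun j hj => Or.inr ⟨j, hj⟩) i hi
      · rintro (h0 | ⟨j, hj⟩)
        exacts [⟨0, h0⟩, ⟨j.succ, hj⟩]
    rw [this]
    exact (h 0).union (ih fun i => h i.succ)

lemma lipschitzCoverable_iUnion {κ : Type*} [Finite κ] {T : κ → Set E}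
    (h : ∀ i, LipschitzCoverable d (T i)) : LipschitzCoverable d (⋃ i, T i) := by
  obtain ⟨n, ⟨e⟩⟩ := Finite.exists_equiv_fin κ
  have : (⋃ i, T i) = ⋃ j : Fin n, T (e.symm j) := by
    ext x
    simp only [Set.mem_iUnion]
    exact ⟨fun ⟨i, hi⟩ => ⟨e i, by simpa using hi⟩, fun ⟨j, hj⟩ => ⟨_, hj⟩⟩
  rw [this]
  exact lipschitzCoverable_iUnion_fin fun j => h _

lemma LipschitzCoverable.image {F : Type*} [PseudoEMetricSpace F] {T : Set E}
    (h : LipschitzCoverable d T) {K' : ℝ≥0} {f : E → F} (hf : LipschitzWith K' f) :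
    LipschitzCoverable d (f '' T) := by
  obtain ⟨m, K, Φ, s, h1, h2, h3⟩ := h
  refine ⟨m, K' * K, fun i => f ∘ Φ i, s, h1, fun i => ?_, ?_⟩
  · exact (hf.lipschitzOnWith (s := Set.univ)).comp (h2 i) (Set.mapsTo_univ _ _)
  · rintro _ ⟨x, hx, rfl⟩
    obtain ⟨i, z, hz, rfl⟩ := Set.mem_iUnion.mp (h3 hx)
    exact Set.mem_iUnion.mpr ⟨i, z, hz, rfl⟩

/-- A Lipschitz image of a bounded subset of `ℝ^κ` with `card κ ≤ d` is Lipschitz coverable. -/
lemma lipschitzCoverable_image_of_fintype {κ : Type*} [Fintype κ] (hκ : card κ ≤ d)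
    {s : Set (κ → ℝ)} (hs : IsBounded s) {K : ℝ≥0} {Φ : (κ → ℝ) → E}
    (hΦ : LipschitzOnWith K Φ s) : LipschitzCoverable d (Φ '' s) := by
  classical
  -- an injection `κ → Fin d`
  obtain ⟨g⟩ : Nonempty (κ ↪ Fin d) :=
    Function.Embedding.nonempty_of_card_le (by simpa using hκ)
  -- `p : (Fin d → ℝ) → (κ → ℝ)` restriction along `g`, `q` extension by zero
  let p : (Fin d → ℝ) → (κ → ℝ) := fun x k => x (g k)
  let q : (κ → ℝ) → (Fin d → ℝ) := fun y j => if h : ∃ k, g k = j then y h.choose else 0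
  have hpq : ∀ y, p (q y) = y := by
    intro y
    funext k
    have h : ∃ k', g k' = g k := ⟨k, rfl⟩
    simp only [p, q, dif_pos h]
    exact congrArg y (g.injective h.choose_spec)
  have hp : LipschitzWith 1 p := by
    refine LipschitzWith.of_dist_le_mul fun x y => ?_
    rw [NNReal.coe_one, one_mul]
    refine (dist_pi_le_iff dist_nonneg).mpr fun k => ?_
    exact dist_le_pi_dist x y (g k)
  have hq : LipschitzWith 1 q := by
    refine LipschitzWith.of_dist_le_mul fun x y => ?_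
    rw [NNReal.coe_one, one_mul]
    refine (dist_pi_le_iff dist_nonneg).mpr fun j => ?_
    by_cases h : ∃ k, g k = j
    · simp only [q, dif_pos h]
      exact dist_le_pi_dist x y _
    · simp only [q, dif_neg h, dist_self]
      exact dist_nonneg
  refine ⟨1, K * 1, fun _ => Φ ∘ p, fun _ => q '' s, fun _ => ?_, fun _ => ?_, ?_⟩
  · exact hq.isBounded_image hs
  · refine hΦ.comp (hp.lipschitzOnWith) ?_
    rintro _ ⟨y, hy, rfl⟩
    rw [hpq]; exact hy
  · rintro _ ⟨y, hy, rfl⟩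
    refine Set.mem_iUnion.mpr ⟨0, q y, ⟨y, hy, rfl⟩, ?_⟩
    simp only [Function.comp_apply, hpq]

lemma lipschitzCoverable_singleton (x : E) : LipschitzCoverable d ({x} : Set E) := by
  refine ⟨1, 0, fun _ _ => x, fun _ => {0}, fun _ => isBounded_singleton, fun _ => ?_, ?_⟩
  · exact (LipschitzWith.const x).lipschitzOnWith
  · rintro _ rfl
    exact Set.mem_iUnion.mpr ⟨0, 0, rfl, rfl⟩

end Basic

section Count

variable {ι : Type*} [Fintype ι]

/-- The `3^ι` cube indices around a point. -/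
noncomputable def nbhd [DecidableEq ι] (y : ι → ℝ) : Finset (ι → ℤ) :=
  Fintype.piFinset fun k => Finset.Icc (⌈y k⌉ - 2) ⌈y k⌉

lemma card_nbhd [DecidableEq ι] (y : ι → ℝ) : (nbhd y).card = 3 ^ card ι := by
  unfold nbhd
  rw [Fintype.card_piFinset]
  have : ∀ k, (Finset.Icc (⌈y k⌉ - 2) ⌈y k⌉).card = 3 := fun k => by
    rw [Int.card_Icc]
    have : ⌈y k⌉ + 1 - (⌈y k⌉ - 2) = 3 := by ring
    rw [this]; rfl
  simp only [this, Finset.prod_const, Finset.card_univ]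

lemma mem_nbhd_of_dist_le [DecidableEq ι] {ν : ι → ℤ} {x y : ι → ℝ} (hx : x ∈ ucube ν) (hxy : dist x y ≤ 1) :
    ν ∈ nbhd y := by
  unfold nbhd
  rw [Fintype.mem_piFinset]
  intro k
  have h1 := mem_ucube.mp hx k
  have h2 : |x k - y k| ≤ 1 := (dist_le_pi_dist x y k).trans hxy
  rw [abs_le] at h2
  rw [Finset.mem_Icc]
  have h3 := Int.le_ceil (y k)
  have h4 := Int.ceil_lt_add_one (y k)
  constructor
  · have : ((⌈y k⌉ - 2 : ℤ) : ℝ) < (ν k : ℝ) + 1 := by
      push_cast; linarith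
    have : (⌈y k⌉ - 2 : ℤ) < ν k + 1 := by exact_mod_cast this
    omega
  · have : (ν k : ℝ) < (⌈y k⌉ : ℝ) + 1 := by linarith
    have : ν k < ⌈y k⌉ + 1 := by exact_mod_cast this
    omega

/-- Covering count: the number of unit cubes meeting a set covered by `m` images of bounded sets
under `K`-Lipschitz maps with `K ≤ N`. -/
lemma ncard_ucube_inter_le {d m : ℕ} {T : Set (ι → ℝ)} {K : ℝ≥0}
    {Φ : Fin m → (Fin d → ℝ) → (ι → ℝ)} {s : Fin m → Set (Fin d → ℝ)} {R : ℝ}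
    (hR : ∀ i, ∀ x ∈ s i, ‖x‖ ≤ R) (hΦ : ∀ i, LipschitzOnWith K (Φ i) (s i))
    (hT : T ⊆ ⋃ i, Φ i '' s i) {N : ℕ} (hN : 0 < N) (hKN : (K : ℝ) ≤ N) :
    {ν : ι → ℤ | (ucube ν ∩ T).Nonempty}.ncard ≤ m * (2 * ⌈N * R⌉₊ + 2) ^ d * 3 ^ card ι := by
  classical
  have hN' : (0 : ℝ) < N := Nat.cast_pos.mpr hN
  let cell : (Fin d → ℤ) → Set (Fin d → ℝ) := fun μ => {x | ∀ j, ⌊(N : ℝ) * x j⌋ = μ j}
  let P : Finset (Fin m × (Fin d → ℤ)) :=
    Finset.univ ×ˢ Fintype.piFinset fun _ : Fin d => Finset.Icc (-(⌈N * R⌉₊ : ℤ) - 1) ⌈N * R⌉₊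
  let G : Fin m × (Fin d → ℤ) → Finset (ι → ℤ) := fun q =>
    if h : (s q.1 ∩ cell q.2).Nonempty then nbhd (Φ q.1 h.some) else ∅
  have hsub : {ν : ι → ℤ | (ucube ν ∩ T).Nonempty} ⊆ ↑(P.biUnion G) := by
    rintro ν ⟨x, hxν, hxT⟩
    obtain ⟨i, z, hz, rfl⟩ := Set.mem_iUnion.mp (hT hxT)
    set μ : Fin d → ℤ := fun j => ⌊(N : ℝ) * z j⌋ with hμ
    have hne : (s i ∩ cell μ).Nonempty := ⟨z, hz, fun j => rfl⟩
    rw [Finset.mem_coe, Finset.mem_biUnion]
    refine ⟨(i, μ), ?_, ?_⟩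
    · rw [Finset.mem_product]
      refine ⟨Finset.mem_univ _, ?_⟩
      rw [Fintype.mem_piFinset]
      intro j
      have h1 : |z j| ≤ R := (norm_le_pi_norm z j).trans (hR i z hz)
      rw [abs_le] at h1
      have h2 : (N : ℝ) * z j ≤ N * R := mul_le_mul_of_nonneg_left h1.2 hN'.le
      have h3 : -((N : ℝ) * R) ≤ N * z j := by
        have := mul_le_mul_of_nonneg_left h1.1 hN'.le
        linarith
      have h4 : (N : ℝ) * R ≤ ⌈N * R⌉₊ := Nat.le_ceil _
      have h5 := Int.floor_le ((N : ℝ) * z j)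
      have h6 := Int.sub_one_lt_floor ((N : ℝ) * z j)
      rw [Finset.mem_Icc]
      constructor
      · have : ((-(⌈N * R⌉₊ : ℤ) - 1 : ℤ) : ℝ) < (⌊(N : ℝ) * z j⌋ : ℝ) := by
          push_cast; linarith
        have : (-(⌈N * R⌉₊ : ℤ) - 1 : ℤ) < ⌊(N : ℝ) * z j⌋ := by exact_mod_cast this
        exact this.le
      · have : ((⌊(N : ℝ) * z j⌋ : ℤ) : ℝ) ≤ ((⌈N * R⌉₊ : ℤ) : ℝ) := by
          push_cast; linarith
        exact_mod_cast this
    · simp only [G, dif_pos hne]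
      refine mem_nbhd_of_dist_le hxν ?_
      have hz0 := hne.some_mem
      have hd : dist z hne.some ≤ 1 / N := by
        refine (dist_pi_le_iff (by positivity)).mpr fun j => ?_
        have hfl : ⌊(N : ℝ) * z j⌋ = ⌊(N : ℝ) * hne.some j⌋ := (hz0.2 j).symm
        have h7 := Int.abs_sub_lt_one_of_floor_eq_floor hfl
        rw [← mul_sub, abs_mul, abs_of_pos hN'] at h7
        rw [Real.dist_eq, le_div_iff₀ hN', mul_comm]
        exact h7.le
      calc dist (Φ i z) (Φ i hne.some) ≤ K * dist z hne.some :=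
            (hΦ i).dist_le_mul _ hz _ hz0.1
        _ ≤ K * (1 / N) := by gcongr
        _ ≤ 1 := by
            rw [mul_one_div]
            exact div_le_one_of_le₀ hKN hN'.le
  have hPcard : P.card = m * (2 * ⌈N * R⌉₊ + 2) ^ d := by
    simp only [P, Finset.card_product, Finset.card_univ, Fintype.card_fin, Fintype.card_piFinset,
      Finset.prod_const, Int.card_Icc]
    congr 2
    omega
  calc {ν : ι → ℤ | (ucube ν ∩ T).Nonempty}.ncard
      ≤ (↑(P.biUnion G) : Set (ι → ℤ)).ncard :=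
        Set.ncard_le_ncard hsub (Finset.finite_toSet _)
    _ = (P.biUnion G).card := Set.ncard_coe_finset _
    _ ≤ ∑ q ∈ P, (G q).card := Finset.card_biUnion_le
    _ ≤ ∑ _q ∈ P, 3 ^ card ι := by
        refine Finset.sum_le_sum fun q _ => ?_
        by_cases h : (s q.1 ∩ cell q.2).Nonempty
        · simp only [G, dif_pos h, card_nbhd, le_refl]
        · simp only [G, dif_neg h, Finset.card_empty, zero_le]
    _ = P.card * 3 ^ card ι := by rw [Finset.sum_const, smul_eq_mul]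
    _ = m * (2 * ⌈N * R⌉₊ + 2) ^ d * 3 ^ card ι := by rw [hPcard]

/-- The number of unit cubes meeting a dilate `t • T` of a Lipschitz coverable set is
`O(t ^ d)`. -/
lemma exists_ncard_ucube_inter_smul_le {d : ℕ} {T : Set (ι → ℝ)} (hT : LipschitzCoverable d T) :
    ∃ C : ℝ, 0 ≤ C ∧ ∀ t : ℝ, 1 ≤ t →
      ({ν : ι → ℤ | (ucube ν ∩ t • T).Nonempty}.ncard : ℝ) ≤ C * t ^ d := by
  obtain ⟨m, K, Φ, s, h1, h2, h3⟩ := hT
  obtain ⟨R, hR⟩ : ∃ R : ℝ, ∀ i, ∀ x ∈ s i, ‖x‖ ≤ R := by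
    obtain ⟨R, hR⟩ := ((isBounded_iUnion (ι := Fin m)).mpr h1).exists_norm_le
    exact ⟨R, fun i x hx => hR x (Set.mem_iUnion.mpr ⟨i, hx⟩)⟩
  set R' := max R 0 with hR'
  have hR0 : 0 ≤ R' := le_max_right _ _
  refine ⟨m * (2 * (K + 2) * R' + 4) ^ d * 3 ^ card ι, by positivity, fun t ht => ?_⟩
  have ht0 : 0 < t := by linarith
  set N : ℕ := ⌈t * K⌉₊ + 1 with hN
  have hcov : t • T ⊆ ⋃ i, (fun z => t • Φ i z) '' s i := by
    rintro _ ⟨x, hx, rfl⟩
    obtain ⟨i, z, hz, rfl⟩ := Set.mem_iUnion.mp (h3 hx)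
    exact Set.mem_iUnion.mpr ⟨i, z, hz, rfl⟩
  have hlip : ∀ i, LipschitzOnWith (‖t‖₊ * K) (fun z => t • Φ i z) (s i) := fun i =>
    (lipschitzWith_smul t).comp_lipschitzOnWith (h2 i)
  have hKN : ((‖t‖₊ * K : ℝ≥0) : ℝ) ≤ N := by
    rw [NNReal.coe_mul, coe_nnnorm, Real.norm_of_nonneg ht0.le, hN, Nat.cast_add, Nat.cast_one]
    exact (Nat.le_ceil _).trans (by linarith)
  have key := ncard_ucube_inter_le (N := N) (R := R')
    (fun i x hx => (hR i x hx).trans (le_max_left _ _)) hlip hcov (Nat.succ_pos _) hKN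
  have hK0 : (0 : ℝ) ≤ K := K.coe_nonneg
  have hNle : (N : ℝ) ≤ t * K + 2 := by
    rw [hN, Nat.cast_add, Nat.cast_one]
    have := Nat.ceil_lt_add_one (mul_nonneg ht0.le hK0)
    linarith
  have hceil : ((⌈(N : ℝ) * R'⌉₊ : ℕ) : ℝ) ≤ (t * K + 2) * R' + 1 := by
    have h4 := Nat.ceil_lt_add_one (mul_nonneg (Nat.cast_nonneg N) hR0)
    have h5 : (N : ℝ) * R' ≤ (t * K + 2) * R' := mul_le_mul_of_nonneg_right hNle hR0
    linarith
  have hbase : ((2 * ⌈(N : ℝ) * R'⌉₊ + 2 : ℕ) : ℝ) ≤ (2 * (K + 2) * R' + 4) * t := by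
    push_cast
    have h6 : 0 ≤ (t - 1) * (4 * R' + 4) := mul_nonneg (by linarith) (by linarith)
    nlinarith
  calc ({ν : ι → ℤ | (ucube ν ∩ t • T).Nonempty}.ncard : ℝ)
      ≤ ((m * (2 * ⌈(N : ℝ) * R'⌉₊ + 2) ^ d * 3 ^ card ι : ℕ) : ℝ) := by exact_mod_cast key
    _ = m * ((2 * ⌈(N : ℝ) * R'⌉₊ + 2 : ℕ) : ℝ) ^ d * 3 ^ card ι := by push_cast; ring
    _ ≤ m * ((2 * (K + 2) * R' + 4) * t) ^ d * 3 ^ card ι := by
        gcongr
    _ = m * (2 * (K + 2) * R' + 4) ^ d * 3 ^ card ι * t ^ d := by rw [mul_pow]; ring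

/-- **Lipschitz principle**, standard lattice: if the frontier of the bounded measurable set `D`
is Lipschitz coverable in dimension `d`, the number of integer points of `t • D` is
`t ^ card ι * vol D + O(t ^ d)`. -/
theorem exists_abs_card_sub_le_pi {d : ℕ} {D : Set (ι → ℝ)} (hD₁ : IsBounded D)
    (hD₂ : MeasurableSet D) (hD₃ : LipschitzCoverable d (frontier D)) :
    ∃ C : ℝ, 0 ≤ C ∧ ∀ t : ℝ, 1 ≤ t →
      |(Nat.card {ν : ι → ℤ // (fun i => (ν i : ℝ)) ∈ t • D} : ℝ) - t ^ card ι * volume.real D|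
        ≤ C * t ^ d := by
  obtain ⟨C, hC0, hC⟩ := exists_ncard_ucube_inter_smul_le hD₃
  refine ⟨C, hC0, fun t ht => ?_⟩
  have ht0 : 0 < t := by linarith
  have h := abs_card_sub_volume_le (t • D) (hD₁.smul₀ t) (hD₂.const_smul₀ t)
  have e1 : Nat.card {ν : ι → ℤ // utag ν ∈ t • D} =
      Nat.card {ν : ι → ℤ // (fun i => (ν i : ℝ)) ∈ t • D} := by
    refine Nat.card_congr (Equiv.subtypeEquiv (Equiv.addRight (1 : ι → ℤ)) fun ν => ?_)
    have : (fun i => (((Equiv.addRight (1 : ι → ℤ)) ν i : ℤ) : ℝ)) = utag ν := by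
      funext i
      simp [utag]
    rw [this]
  have e2 : volume.real (t • D) = t ^ card ι * volume.real D := by
    rw [measureReal_def, Measure.addHaar_smul, ENNReal.toReal_mul,
      ENNReal.toReal_ofReal (abs_nonneg _), finrank_fintype_fun_eq_card,
      abs_of_nonneg (pow_nonneg ht0.le _), measureReal_def]
  have e3 : frontier (t • D) = t • frontier D := by
    have := (Homeomorph.smulOfNeZero t ht0.ne').image_frontier D
    simpa only [Homeomorph.smulOfNeZero_apply, Set.image_smul] using this.symm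
  rw [e1, e2, e3] at h
  exact h.trans (hC t ht)

/-- Points of `S` in the standard lattice correspond to integer vectors. -/
lemma card_inter_span_basisFun (S : Set (ι → ℝ)) :
    Nat.card ↥(S ∩ (span ℤ (Set.range (Pi.basisFun ℝ ι)) : Set (ι → ℝ))) =
      Nat.card {ν : ι → ℤ // (fun i => (ν i : ℝ)) ∈ S} := by
  classical
  have hmem : ∀ y : ι → ℝ, y ∈ span ℤ (Set.range (Pi.basisFun ℝ ι)) ↔
      ∀ i, ∃ n : ℤ, (n : ℝ) = y i := by
    intro y
    rw [Basis.mem_span_iff_repr_mem]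
    simp [Pi.basisFun_repr]
  symm
  refine Nat.card_congr (Equiv.ofBijective
    (fun ν => ⟨fun i => (ν.1 i : ℝ), ν.2, (hmem _).mpr fun i => ⟨ν.1 i, rfl⟩⟩) ⟨?_, ?_⟩)
  · intro ν ν' h
    have h' := congrArg Subtype.val h
    apply Subtype.ext
    funext i
    have h'' : ((ν.1 i : ℤ) : ℝ) = ((ν'.1 i : ℤ) : ℝ) := congrFun h' i
    exact_mod_cast h''
  · rintro ⟨y, hyS, hy⟩
    choose n hn using (hmem y).mp hy
    refine ⟨⟨n, ?_⟩, ?_⟩
    · have : (fun i => (n i : ℝ)) = y := funext hn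
      rw [this]; exact hyS
    · exact Subtype.ext (funext hn)

end Count

section General

variable {E : Type*} [NormedAddCommGroup E] [NormedSpace ℝ E]
variable {L : Submodule ℤ E} [DiscreteTopology L] [IsZLattice ℝ L]
variable {ι : Type*} [Fintype ι] (b : Basis ι ℤ L)

omit [Fintype ι] in
lemma frontier_equivFun_image [Finite ι] [FiniteDimensional ℝ E] (b₀ : Basis ι ℝ E) (s : Set E) :
    frontier (b₀.equivFun '' s) = b₀.equivFun '' (frontier s) := by
  rw [LinearEquiv.image_eq_preimage_symm, LinearEquiv.image_eq_preimage_symm]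
  exact (Homeomorph.preimage_frontier b₀.equivFunL.toHomeomorph.symm s).symm

omit [DiscreteTopology L] [IsZLattice ℝ L] in
lemma smul_cone_eq {X : Set E} (hX : ∀ ⦃x⦄ ⦃r : ℝ⦄, x ∈ X → 0 < r → r • x ∈ X)
    {F : E → ℝ} (hF₁ : ∀ x ⦃r : ℝ⦄, 0 ≤ r → F (r • x) = r ^ card ι * (F x)) {c : ℝ} (hc : 0 < c) :
    c • {x ∈ X | F x ≤ 1} = {x ∈ X | F x ≤ c ^ card ι} := by
  ext x
  simp_rw [Set.mem_smul_set_iff_inv_smul_mem₀ hc.ne', Set.mem_ofPred_eq, hF₁ _
    (inv_pos_of_pos hc).le, inv_pow, inv_mul_le_iff₀ (pow_pos hc _), mul_one, and_congr_left_iff]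
  exact fun _ ↦ ⟨fun h ↦ (smul_inv_smul₀ hc.ne' x) ▸ hX h hc, fun h ↦ hX h (inv_pos_of_pos hc)⟩

/-- **Lipschitz principle**, general lattice (quantitative version of
`ZLattice.covolume.tendsto_card_le_div''`). -/
theorem exists_abs_card_le_sub_le'' [FiniteDimensional ℝ E] [MeasurableSpace E] [BorelSpace E]
    [Nonempty ι] {X : Set E} (hX : ∀ ⦃x⦄ ⦃r : ℝ⦄, x ∈ X → 0 < r → r • x ∈ X)
    {F : E → ℝ} (h₁ : ∀ x ⦃r : ℝ⦄, 0 ≤ r → F (r • x) = r ^ card ι * (F x))
    (h₂ : IsBounded {x ∈ X | F x ≤ 1}) (h₃ : MeasurableSet {x ∈ X | F x ≤ 1}) {d : ℕ}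
    (h₄ : LipschitzCoverable d (frontier {x | x ∈ X ∧ F x ≤ 1})) :
    ∃ C : ℝ, 0 ≤ C ∧ ∀ c : ℝ, 1 ≤ c →
      |(Nat.card ({x ∈ X | F x ≤ c} ∩ L : Set E) : ℝ) -
        c * volume.real ((b.ofZLatticeBasis ℝ).equivFun '' {x ∈ X | F x ≤ 1})|
          ≤ C * c ^ ((d : ℝ) / card ι) := by
  classical
  have hb : IsBounded ((b.ofZLatticeBasis ℝ).equivFun '' {x | x ∈ X ∧ F x ≤ 1}) := by
    rw [← NormedSpace.isVonNBounded_iff ℝ] at h₂ ⊢
    exact Bornology.IsVonNBounded.image h₂ ((b.ofZLatticeBasis ℝ).equivFunL : E →L[ℝ] ι → ℝ)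
  have hm : MeasurableSet ((b.ofZLatticeBasis ℝ).equivFun '' {x | x ∈ X ∧ F x ≤ 1}) :=
    (b.ofZLatticeBasis ℝ).equivFunL.toHomeomorph.toMeasurableEquiv.measurableSet_image.mpr h₃
  have hf : LipschitzCoverable d
      (frontier ((b.ofZLatticeBasis ℝ).equivFun '' {x | x ∈ X ∧ F x ≤ 1})) := by
    rw [frontier_equivFun_image]
    exact h₄.image ((b.ofZLatticeBasis ℝ).equivFunL.lipschitz)
  obtain ⟨C, hC0, hC⟩ := exists_abs_card_sub_le_pi hb hm hf
  refine ⟨C, hC0, fun c hc => ?_⟩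
  have hc0 : 0 < c := by linarith
  have hcard : (card ι : ℝ) ≠ 0 := Nat.cast_ne_zero.mpr card_ne_zero
  set t := c ^ (card ι : ℝ)⁻¹ with ht
  have ht1 : 1 ≤ t := Real.one_le_rpow hc (by positivity)
  have ht0 : 0 < t := by linarith
  have htpow : t ^ card ι = c := by
    rw [ht, ← Real.rpow_natCast, Real.rpow_inv_rpow hc0.le hcard]
  have htd : t ^ d = c ^ ((d : ℝ) / card ι) := by
    rw [ht, ← Real.rpow_natCast, ← Real.rpow_mul hc0.le]
    congr 1
    field_simp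
  have key := hC t ht1
  rw [htpow, htd] at key
  have hcardeq : Nat.card ({x ∈ X | F x ≤ c} ∩ L : Set E) =
      Nat.card {ν : ι → ℤ // (fun i => (ν i : ℝ)) ∈
        t • ((b.ofZLatticeBasis ℝ).equivFun '' {x | x ∈ X ∧ F x ≤ 1})} := by
    rw [← card_inter_span_basisFun]
    refine Nat.card_congr ((b.ofZLatticeBasis ℝ).equivFun.toEquiv.subtypeEquiv fun x => ?_)
    rw [Set.mem_inter_iff, Set.mem_inter_iff]
    refine and_congr ?_ ?_
    · rw [← htpow, ← smul_cone_eq hX h₁ ht0, ← image_smul_set]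
      exact ((b.ofZLatticeBasis ℝ).equivFun.injective.mem_set_image).symm
    · have hL : x ∈ L ↔ x ∈ span ℤ (Set.range (b.ofZLatticeBasis ℝ)) := by
        rw [b.ofZLatticeBasis_span ℝ]
      rw [SetLike.mem_coe, SetLike.mem_coe, hL,
        Basis.mem_span_iff_repr_mem, Basis.mem_span_iff_repr_mem]
      simp [Pi.basisFun_repr]
  rw [hcardeq]
  exact key

end General

section InnerProductSpace

variable {E : Type*} [NormedAddCommGroup E] [InnerProductSpace ℝ E] [FiniteDimensional ℝ E]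
  [MeasurableSpace E] [BorelSpace E]
variable (L : Submodule ℤ E) [DiscreteTopology L] [IsZLattice ℝ L]

/-- **Lipschitz principle** (quantitative version of
`ZLattice.covolume.tendsto_card_le_div'`): with the hypotheses of that theorem and the frontier
of `{x ∈ X | F x ≤ 1}` Lipschitz coverable in dimension `d`, the number of lattice points of
the cone `X` with `F x ≤ c` is `c * vol / covol + O(c ^ (d / finrank))`. -/
theorem exists_abs_card_le_sub_le' [Nontrivial E] {X : Set E} {F : E → ℝ}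
    (hX : ∀ ⦃x⦄ ⦃r : ℝ⦄, x ∈ X → 0 < r → r • x ∈ X)
    (h₁ : ∀ x ⦃r : ℝ⦄, 0 ≤ r → F (r • x) = r ^ finrank ℝ E * (F x))
    (h₂ : IsBounded {x ∈ X | F x ≤ 1}) (h₃ : MeasurableSet {x ∈ X | F x ≤ 1}) {d : ℕ}
    (h₄ : LipschitzCoverable d (frontier {x ∈ X | F x ≤ 1})) :
    ∃ C : ℝ, 0 ≤ C ∧ ∀ c : ℝ, 1 ≤ c →
      |(Nat.card ({x ∈ X | F x ≤ c} ∩ L : Set E) : ℝ) -
        c * (volume.real {x ∈ X | F x ≤ 1} / ZLattice.covolume L)|
          ≤ C * c ^ ((d : ℝ) / finrank ℝ E) := by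
  let b := Module.Free.chooseBasis ℤ L
  have hcardι : card (Module.Free.ChooseBasisIndex ℤ L) = finrank ℝ E := by
    rw [← finrank_eq_card_chooseBasisIndex, ZLattice.rank ℝ L]
  have : Nonempty (Module.Free.ChooseBasisIndex ℤ L) := by
    have : Nontrivial L := nontrivial_of_finrank_pos <| (ZLattice.rank ℝ L).symm ▸ finrank_pos
    infer_instance
  obtain ⟨C, hC0, hC⟩ := exists_abs_card_le_sub_le'' b hX (by rwa [hcardι]) h₂ h₃ h₄
  refine ⟨C, hC0, fun c hc => ?_⟩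
  have key := hC c hc
  rw [hcardι] at key
  have hv : volume.real ((b.ofZLatticeBasis ℝ).equivFun '' {x | x ∈ X ∧ F x ≤ 1}) =
      volume.real {x ∈ X | F x ≤ 1} / ZLattice.covolume L := by
    simp only [measureReal_def]
    rw [ZLattice.volume_image_eq_volume_div_covolume' L b h₃.nullMeasurableSet,
      ENNReal.toReal_div, ENNReal.toReal_ofReal (ZLattice.covolume_pos L volume).le]
  rwa [hv] at key

end InnerProductSpace

end Fermat.Agent.S14.LipschitzCount
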