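import Fermat.Agent.S14.UnitEigen

set_option autoImplicit false
set_option linter.unusedSectionVars false
set_option linter.style.haveILetI false

/-!
# Field-level form of `UnitEigen`

The main theorem of `Fermat.Agent.S14.UnitEigen` restated with hypotheses in the field `K`
(no `unitsMap`), natural-number exponents, and the symmetric conclusion
`u ^ i = c ^ j * ε ^ p * t` with `p ∤ i` or `p ∤ j`.  Also: existence of a generator of
`Gal(K/ℚ)` of order `p - 1`.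
-/

namespace Fermat.Agent.S14.UnitEigenK

open NumberField NumberField.Units Fermat.Agent.S14.UnitEigen

variable {K : Type*} [Field K] [NumberField K]

/-- Unit-level equation from a field-level equation. -/
theorem unitsMap_eq_of_coe_eq (σ : K ≃ₐ[ℚ] K) {k p : ℕ} {u v t : (𝓞 K)ˣ}
    (h : σ ((u : 𝓞 K) : K) = ((u : 𝓞 K) : K) ^ k * ((v : 𝓞 K) : K) ^ p * ((t : 𝓞 K) : K)) :
    unitsMap σ u = u ^ (k : ℤ) * v ^ p * t := by
  apply Units.ext
  apply RingOfIntegers.ext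
  rw [coe_unitsMap, h, zpow_natCast]
  simp

/-- There is an element of order `p - 1` in the Galois group of the `p`-th cyclotomic field. -/
theorem exists_orderOf_eq (p : ℕ) [Fact p.Prime] [IsCyclotomicExtension {p} ℚ K] :
    ∃ σ : K ≃ₐ[ℚ] K, orderOf σ = p - 1 := by
  have hp := (Fact.out : p.Prime)
  haveI : NeZero p := ⟨hp.ne_zero⟩
  obtain ⟨g, hg⟩ := IsCyclic.exists_generator (α := (ZMod p)ˣ)
  refine ⟨(IsCyclotomicExtension.Rat.galEquivZMod p K).symm g, ?_⟩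
  rw [MulEquiv.orderOf_eq, orderOf_eq_card_of_forall_mem_zpowers hg, Nat.card_eq_fintype_card,
    ZMod.card_units_eq_totient, Nat.totient_prime hp]

/-- **Eigenspaces of cyclotomic units are at most one-dimensional** (field-level, symmetric
form).  `p` an odd prime, `K` the `p`-th cyclotomic field, `σ` of order `p - 1` in `Gal(K/ℚ)`,
`k` any natural number. If `σ u = u ^ k * v ^ p * t` and `σ c = c ^ k * w ^ p * t'` in `K` with
`t`, `t'` roots of unity, then `u ^ i = c ^ j * ε ^ p * t''` with `p ∤ i` or `p ∤ j` and `t''` a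
root of unity. -/
theorem exists_pow_eq_pow_mul_pow_mul (p : ℕ) [Fact p.Prime] (hp2 : p ≠ 2)
    [IsCyclotomicExtension {p} ℚ K] (σ : K ≃ₐ[ℚ] K) (hσ : orderOf σ = p - 1) (k : ℕ)
    (u c : (𝓞 K)ˣ)
    (hu : ∃ v t : (𝓞 K)ˣ, IsOfFinOrder t ∧
      σ ((u : 𝓞 K) : K) = ((u : 𝓞 K) : K) ^ k * ((v : 𝓞 K) : K) ^ p * ((t : 𝓞 K) : K))
    (hc : ∃ w t : (𝓞 K)ˣ, IsOfFinOrder t ∧
      σ ((c : 𝓞 K) : K) = ((c : 𝓞 K) : K) ^ k * ((w : 𝓞 K) : K) ^ p * ((t : 𝓞 K) : K)) :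
    ∃ (i j : ℕ) (ε t : (𝓞 K)ˣ), IsOfFinOrder t ∧ (¬ p ∣ i ∨ ¬ p ∣ j) ∧
      u ^ i = c ^ j * ε ^ p * t := by
  have hp := (Fact.out : p.Prime)
  have htor : ∀ t : (𝓞 K)ˣ, t ∈ torsion K ↔ IsOfFinOrder t := fun t => by
    rw [torsion, CommGroup.mem_torsion]
  by_cases hc' : ∃ v t : (𝓞 K)ˣ, t ∈ torsion K ∧ c = v ^ p * t
  · obtain ⟨v, t, ht, hcv⟩ := hc'
    refine ⟨p, 1, u * v⁻¹, t⁻¹, ((htor t).mp ht).inv, Or.inr ?_, ?_⟩
    · intro h
      exact hp.one_lt.ne' (Nat.dvd_one.mp h)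
    · rw [hcv, pow_one, mul_pow, inv_pow]
      calc u ^ p = u ^ p * (v ^ p * (v ^ p)⁻¹) * (t * t⁻¹) := by
            rw [mul_inv_cancel, mul_inv_cancel, mul_one, mul_one]
        _ = v ^ p * t * (u ^ p * (v ^ p)⁻¹) * t⁻¹ := by
            simp only [mul_comm, mul_left_comm, mul_assoc]
  · obtain ⟨v, t, ht, hv⟩ := hu
    obtain ⟨w, s, hs, hw⟩ := hc
    obtain ⟨j, y, r, hr, hj⟩ := exists_eq_zpow_mul_pow_mul_torsion p hp2 σ hσ (k : ℤ) u c
      ⟨v, t, (htor t).mpr ht, unitsMap_eq_of_coe_eq σ hv⟩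
      ⟨w, s, (htor s).mpr hs, unitsMap_eq_of_coe_eq σ hw⟩ hc'
    have hp0 : (p : ℤ) ≠ 0 := by exact_mod_cast hp.ne_zero
    have hj0 : 0 ≤ j % (p : ℤ) := Int.emod_nonneg j hp0
    refine ⟨1, (j % (p : ℤ)).toNat, c ^ (j / (p : ℤ)) * y, r, (htor r).mp hr, Or.inl ?_, ?_⟩
    · intro h
      exact hp.one_lt.ne' (Nat.dvd_one.mp h)
    · rw [pow_one, hj, mul_pow, ← zpow_natCast c (j % (p : ℤ)).toNat, Int.toNat_of_nonneg hj0,
        ← zpow_natCast (c ^ (j / (p : ℤ))) p, ← zpow_mul, ← mul_assoc, ← zpow_add,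
        mul_comm (j / (p : ℤ)) (p : ℤ), Int.emod_add_mul_ediv]

end Fermat.Agent.S14.UnitEigenK
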